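/-
GATE-E / GE9-STAGE-CARRIER (helper73), file 1: **the stage carrier of RULING A6.2 as ONE abstract
theorem.**

Setting: `𝒪` a complete DVR (finite residue field, characteristic `0`); `M` a finite free
`𝒪`-module with an action of a commutative `𝒪`-algebra `Af` (the FULL Hecke algebra) and a perfect
`𝒪`-bilinear form `B` for which `Af` is self-adjoint; `𝔪` a maximal ideal of `Af`; `A` a commutative
ring (the ANEMIC Hecke algebra, reduced and finite over `ℤ`) with `ι : A →+* Af`; an `𝒪`-independent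
family `b : Fin d → M` (`d ≠ 0`) of joint `Af`-eigenvectors with the same character `χ`, residually
`𝔪`; and (OldQ) every ANEMIC `χ`-eigenvector of `locPart 𝔪 M` lies in `span b`.

Output (`exists_carrier`): the image ring `T' := ImageRing.TQ` of `𝒪 ⊗ A` in
`End_𝒪 (locPart 𝔪 M)` — a LOCAL `𝒪`-algebra, finite free over `𝒪`, generated by `π' : A →+* T'`,
with the augmentation `πO' : T' →ₐ[𝒪] 𝒪`, `πO' (π' t) = χ (ι t)`, `η_{T'} ≠ 0`, and
**(M1)** `#CongMod B (span b) ≤ #(𝒪/η_{T'})^d` — i.e. the carrier parameters of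
`GE9/Stage/RawFL.exists_rawFL` together with the `hM1` field of `Asm.StepInputFL'`.

Un-bundled pieces: `eigenChar`, `actAf`, `twLoc`, `iotaO`, `thetaRes`, `locHyp`, `mem_iff_not_isUnit`.
-/
import Mathlib
import Fermat.Agent.GB.B4.Datum.ImageRing
import Fermat.Agent.GE9.Eta.OmegaLoc
import Fermat.Agent.GE9.NumCrit.ModForm.EtaDet
import Fermat.Agent.GE9.Ind.EtaNe
import Fermat.Agent.GE9.Ind.Base
import Fermat.Agent.GS.Pet.DatumAlg

set_option autoImplicit false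
set_option linter.unusedSectionVars false
set_option linter.style.haveILetI false

noncomputable section

namespace Fermat.Agent.GE9.Stage.CarrierAbs

open TensorProduct IsLocalRing Submodule
open Fermat.Agent.GB.B3.Loc Fermat.Agent.GB.B4.Datum.ImageRing Fermat.Agent.GB.B4.Datum.Carrier
  Fermat.Agent.GE9.Eta Fermat.Agent.GE9.Eta.Loc Fermat.Agent.GE9.NumCrit
  Fermat.Agent.GE9.NumCrit.ModForm Fermat.Agent.GE9.Ind

/-! ### the character of a joint eigenvector -/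

section Char

variable {𝒪 : Type} [CommRing 𝒪] [IsDomain 𝒪] {Af : Type} [CommRing Af] [Algebra 𝒪 Af]
  {M : Type} [AddCommGroup M] [Module 𝒪 M] [Module Af M] [IsScalarTower 𝒪 Af M]
  [Module.IsTorsionFree 𝒪 M]

/-- the eigencharacter of a nonzero joint eigenvector, as an algebra hom -/
def eigenChar (χ : Af → 𝒪) {x : M} (hx0 : x ≠ 0) (hx : ∀ a : Af, a • x = χ a • x) :
    Af →ₐ[𝒪] 𝒪 :=
  have hinj := smul_left_injective 𝒪 hx0
  { toFun := χ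
    map_one' := hinj (by
      show χ 1 • x = (1 : 𝒪) • x
      rw [← hx, one_smul, one_smul])
    map_mul' := fun a a' => hinj (by
      show χ (a * a') • x = (χ a * χ a') • x
      rw [← hx, mul_smul, hx a', smul_comm, hx a, smul_smul, mul_comm])
    map_zero' := hinj (by
      show χ 0 • x = (0 : 𝒪) • x
      rw [← hx, zero_smul, zero_smul])
    map_add' := fun a a' => hinj (by
      show χ (a + a') • x = (χ a + χ a') • x
      rw [← hx, add_smul, add_smul, hx, hx])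
    commutes' := fun c => hinj (by
      show χ (algebraMap 𝒪 Af c) • x = (algebraMap 𝒪 𝒪 c) • x
      rw [← hx, algebraMap_smul, Algebra.algebraMap_self_apply]) }

@[simp] theorem eigenChar_apply (χ : Af → 𝒪) {x : M} (hx0 : x ≠ 0)
    (hx : ∀ a : Af, a • x = χ a • x) (a : Af) : eigenChar χ hx0 hx a = χ a := rfl

end Char

/-! ### the anemic action on the local part -/

section Action

variable {𝒪 : Type} [CommRing 𝒪] [IsLocalRing 𝒪]
  {Af : Type} [CommRing Af] [Algebra 𝒪 Af] (𝔪 : Ideal Af) [𝔪.IsMaximal]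
  {M : Type} [AddCommGroup M] [Module 𝒪 M] [Module Af M] [IsScalarTower 𝒪 Af M]
  {A : Type} [CommRing A] (ι : A →+* Af)

/-- the action of the full algebra on the `𝔪`-local part -/
def actAf : Af →ₐ[𝒪] Module.End 𝒪 (locPart 𝔪 M) := Algebra.lsmul 𝒪 𝒪 (locPart 𝔪 M)

theorem actAf_apply (a : Af) (x : locPart 𝔪 M) : actAf (𝒪 := 𝒪) 𝔪 a x = a • x := rfl

/-- the anemic action on the `𝔪`-local part -/
def twLoc : A →+* Module.End 𝒪 (locPart 𝔪 M) :=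
  ((actAf (𝒪 := 𝒪) (M := M) 𝔪 : Af →ₐ[𝒪] Module.End 𝒪 (locPart 𝔪 M)) : Af →+* _).comp ι

theorem twLoc_apply (t : A) (x : locPart 𝔪 M) : twLoc (𝒪 := 𝒪) 𝔪 ι t x = ι t • x := rfl

/-- `𝒪 ⊗ A → Af` -/
def iotaO : 𝒪 ⊗[ℤ] A →ₐ[𝒪] Af :=
  Algebra.TensorProduct.lift (Algebra.ofId 𝒪 Af) ι.toIntAlgHom (fun _ _ => Commute.all _ _)

theorem iotaO_tmul (x : 𝒪) (t : A) : iotaO (𝒪 := 𝒪) ι (x ⊗ₜ t) = x • ι t := by
  rw [iotaO, Algebra.TensorProduct.lift_tmul, Algebra.smul_def]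
  rfl

theorem twO_twLoc (a : 𝒪 ⊗[ℤ] A) :
    twO 𝒪 (twLoc (𝒪 := 𝒪) (M := M) 𝔪 ι) a = actAf 𝔪 (iotaO ι a) := by
  have h : twO 𝒪 (twLoc (𝒪 := 𝒪) (M := M) 𝔪 ι) = (actAf 𝔪).comp (iotaO ι) := by
    apply Algebra.TensorProduct.ext'
    intro x t
    rw [twO_tmul, AlgHom.comp_apply, iotaO_tmul, map_smul]
    rfl
  rw [h]
  rfl

/-- the residual character of the anemic algebra -/
def thetaRes (χA : Af →ₐ[𝒪] 𝒪) : A →+* ResidueField 𝒪 :=
  (residue 𝒪).comp ((χA : Af →+* 𝒪).comp ι)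

theorem thetaO_thetaRes (χA : Af →ₐ[𝒪] 𝒪) (a : 𝒪 ⊗[ℤ] A) :
    thetaO 𝒪 (thetaRes ι χA) a = residue 𝒪 (χA (iotaO ι a)) := by
  induction a using TensorProduct.induction_on with
  | zero => rw [map_zero, map_zero, map_zero, map_zero]
  | tmul x t =>
    rw [thetaO_tmul, iotaO_tmul, map_smul, smul_eq_mul, map_mul]
    rfl
  | add a b ha hb => rw [map_add, map_add, map_add, map_add, ha, hb]

/-- `𝔪` is the kernel of the residual character -/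
theorem mem_iff_not_isUnit (χA : Af →ₐ[𝒪] 𝒪) (h𝔪 : ∀ a : Af, a ∉ 𝔪 → IsUnit (χA a)) (a : Af) :
    a ∈ 𝔪 ↔ ¬ IsUnit (χA a) := by
  refine ⟨fun ha hu => ?_, fun h => by_contra fun ha => h (h𝔪 a ha)⟩
  set f : Af →+* ResidueField 𝒪 := (residue 𝒪).comp (χA : Af →+* 𝒪) with hf
  have hsurj : Function.Surjective f := by
    intro y
    obtain ⟨c, rfl⟩ := residue_surjective y
    exact ⟨algebraMap 𝒪 Af c, by
      rw [hf, RingHom.comp_apply, RingHom.coe_coe, AlgHom.commutes]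
      rfl⟩
  have hK : (RingHom.ker f).IsMaximal := RingHom.ker_isMaximal_of_surjective f hsurj
  have hle : RingHom.ker f ≤ 𝔪 := by
    intro s hs
    by_contra hs𝔪
    have hu' := h𝔪 s hs𝔪
    rw [RingHom.mem_ker, hf, RingHom.comp_apply, RingHom.coe_coe, residue_eq_zero_iff] at hs
    exact (mem_maximalIdeal _).mp hs hu'
  have heq : RingHom.ker f = 𝔪 := hK.eq_of_le (Ideal.IsMaximal.ne_top inferInstance) hle
  rw [← heq, RingHom.mem_ker, hf, RingHom.comp_apply, RingHom.coe_coe, residue_eq_zero_iff] at ha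
  exact (mem_maximalIdeal _).mp ha hu

end Action

/-! ### (LOC) -/

section Loc

variable {𝒪 : Type} [CommRing 𝒪] [IsLocalRing 𝒪] [IsNoetherianRing 𝒪]
  [IsAdicComplete (maximalIdeal 𝒪) 𝒪]
  {Af : Type} [CommRing Af] [Algebra 𝒪 Af] (𝔪 : Ideal Af) [𝔪.IsMaximal]
  {M : Type} [AddCommGroup M] [Module 𝒪 M] [Module Af M] [IsScalarTower 𝒪 Af M]
  [Module.Finite 𝒪 M]
  {A : Type} [CommRing A] (ι : A →+* Af)

/-- **(LOC)** for the anemic action on the `𝔪`-local part -/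
theorem locHyp (χA : Af →ₐ[𝒪] 𝒪) (h𝔪 : ∀ a : Af, a ∉ 𝔪 → IsUnit (χA a)) :
    LocHyp 𝒪 (thetaRes ι χA) (twLoc (𝒪 := 𝒪) (M := M) 𝔪 ι) := by
  intro a ha
  rw [thetaO_thetaRes] at ha
  have hu : IsUnit (χA (iotaO ι a)) := by
    by_contra hnu
    exact ha ((residue_eq_zero_iff _).mpr ((mem_maximalIdeal _).mpr hnu))
  have hs : iotaO ι a ∉ 𝔪 := fun hmem => (mem_iff_not_isUnit 𝔪 χA h𝔪 _).mp hmem hu
  rw [twO_twLoc]
  exact bijective_smul_locPart 𝒪 𝔪 hs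

end Loc

/-! ### the carrier -/

section Carrier

variable {𝒪 : Type} [CommRing 𝒪] [IsDomain 𝒪] [IsDiscreteValuationRing 𝒪]
  [IsAdicComplete (maximalIdeal 𝒪) 𝒪] [Finite (ResidueField 𝒪)] [CharZero 𝒪]
  {Af : Type} [CommRing Af] [Algebra 𝒪 Af] (𝔪 : Ideal Af) [𝔪.IsMaximal]
  {M : Type} [AddCommGroup M] [Module 𝒪 M] [Module Af M] [IsScalarTower 𝒪 Af M]
  [Module.Finite 𝒪 M] [Module.Free 𝒪 M]
  {A : Type} [CommRing A] [IsReduced A] [Module.Finite ℤ A] (ι : A →+* Af)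

/-- **The stage carrier** (RULING A6.2): the image ring of the anemic algebra on the `𝔪`-local
part, with its augmentation, `η ≠ 0` and (M1). -/
theorem exists_carrier (B : M →ₗ[𝒪] M →ₗ[𝒪] 𝒪) (hperf : Perfect B)
    (hsa : ∀ (a : Af) (x y : M), B (a • x) y = B x (a • y))
    {d : ℕ} (hd : d ≠ 0) (b : Fin d → M) (hli : LinearIndependent 𝒪 b)
    (χ : Af → 𝒪) (hb : ∀ (a : Af) (i : Fin d), a • b i = χ a • b i)
    (h𝔪 : ∀ a : Af, a ∉ 𝔪 → IsUnit (χ a))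
    (hold : ∀ x ∈ locPart 𝔪 M, (∀ t : A, ι t • x = χ (ι t) • x) →
      x ∈ span 𝒪 (Set.range b)) :
    ∃ (T' : Type) (_ : CommRing T') (_ : IsLocalRing T') (_ : Algebra 𝒪 T')
      (_ : Module.Finite 𝒪 T') (_ : Module.Free 𝒪 T') (π' : A →+* T') (πO' : T' →ₐ[𝒪] 𝒪),
      Algebra.adjoin 𝒪 (Set.range π') = ⊤ ∧ (∀ t : A, πO' (π' t) = χ (ι t)) ∧
      etaIdeal πO' ≠ ⊥ ∧
      Nat.card (CongMod B (span 𝒪 (Set.range b))) ≤ etaCard πO' ^ d := by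
  classical
  set i0 : Fin d := ⟨0, Nat.pos_of_ne_zero hd⟩ with hi0
  have hx0 : b i0 ≠ 0 := hli.ne_zero i0
  set χA : Af →ₐ[𝒪] 𝒪 := eigenChar χ hx0 (fun a => hb a i0) with hχA
  have hχAχ : ∀ a, χA a = χ a := fun _ => rfl
  have hbL : ∀ i, b i ∈ locPart 𝔪 M := fun i =>
    mem_locPart_of_eigen 𝔪 χ h𝔪 (fun a => hb a i)
  set bL : Fin d → locPart 𝔪 M := fun i => ⟨b i, hbL i⟩ with hbLdef
  haveI : Module.Finite 𝒪 (locPart 𝔪 M) := finite_locPart 𝒪 𝔪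
  haveI : Module.Free 𝒪 (locPart 𝔪 M) := free_locPart 𝒪 𝔪
  haveI : Nontrivial (locPart 𝔪 M) :=
    ⟨⟨bL i0, 0, fun h => hx0 (congrArg Subtype.val h)⟩⟩
  have hloc : LocHyp 𝒪 (thetaRes ι χA) (twLoc (𝒪 := 𝒪) (M := M) 𝔪 ι) := locHyp 𝔪 ι χA h𝔪
  haveI : Fact (LocHyp 𝒪 (thetaRes ι χA) (twLoc (𝒪 := 𝒪) (M := M) 𝔪 ι)) := ⟨hloc⟩
  -- the point
  set χO : 𝒪 ⊗[ℤ] A →ₐ[𝒪] 𝒪 := χA.comp (iotaO ι) with hχO
  have hker : ∀ a ∈ RingHom.ker (twO 𝒪 (twLoc (𝒪 := 𝒪) (M := M) 𝔪 ι)), χO a = 0 := by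
    intro a ha
    rw [RingHom.mem_ker, twO_twLoc] at ha
    have h1 : iotaO ι a • b i0 = 0 := by
      have h2 := congrArg (fun f : Module.End 𝒪 (locPart 𝔪 M) =>
        ((f (bL i0) : locPart 𝔪 M) : M)) ha
      simpa [actAf_apply] using h2
    rw [hb, smul_eq_zero] at h1
    exact h1.resolve_right hx0
  let πO' : TQ 𝒪 (thetaRes ι χA) (twLoc (𝒪 := 𝒪) (M := M) 𝔪 ι) →ₐ[𝒪] 𝒪 :=
    Ideal.Quotient.liftₐ (RingHom.ker (twO 𝒪 (twLoc (𝒪 := 𝒪) (M := M) 𝔪 ι))) χO hker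
  have hπO'mk : ∀ a, πO' (mkQ 𝒪 (thetaRes ι χA) (twLoc (𝒪 := 𝒪) (M := M) 𝔪 ι) a) = χO a :=
    fun _ => rfl
  have hpt : ∀ t : A, πO' (chi 𝒪 (thetaRes ι χA) (twLoc (𝒪 := 𝒪) (M := M) 𝔪 ι) t) = χ (ι t) := by
    intro t
    rw [chi_apply, hπO'mk, hχO, AlgHom.comp_apply, iotaO_tmul, one_smul, hχAχ]
  have hgen := adjoin_range_chi 𝒪 (thetaRes ι χA) (twLoc (𝒪 := 𝒪) (M := M) 𝔪 ι)
  -- reducedness and `η ≠ 0`
  haveI : IsReduced (TQ 𝒪 (thetaRes ι χA) (twLoc (𝒪 := 𝒪) (M := M) 𝔪 ι)) :=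
    Fermat.Agent.GS.Pet.DatumAlg.isReduced_of_adjoin_range (O := 𝒪) _ hgen
  have hη : etaIdeal πO' ≠ ⊥ := etaIdeal_ne_bot_of_finite πO'
  haveI : Finite (𝒪 ⧸ etaIdeal πO') := finite_quotient_of_ne_bot _ hη
  -- the module structure of the local part over the carrier
  letI modT : Module (TQ 𝒪 (thetaRes ι χA) (twLoc (𝒪 := 𝒪) (M := M) 𝔪 ι)) (locPart 𝔪 M) :=
    Module.compHom _ (act 𝒪 (thetaRes ι χA) (twLoc (𝒪 := 𝒪) (M := M) 𝔪 ι)).toRingHom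
  have hsmul : ∀ (a : 𝒪 ⊗[ℤ] A) (x : locPart 𝔪 M),
      (mkQ 𝒪 (thetaRes ι χA) (twLoc (𝒪 := 𝒪) (M := M) 𝔪 ι) a) • x = iotaO ι a • x := by
    intro a x
    show act 𝒪 (thetaRes ι χA) (twLoc (𝒪 := 𝒪) (M := M) 𝔪 ι) (mkQ 𝒪 _ _ a) x = _
    rw [act_mkQ, twO_twLoc]
    rfl
  haveI : IsScalarTower 𝒪 (TQ 𝒪 (thetaRes ι χA) (twLoc (𝒪 := 𝒪) (M := M) 𝔪 ι))
      (locPart 𝔪 M) := ⟨fun c t x => by
    show act 𝒪 (thetaRes ι χA) (twLoc (𝒪 := 𝒪) (M := M) 𝔪 ι) (c • t) x =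
      c • act 𝒪 (thetaRes ι χA) (twLoc (𝒪 := 𝒪) (M := M) 𝔪 ι) t x
    rw [map_smul]
    rfl⟩
  -- the binders of `stage_binders`
  have hperfL := perfect_BLoc 𝔪 B hsa hperf
  have hadj : ∀ (t : TQ 𝒪 (thetaRes ι χA) (twLoc (𝒪 := 𝒪) (M := M) 𝔪 ι))
      (x y : locPart 𝔪 M), BLoc 𝔪 B (t • x) y = BLoc 𝔪 B x (t • y) := by
    intro t x y
    obtain ⟨a, rfl⟩ := mkQ_surjective 𝒪 (thetaRes ι χA) (twLoc (𝒪 := 𝒪) (M := M) 𝔪 ι) t
    rw [hsmul, hsmul]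
    exact BLoc_selfAdjoint 𝔪 B hsa _ x y
  have hliL : LinearIndependent 𝒪 bL :=
    LinearIndependent.of_comp ((locPart 𝔪 M).subtype.restrictScalars 𝒪) hli
  have hspan : span 𝒪 (Set.range bL) = torPO πO' (locPart 𝔪 M) := by
    apply le_antisymm
    · rw [Submodule.span_le]
      rintro _ ⟨i, rfl⟩
      show bL i ∈ torP πO' (locPart 𝔪 M)
      intro t ht
      obtain ⟨a, rfl⟩ := mkQ_surjective 𝒪 (thetaRes ι χA) (twLoc (𝒪 := 𝒪) (M := M) 𝔪 ι) t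
      rw [hsmul]
      apply Subtype.ext
      show iotaO ι a • b i = 0
      rw [hb, ← hχAχ]
      rw [hπO'mk] at ht
      have : χA (iotaO ι a) = 0 := ht
      rw [this, zero_smul]
    · intro x hx
      have hx' : ∀ t : A, ι t • (x : M) = χ (ι t) • (x : M) := by
        intro t
        have h1 := smul_eq_of_mem_torP πO' (L := locPart 𝔪 M) hx
          (chi 𝒪 (thetaRes ι χA) (twLoc (𝒪 := 𝒪) (M := M) 𝔪 ι) t)
        rw [hpt, chi_apply, hsmul, iotaO_tmul, one_smul] at h1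
        exact congrArg Subtype.val h1
      have h2 := hold (x : M) x.2 hx'
      have h3 : span 𝒪 (Set.range b) =
          (span 𝒪 (Set.range bL)).map ((locPart 𝔪 M).subtype.restrictScalars 𝒪) := by
        rw [Submodule.map_span, ← Set.range_comp]
        rfl
      rw [h3] at h2
      obtain ⟨y, hy, hyx⟩ := h2
      have : y = x := Subtype.ext hyx
      rwa [← this]
  have hM1 := (stage_binders (π := πO') (BLoc 𝔪 B) hperfL hadj hη bL hliL hspan).1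
  rw [← Fermat.Agent.GE9.Eta.OmegaLoc.card_congMod_of_mem_locPart 𝔪 B hsa b hbL] at hM1
  exact ⟨TQ 𝒪 (thetaRes ι χA) (twLoc (𝒪 := 𝒪) (M := M) 𝔪 ι), inferInstance, inferInstance,
    inferInstance, inferInstance, inferInstance, chi 𝒪 _ _, πO', hgen, hpt, hη, hM1⟩

end Carrier

end Fermat.Agent.GE9.Stage.CarrierAbs

end
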