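/-
GATE-E / GE9-STAGE-CARRIER (helper73), file 2: **the stage carrier at `𝒪 ⊗[ℤ] Lam N`** — the
instance of `CarrierAbs.exists_carrier` for the cohomological lattice.

* `AfLam N 𝒪 := 𝒪 ⊗[ℤ] latAlg N` : the FULL Hecke algebra of the lattice over `𝒪` (commutative
  `𝒪`-algebra), acting on `𝒪 ⊗[ℤ] Lam N` (`instance`; `gen N 𝒪 l • x = (latT N l).baseChange 𝒪 x`);
* `chiLam N 𝒪 lam : AfLam N 𝒪 → 𝒪` : the scalar by which `a` acts on the joint eigen-sublattice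
  `eigenTensorO N 𝒪 lam` (`chiLam_spec`, `chiLam_gen`), `chiHom` : it is an algebra hom when the
  eigen-sublattice is `≠ 0`;
* `mLam N 𝒪 lam : Ideal (AfLam N 𝒪)` : the maximal ideal `𝔪_full` of `lam` mod `ϖ`
  (`isMaximal_mLam`, `notMem_mLam_iff : a ∉ mLam ↔ IsUnit (chiLam a)`);
  `bijective_smul_of_isUnit` : the interface for OldQ — `a` acts bijectively on
  `locPart (mLam N 𝒪 lam) (𝒪 ⊗ Lam N)` as soon as it acts on the eigen-sublattice by a unit;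
* `iotaLam N 𝒪 S : heckeAlgebra N 2 S →+* AfLam N 𝒪` (through `GJ/J2/LatAct`),
  `iotaLam_smul`, `iotaLam_T_smul`;
* `BW_smul` : the whole of `AfLam N 𝒪` is self-adjoint for helper2's twisted form `BW N 𝒪`;
* **`exists_carrier_lam`** : `EtaStage N 𝒪 lam d` (helper2) + OldQ (ONE binder `hold`) ⟹ the carrier
  `(T', π', hgen, πO')` over `heckeAlgebra N 2 S` with `πO' (π' T_ℓ) = lam ℓ`, `η ≠ 0` and
  **(M1)** `omegaCard N 𝒪 lam ≤ etaCard πO' ^ d`.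
-/
import Mathlib
import Fermat.Agent.GE9.Stage.CarrierAbs
import Fermat.Agent.GE9.Eta.ModStage
import Fermat.Agent.GJ.J2.LatAct
import Fermat.Agent.GS.Pet.Reduced
import Fermat.Agent.GB.B4.Datum.HeckeCarrier

set_option autoImplicit false
set_option linter.unusedSectionVars false
set_option linter.style.haveILetI false

noncomputable section

namespace Fermat.Agent.GE9.Stage.CarrierLam

open TensorProduct IsLocalRing Submodule CuspForm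
open Fermat.Agent.GJ.J2.Lat Fermat.Agent.GJ.J2.LatAct Fermat.Agent.GB.B3.Loc
  Fermat.Agent.GB.B4.Datum.ImageRing Fermat.Agent.GE9.Eta Fermat.Agent.GE9.Eta.Loc
  Fermat.Agent.GE9.Eta.Mod Fermat.Agent.GE9.Mult1 Fermat.Agent.GE9.NumCrit Fermat.Agent.GE9.Ind
  Fermat.Agent.GE9.Stage.CarrierAbs

/-! ### the full Hecke algebra of the lattice over `𝒪` -/

section Defs

variable (N : ℕ) [NeZero N] (𝒪 : Type) [CommRing 𝒪]

/-- the full Hecke algebra of the lattice over `𝒪` (a type synonym of `𝒪 ⊗[ℤ] latAlg N`, kept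
opaque for instance search) -/
def AfLam : Type := 𝒪 ⊗[ℤ] ↥(latAlg N)

instance instCommRingAfLam : CommRing (AfLam N 𝒪) :=
  inferInstanceAs (CommRing (𝒪 ⊗[ℤ] ↥(latAlg N)))

instance instAlgebraAfLam : Algebra 𝒪 (AfLam N 𝒪) :=
  inferInstanceAs (Algebra 𝒪 (𝒪 ⊗[ℤ] ↥(latAlg N)))

/-- the identification with the tensor product -/
def toTensor : AfLam N 𝒪 ≃ₐ[𝒪] 𝒪 ⊗[ℤ] ↥(latAlg N) where
  toFun := id
  invFun := id
  left_inv := fun _ => rfl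
  right_inv := fun _ => rfl
  map_mul' := fun _ _ => rfl
  map_add' := fun _ _ => rfl
  commutes' := fun _ => rfl

/-- `t ↦ t ⊗ 𝒪` -/
def twFull : ↥(latAlg N) →+* Module.End 𝒪 (𝒪 ⊗[ℤ] Lam N) :=
  ((Module.End.baseChangeHom ℤ 𝒪 (Lam N) : Module.End ℤ (Lam N) →ₐ[ℤ] _) :
    Module.End ℤ (Lam N) →+* Module.End 𝒪 (𝒪 ⊗[ℤ] Lam N)).comp
    (((latAlg N).val : ↥(latAlg N) →ₐ[ℤ] Module.End ℤ (Lam N)) : ↥(latAlg N) →+* _)

theorem twFull_apply (t : ↥(latAlg N)) :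
    twFull N 𝒪 t = (t : Module.End ℤ (Lam N)).baseChange 𝒪 := rfl

/-- the action of the tensor product -/
def actT : 𝒪 ⊗[ℤ] ↥(latAlg N) →ₐ[𝒪] Module.End 𝒪 (𝒪 ⊗[ℤ] Lam N) :=
  Algebra.TensorProduct.lift (Algebra.ofId 𝒪 (Module.End 𝒪 (𝒪 ⊗[ℤ] Lam N)))
    (twFull N 𝒪).toIntAlgHom
    (fun x y => (Algebra.commute_algebraMap_left x ((twFull N 𝒪).toIntAlgHom y) :
      Commute (Algebra.ofId 𝒪 (Module.End 𝒪 (𝒪 ⊗[ℤ] Lam N)) x) ((twFull N 𝒪).toIntAlgHom y)))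

theorem actT_tmul (c : 𝒪) (t : ↥(latAlg N)) :
    actT N 𝒪 (c ⊗ₜ t) = c • (t : Module.End ℤ (Lam N)).baseChange 𝒪 := by
  refine (Algebra.TensorProduct.lift_tmul (Algebra.ofId 𝒪 (Module.End 𝒪 (𝒪 ⊗[ℤ] Lam N)))
    (twFull N 𝒪).toIntAlgHom _ c t).trans ?_
  rw [Algebra.smul_def]
  rfl

/-- the action of the full algebra -/
def actFull : AfLam N 𝒪 →ₐ[𝒪] Module.End 𝒪 (𝒪 ⊗[ℤ] Lam N) :=
  (actT N 𝒪).comp (toTensor N 𝒪 : AfLam N 𝒪 →ₐ[𝒪] 𝒪 ⊗[ℤ] ↥(latAlg N))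

instance instModuleAfLam : Module (AfLam N 𝒪) (𝒪 ⊗[ℤ] Lam N) :=
  Module.compHom _ (actFull N 𝒪).toRingHom

theorem smul_def (a : AfLam N 𝒪) (x : 𝒪 ⊗[ℤ] Lam N) : a • x = actFull N 𝒪 a x := rfl

instance instIsScalarTowerAfLam : IsScalarTower 𝒪 (AfLam N 𝒪) (𝒪 ⊗[ℤ] Lam N) :=
  ⟨fun c a x => by
    rw [smul_def, map_smul, LinearMap.smul_apply, ← smul_def]⟩

/-- a pure tensor of the full algebra -/
def tm (c : 𝒪) (t : ↥(latAlg N)) : AfLam N 𝒪 := (toTensor N 𝒪).symm (c ⊗ₜ[ℤ] t)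

theorem tm_smul (c : 𝒪) (t : ↥(latAlg N)) (x : 𝒪 ⊗[ℤ] Lam N) :
    tm N 𝒪 c t • x = c • (t : Module.End ℤ (Lam N)).baseChange 𝒪 x := by
  show actT N 𝒪 (toTensor N 𝒪 ((toTensor N 𝒪).symm (c ⊗ₜ[ℤ] t))) x = _
  rw [AlgEquiv.apply_symm_apply, actT_tmul, LinearMap.smul_apply]

/-- induction on the full algebra -/
theorem afLam_induction {motive : AfLam N 𝒪 → Prop} (a : AfLam N 𝒪) (h0 : motive 0)
    (htm : ∀ c t, motive (tm N 𝒪 c t)) (hadd : ∀ a b, motive a → motive b → motive (a + b)) :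
    motive a := by
  have h := TensorProduct.induction_on
    (motive := fun z : 𝒪 ⊗[ℤ] ↥(latAlg N) => motive ((toTensor N 𝒪).symm z)) (toTensor N 𝒪 a)
    (by rw [map_zero]; exact h0) (fun c t => htm c t)
    (fun z w hz hw => by rw [map_add]; exact hadd _ _ hz hw)
  rwa [AlgEquiv.symm_apply_apply] at h

/-- the Hecke operators in the full algebra -/
def gen (l : Nat.Primes) : AfLam N 𝒪 := tm N 𝒪 1 (latGen N l)

theorem gen_smul (l : Nat.Primes) (x : 𝒪 ⊗[ℤ] Lam N) :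
    gen N 𝒪 l • x = (latT N l).baseChange 𝒪 x := by
  rw [gen, tm_smul, one_smul, coe_latGen]

end Defs

/-! ### the eigencharacter and the maximal ideal -/

section Char

variable (N : ℕ) [NeZero N] (𝒪 : Type) [CommRing 𝒪] (lam : Nat.Primes → 𝒪)

/-- an operator of `latAlg N` acts on the joint eigen-sublattice by a scalar -/
theorem exists_scalar_latAlg (t : ↥(latAlg N)) :
    ∃ c : 𝒪, ∀ x ∈ eigenTensorO N 𝒪 lam, (t : Module.End ℤ (Lam N)).baseChange 𝒪 x = c • x := by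
  obtain ⟨t, ht⟩ := t
  show ∃ c : 𝒪, ∀ x ∈ eigenTensorO N 𝒪 lam, t.baseChange 𝒪 x = c • x
  refine Algebra.adjoin_induction
    (p := fun t _ => ∃ c : 𝒪, ∀ x ∈ eigenTensorO N 𝒪 lam, t.baseChange 𝒪 x = c • x)
    ?_ ?_ ?_ ?_ ht
  · rintro _ ⟨l, rfl⟩
    exact ⟨lam l, fun x hx => mem_eigenTensorO.mp hx l⟩
  · intro n
    refine ⟨(n : 𝒪), fun x _ => ?_⟩
    have h1 : algebraMap ℤ (Module.End ℤ (Lam N)) n = n • (1 : Module.End ℤ (Lam N)) := by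
      rw [Algebra.algebraMap_eq_smul_one]
    rw [h1, LinearMap.baseChange_smul, Module.End.one_eq_id, LinearMap.baseChange_id,
      LinearMap.smul_apply, LinearMap.id_apply, Int.cast_smul_eq_zsmul]
  · rintro s t _ _ ⟨c, hc⟩ ⟨c', hc'⟩
    exact ⟨c + c', fun x hx => by
      rw [LinearMap.baseChange_add, LinearMap.add_apply, hc x hx, hc' x hx, add_smul]⟩
  · rintro s t _ _ ⟨c, hc⟩ ⟨c', hc'⟩
    exact ⟨c * c', fun x hx => by
      rw [Module.End.mul_eq_comp, LinearMap.baseChange_comp, LinearMap.comp_apply, hc' x hx,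
        map_smul, hc x hx, smul_smul, mul_comm]⟩

/-- every element of the full algebra acts on the joint eigen-sublattice by a scalar -/
theorem exists_scalar (a : AfLam N 𝒪) :
    ∃ c : 𝒪, ∀ x ∈ eigenTensorO N 𝒪 lam, a • x = c • x := by
  refine afLam_induction N 𝒪 a
    (motive := fun a => ∃ c : 𝒪, ∀ x ∈ eigenTensorO N 𝒪 lam, a • x = c • x) ?_ ?_ ?_
  · exact ⟨0, fun x _ => by rw [zero_smul, zero_smul]⟩
  · intro c t
    obtain ⟨c', hc'⟩ := exists_scalar_latAlg N 𝒪 lam t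
    exact ⟨c * c', fun x hx => by rw [tm_smul, hc' x hx, smul_smul]⟩
  · rintro a b ⟨c, hc⟩ ⟨c', hc'⟩
    exact ⟨c + c', fun x hx => by rw [add_smul, hc x hx, hc' x hx, add_smul]⟩

/-- the scalar by which the full algebra acts on the joint eigen-sublattice -/
def chiLam (a : AfLam N 𝒪) : 𝒪 := (exists_scalar N 𝒪 lam a).choose

theorem chiLam_spec (a : AfLam N 𝒪) {x : 𝒪 ⊗[ℤ] Lam N} (hx : x ∈ eigenTensorO N 𝒪 lam) :
    a • x = chiLam N 𝒪 lam a • x :=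
  (exists_scalar N 𝒪 lam a).choose_spec x hx

/-- the maximal ideal of the full algebra attached to `lam` mod `ϖ` -/
def mLam : Ideal (AfLam N 𝒪) := Ideal.span {a | ¬ IsUnit (chiLam N 𝒪 lam a)}

end Char

section CharDomain

variable {N : ℕ} [NeZero N] {𝒪 : Type} [CommRing 𝒪] [IsDomain 𝒪] [CharZero 𝒪]
  {lam : Nat.Primes → 𝒪}

/-- two scalars acting in the same way on a nonzero vector are equal -/
theorem scalar_cancel {x : 𝒪 ⊗[ℤ] Lam N} (hx0 : x ≠ 0) {c c' : 𝒪} (h : c • x = c' • x) :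
    c = c' := by
  have := torsionFree_tensor_lam (O := 𝒪) N
  exact smul_left_injective 𝒪 hx0 h

/-- the scalar of `a` is determined on any nonzero vector of the eigen-sublattice -/
theorem chiLam_eq_of_smul {x : 𝒪 ⊗[ℤ] Lam N} (hx : x ∈ eigenTensorO N 𝒪 lam) (hx0 : x ≠ 0)
    (a : AfLam N 𝒪) {c : 𝒪} (h : a • x = c • x) : chiLam N 𝒪 lam a = c :=
  scalar_cancel hx0 ((chiLam_spec N 𝒪 lam a hx).symm.trans h)

theorem chiLam_gen {x : 𝒪 ⊗[ℤ] Lam N} (hx : x ∈ eigenTensorO N 𝒪 lam) (hx0 : x ≠ 0)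
    (l : Nat.Primes) : chiLam N 𝒪 lam (gen N 𝒪 l) = lam l :=
  chiLam_eq_of_smul hx hx0 _ (by rw [gen_smul]; exact mem_eigenTensorO.mp hx l)

/-- the eigencharacter of the full algebra, as an algebra hom -/
def chiHom {x : 𝒪 ⊗[ℤ] Lam N} (hx : x ∈ eigenTensorO N 𝒪 lam) (hx0 : x ≠ 0) :
    AfLam N 𝒪 →ₐ[𝒪] 𝒪 :=
  have := torsionFree_tensor_lam (O := 𝒪) N
  eigenChar (chiLam N 𝒪 lam) hx0 (fun a => chiLam_spec N 𝒪 lam a hx)

theorem chiHom_apply {x : 𝒪 ⊗[ℤ] Lam N} (hx : x ∈ eigenTensorO N 𝒪 lam) (hx0 : x ≠ 0)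
    (a : AfLam N 𝒪) : chiHom hx hx0 a = chiLam N 𝒪 lam a := rfl

variable [IsLocalRing 𝒪]

theorem mLam_eq_ker {x : 𝒪 ⊗[ℤ] Lam N} (hx : x ∈ eigenTensorO N 𝒪 lam) (hx0 : x ≠ 0) :
    mLam N 𝒪 lam =
      RingHom.ker ((residue 𝒪).comp (chiHom hx hx0 : AfLam N 𝒪 →+* 𝒪)) := by
  have hset : {a | ¬ IsUnit (chiLam N 𝒪 lam a)} =
      ((RingHom.ker ((residue 𝒪).comp (chiHom hx hx0 : AfLam N 𝒪 →+* 𝒪)) :
        Ideal (AfLam N 𝒪)) : Set (AfLam N 𝒪)) := by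
    ext a
    show ¬ IsUnit (chiLam N 𝒪 lam a) ↔
      a ∈ RingHom.ker ((residue 𝒪).comp (chiHom hx hx0 : AfLam N 𝒪 →+* 𝒪))
    rw [RingHom.mem_ker, RingHom.comp_apply, RingHom.coe_coe,
      chiHom_apply, residue_eq_zero_iff, mem_maximalIdeal, mem_nonunits_iff]
  rw [mLam, hset, Ideal.span_eq]

theorem isMaximal_mLam {x : 𝒪 ⊗[ℤ] Lam N} (hx : x ∈ eigenTensorO N 𝒪 lam) (hx0 : x ≠ 0) :
    (mLam N 𝒪 lam).IsMaximal := by
  rw [mLam_eq_ker hx hx0]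
  refine RingHom.ker_isMaximal_of_surjective _ fun y => ?_
  obtain ⟨c, rfl⟩ := residue_surjective y
  exact ⟨algebraMap 𝒪 (AfLam N 𝒪) c, by
    rw [RingHom.comp_apply, RingHom.coe_coe, AlgHom.commutes]
    rfl⟩

theorem notMem_mLam_iff {x : 𝒪 ⊗[ℤ] Lam N} (hx : x ∈ eigenTensorO N 𝒪 lam) (hx0 : x ≠ 0)
    (a : AfLam N 𝒪) : a ∉ mLam N 𝒪 lam ↔ IsUnit (chiLam N 𝒪 lam a) := by
  rw [mLam_eq_ker hx hx0, RingHom.mem_ker, RingHom.comp_apply, RingHom.coe_coe, chiHom_apply,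
    residue_eq_zero_iff, mem_maximalIdeal, mem_nonunits_iff, not_not]

end CharDomain

/-! ### the interface for OldQ -/

section Interface

variable {N : ℕ} [NeZero N] {𝒪 : Type} [CommRing 𝒪] [IsDomain 𝒪] [CharZero 𝒪]
  [IsLocalRing 𝒪] [IsNoetherianRing 𝒪] [IsAdicComplete (maximalIdeal 𝒪) 𝒪]
  {lam : Nat.Primes → 𝒪} [(mLam N 𝒪 lam).IsMaximal]

/-- **interface for OldQ**: an element of the full algebra which acts on the joint eigen-sublattice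
by a UNIT acts bijectively on the `𝔪_full`-local part. -/
theorem bijective_smul_of_isUnit {x : 𝒪 ⊗[ℤ] Lam N} (hx : x ∈ eigenTensorO N 𝒪 lam) (hx0 : x ≠ 0)
    (a : AfLam N 𝒪) {c : 𝒪} (hc : IsUnit c) (ha : a • x = c • x) :
    Function.Bijective (fun y : locPart (mLam N 𝒪 lam) (𝒪 ⊗[ℤ] Lam N) => a • y) := by
  have := finite_tensor_lam (O := 𝒪) N
  refine bijective_smul_locPart 𝒪 (mLam N 𝒪 lam) ((notMem_mLam_iff hx hx0 a).mpr ?_)
  rw [chiLam_eq_of_smul hx hx0 a ha]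
  exact hc

/-- the joint eigen-sublattice lies in the `𝔪_full`-local part -/
theorem eigenTensorO_le_locPart {x : 𝒪 ⊗[ℤ] Lam N} (hx : x ∈ eigenTensorO N 𝒪 lam) (hx0 : x ≠ 0)
    {y : 𝒪 ⊗[ℤ] Lam N} (hy : y ∈ eigenTensorO N 𝒪 lam) :
    y ∈ locPart (mLam N 𝒪 lam) (𝒪 ⊗[ℤ] Lam N) :=
  mem_locPart_of_eigen (mLam N 𝒪 lam) (chiLam N 𝒪 lam)
    (fun a ha => (notMem_mLam_iff hx hx0 a).mp ha) (fun a => chiLam_spec N 𝒪 lam a hy)

end Interface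

/-! ### the anemic algebra of forms inside the full algebra -/

section Iota

variable (N : ℕ) [NeZero N] (𝒪 : Type) [CommRing 𝒪] (S : Set ℕ)

/-- the Hecke algebra of forms away from `S` inside the full algebra of the lattice -/
def iotaLam : ↥(heckeAlgebra N 2 S) →+* AfLam N 𝒪 :=
  (((toTensor N 𝒪).symm : (𝒪 ⊗[ℤ] ↥(latAlg N)) ≃ₐ[𝒪] AfLam N 𝒪) :
    (𝒪 ⊗[ℤ] ↥(latAlg N)) →+* AfLam N 𝒪).comp
  (((Algebra.TensorProduct.includeRight : ↥(latAlg N) →ₐ[ℤ] 𝒪 ⊗[ℤ] ↥(latAlg N)) :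
    ↥(latAlg N) →+* 𝒪 ⊗[ℤ] ↥(latAlg N)).comp
    ((latAct0 N).comp ((incl N S : ↥(heckeAlgebra N 2 S) →ₐ[ℤ] ↥(heckeAlgebra N 2 ∅)) :
      ↥(heckeAlgebra N 2 S) →+* ↥(heckeAlgebra N 2 ∅))))

theorem iotaLam_apply (t : ↥(heckeAlgebra N 2 S)) :
    iotaLam N 𝒪 S t = tm N 𝒪 1 (latAct0 N (incl N S t)) := rfl

theorem iotaLam_smul (t : ↥(heckeAlgebra N 2 S)) (x : 𝒪 ⊗[ℤ] Lam N) :
    iotaLam N 𝒪 S t • x = (latAct N S t).baseChange 𝒪 x := by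
  rw [iotaLam_apply, tm_smul, one_smul, latAct_apply]

theorem iotaLam_T_smul {ℓ : ℕ} (hℓ : ℓ.Prime) (hℓN : ¬ ℓ ∣ N) (hℓS : ℓ ∉ S)
    (x : 𝒪 ⊗[ℤ] Lam N) :
    iotaLam N 𝒪 S (heckeAlgebra.T hℓ hℓN hℓS) • x
      = (latT N (⟨ℓ, hℓ⟩ : Nat.Primes)).baseChange 𝒪 x := by
  rw [iotaLam_smul, latAct_T]

end Iota

/-! ### self-adjointness of the full algebra -/

section Adjoint

variable (N : ℕ) [NeZero N] (𝒪 : Type) [CommRing 𝒪]

theorem baseChange_algebraMap_int (n : ℤ) (x : 𝒪 ⊗[ℤ] Lam N) :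
    (algebraMap ℤ (Module.End ℤ (Lam N)) n).baseChange 𝒪 x = (n : 𝒪) • x := by
  have h1 : algebraMap ℤ (Module.End ℤ (Lam N)) n = n • (1 : Module.End ℤ (Lam N)) := by
    rw [Algebra.algebraMap_eq_smul_one]
  rw [h1, LinearMap.baseChange_smul, Module.End.one_eq_id, LinearMap.baseChange_id,
    LinearMap.smul_apply, LinearMap.id_apply, Int.cast_smul_eq_zsmul]

/-- the endomorphisms of the lattice which are self-adjoint for the twisted form over `𝒪` -/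
def SelfAdj (t : Module.End ℤ (Lam N)) : Prop :=
  ∀ x y : 𝒪 ⊗[ℤ] Lam N, BW N 𝒪 (t.baseChange 𝒪 x) y = BW N 𝒪 x (t.baseChange 𝒪 y)

theorem selfAdj_latT (l : Nat.Primes) : SelfAdj N 𝒪 (latT N l) := fun x y => BW_latT l x y

theorem selfAdj_algebraMap (n : ℤ) : SelfAdj N 𝒪 (algebraMap ℤ (Module.End ℤ (Lam N)) n) := by
  intro x y
  rw [baseChange_algebraMap_int, baseChange_algebraMap_int, map_smul, map_smul,
    LinearMap.smul_apply]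

theorem selfAdj_add {s t : Module.End ℤ (Lam N)} (hs : SelfAdj N 𝒪 s) (ht : SelfAdj N 𝒪 t) :
    SelfAdj N 𝒪 (s + t) := by
  intro x y
  rw [LinearMap.baseChange_add, LinearMap.add_apply, LinearMap.add_apply, map_add, map_add,
    LinearMap.add_apply, hs, ht]

theorem selfAdj_mul {s t : Module.End ℤ (Lam N)} (hcomm : s * t = t * s)
    (hs : SelfAdj N 𝒪 s) (ht : SelfAdj N 𝒪 t) : SelfAdj N 𝒪 (s * t) := by
  intro x y
  have e1 : (s * t).baseChange 𝒪 x = s.baseChange 𝒪 (t.baseChange 𝒪 x) := by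
    rw [Module.End.mul_eq_comp, LinearMap.baseChange_comp, LinearMap.comp_apply]
  have e2 : (s * t).baseChange 𝒪 y = t.baseChange 𝒪 (s.baseChange 𝒪 y) := by
    rw [hcomm, Module.End.mul_eq_comp, LinearMap.baseChange_comp, LinearMap.comp_apply]
  rw [e1, e2, hs, ht]

theorem selfAdj_of_mem_latAlg (t : Module.End ℤ (Lam N)) (ht : t ∈ latAlg N) :
    SelfAdj N 𝒪 t := by
  refine Algebra.adjoin_induction (p := fun t _ => SelfAdj N 𝒪 t) ?_ ?_ ?_ ?_ ht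
  · rintro _ ⟨l, rfl⟩
    exact selfAdj_latT N 𝒪 l
  · intro n
    exact selfAdj_algebraMap N 𝒪 n
  · rintro s t _ _ hs ht'
    exact selfAdj_add N 𝒪 hs ht'
  · rintro s t hs' ht'' hs ht'
    refine selfAdj_mul N 𝒪 ?_ hs ht'
    have := mul_comm (⟨s, hs'⟩ : ↥(latAlg N)) ⟨t, ht''⟩
    exact congrArg Subtype.val this

theorem BW_latAlg (t : ↥(latAlg N)) (x y : 𝒪 ⊗[ℤ] Lam N) :
    BW N 𝒪 ((t : Module.End ℤ (Lam N)).baseChange 𝒪 x) y
      = BW N 𝒪 x ((t : Module.End ℤ (Lam N)).baseChange 𝒪 y) :=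
  selfAdj_of_mem_latAlg N 𝒪 t.1 t.2 x y

/-- **the whole full algebra is self-adjoint for the Fricke-twisted cup form** -/
theorem BW_smul (a : AfLam N 𝒪) (x y : 𝒪 ⊗[ℤ] Lam N) :
    BW N 𝒪 (a • x) y = BW N 𝒪 x (a • y) := by
  revert x y
  refine afLam_induction N 𝒪 a (motive := fun a => ∀ x y : 𝒪 ⊗[ℤ] Lam N,
    BW N 𝒪 (a • x) y = BW N 𝒪 x (a • y)) ?_ ?_ ?_
  · intro x y
    rw [zero_smul, zero_smul, map_zero, map_zero, LinearMap.zero_apply]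
  · intro c t x y
    rw [tm_smul, tm_smul, map_smul, map_smul, LinearMap.smul_apply, BW_latAlg]
  · intro a b ha hb x y
    rw [add_smul, add_smul, map_add, map_add, LinearMap.add_apply, ha, hb]

end Adjoint

/-! ### the carrier -/

section Carrier

variable {N : ℕ} [NeZero N] {𝒪 : Type} [CommRing 𝒪] [IsDomain 𝒪] [IsDiscreteValuationRing 𝒪]
  [IsAdicComplete (maximalIdeal 𝒪) 𝒪] [Finite (ResidueField 𝒪)] [CharZero 𝒪]

/-- **The stage carrier at `𝒪 ⊗ Lam N`** (RULING A6.2): from the module-side stage invariant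
`EtaStage N 𝒪 lam d` of helper2 and OldQ (the binder `hold`: an ANEMIC eigenvector in the
`𝔪_full`-local part is a FULL eigenvector) — the local ring `T'`, finite free over `𝒪`, generated by
`π' : heckeAlgebra N 2 S →+* T'`, with the augmentation `πO'`, `πO' (π' T_ℓ) = lam ℓ`, `η ≠ 0`
and **(M1)** `omegaCard N 𝒪 lam ≤ etaCard πO' ^ d`. -/
theorem exists_carrier_lam (S : Set ℕ) (hNS : ∀ r : ℕ, r.Prime → r ∣ N → r ∈ S)
    (lam : Nat.Primes → 𝒪) {d : ℕ} (hd : d ≠ 0) (hst : EtaStage N 𝒪 lam d)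
    [(mLam N 𝒪 lam).IsMaximal]
    (hold : ∀ x ∈ locPart (mLam N 𝒪 lam) (𝒪 ⊗[ℤ] Lam N),
      (∀ (ℓ : ℕ) (hℓ : ℓ.Prime), ¬ ℓ ∣ N → ℓ ∉ S →
        (latT N (⟨ℓ, hℓ⟩ : Nat.Primes)).baseChange 𝒪 x = lam ⟨ℓ, hℓ⟩ • x) →
      x ∈ eigenTensorO N 𝒪 lam) :
    ∃ (T' : Type) (_ : CommRing T') (_ : IsLocalRing T') (_ : Algebra 𝒪 T')
      (_ : Module.Finite 𝒪 T') (_ : Module.Free 𝒪 T')
      (π' : ↥(heckeAlgebra N 2 S) →+* T') (πO' : T' →ₐ[𝒪] 𝒪),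
      Algebra.adjoin 𝒪 (Set.range π') = ⊤ ∧
      (∀ (ℓ : ℕ) (hℓ : ℓ.Prime) (hℓN : ¬ ℓ ∣ N) (hℓS : ℓ ∉ S),
        πO' (π' (heckeAlgebra.T hℓ hℓN hℓS)) = lam ⟨ℓ, hℓ⟩) ∧
      etaIdeal πO' ≠ ⊥ ∧ omegaCard N 𝒪 lam ≤ etaCard πO' ^ d := by
  obtain ⟨b, hli, hspan, -, -, hcard⟩ := hst.binders
  have hfin := finite_tensor_lam (O := 𝒪) N
  have hfree := free_tensor_lam (O := 𝒪) N
  haveI : IsReduced ↥(heckeAlgebra N 2 S) :=
    Fermat.Agent.GS.Pet.isReduced_heckeAlgebra N 2 S hNS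
  set i0 : Fin d := ⟨0, Nat.pos_of_ne_zero hd⟩ with hi0
  have hx0 : b i0 ≠ 0 := hli.ne_zero i0
  have hbP : ∀ i, b i ∈ eigenTensorO N 𝒪 lam := fun i => by
    rw [← hspan]
    exact subset_span ⟨i, rfl⟩
  obtain ⟨T', i1, i2, i3, i4, i5, π', πO', hgen, hpt, hη, hM1⟩ :=
    exists_carrier (mLam N 𝒪 lam) (iotaLam N 𝒪 S) (BW N 𝒪) (perfect_BW N 𝒪) (BW_smul N 𝒪) hd b hli
      (chiLam N 𝒪 lam) (fun a i => chiLam_spec N 𝒪 lam a (hbP i))
      (fun a ha => (notMem_mLam_iff (hbP i0) hx0 a).mp ha)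
      (fun x hx hxe => by
        rw [hspan]
        refine hold x hx fun ℓ hℓ hℓN hℓS => ?_
        have h1 := hxe (heckeAlgebra.T hℓ hℓN hℓS)
        rw [iotaLam_T_smul] at h1
        rw [h1]
        congr 1
        refine chiLam_eq_of_smul (hbP i0) hx0 _ ?_
        rw [iotaLam_T_smul]
        exact mem_eigenTensorO.mp (hbP i0) _)
  refine ⟨T', i1, i2, i3, i4, i5, π', πO', hgen, fun ℓ hℓ hℓN hℓS => ?_, hη, ?_⟩
  · rw [hpt]
    refine chiLam_eq_of_smul (hbP i0) hx0 _ ?_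
    rw [iotaLam_T_smul]
    exact mem_eigenTensorO.mp (hbP i0) _
  · rw [← hcard]
    exact hM1

end Carrier

end Fermat.Agent.GE9.Stage.CarrierLam

end
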