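/-
GATE-E / GE9-STAGE-RAW (helper11, RULING A6.1 §2 + A6.2 §1 of helper10): **the raw (non-numerical)
fields of the step record `Asm.StepInputFL Y q hq`** (helper73, `GE9/Asm/Chain`) from landed
producers, for ANY carrier of the next stage.

Setting: a stage `Y : RTNum ρbar (condFL 𝒪 p Smin Sig) d`, a new prime `q`, the next level `N'`
(`Y.rt.N ∣ N'`, `p ∤ N'`, e.g. `N' = Y.rt.N * q * q`), the CONSTANT Hecke set `S0 : Finset ℕ`
(`Y.rt.S ⊆ ↑S0`, `p ∈ S0`, primes of `N'` in `S0`; RULING A6.1 §3), and the carrier of the next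
stage: ANY local `𝒪`-algebra `T'`, finite free over `𝒪`, generated over `𝒪` by a Hecke hom
`π' : heckeAlgebra N' 2 ↑S0 →+* T'`, with an augmentation `πO' : T' →ₐ[𝒪] 𝒪` whose eigenvalues at
the good primes are those of the modular point of `Y` (`heig`; = the eigensystem `χ'` of the
Hecke-side supply, `χ' = πO' ∘ π'`).  E.g. `T' := Tloc 𝒪 θ'` or the image ring of A6.2.

Then (`exists_raw_of_defRing`, for EVERY deformation datum `D'` of `condFL 𝒪 p Smin (insert q Sig)`)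
there are `ρT'`, a SURJECTIVE local `φ' : D'.R → T'` carrying `D'.ρ` to `ρT'`, the Eichler–Shimura
characteristic polynomials `X² - π'(T_r) X + r`, and `etaIdeal πO' ≠ ⊥`;
`exists_rawFL` adds `D'` (GE6 `nonempty_defRing_FL`), the presentation `γ : 𝒪⟦X⟧ ↠ D'.R`
(`exists_surjective_FL`) and the set `B := S0 ∪ primes(N')` with `hB`, `heig` in the shape of the
fields of `StepInputFL`.

Inside: `θ' := residue ∘ πO' ∘ π'`; `hfrob_of_rtNum` (the characteristic polynomials of `ρbar` at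
the good primes of level `N'` from the modular point of `Y`); then the chain of helper59's
`ProviderFlat/G3.exists_psi_flat` (`DatumOfRhobar.exists_datum` on `Tloc 𝒪 θ'`, UNRAMIFIED OUTSIDE
`N' p` — the Hecke set `S0` may be bigger than `Smin ∪ insert q Sig` —, `PushTloc.exists_galRep_flat`
along `π'`, `PsiTQPush.exists_psi_of_type` for the problem `condFL`), Petersson reducedness
(`GS/Pet`) + helper63's `EtaNe`.
-/
import Fermat.Agent.GE9.Asm.Chain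
import Fermat.Agent.GE9.Ind.EtaNe
import Fermat.Agent.GE6.DefRing
import Fermat.Agent.GB.B9.ProviderFlat.G3

set_option autoImplicit false
set_option linter.unusedSectionVars false
set_option linter.unusedVariables false
set_option linter.style.haveILetI false

noncomputable section

namespace Fermat.Agent.GE9.Stage.RawFL

open CuspForm IsLocalRing Polynomial GaloisRep
open Fermat.Agent.GE.Graph Fermat.Agent.GE9.Ind Fermat.Agent.GE9.NumCrit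
  Fermat.Agent.GE9.CotGrowth
open Fermat.Agent.GB.B4.Datum.Carrier Fermat.Agent.GB.B4.Datum.Push

local notation "GQ" => (AlgebraicClosure ℚ ≃ₐ[ℚ] AlgebraicClosure ℚ)
local notation "Qb" => AlgebraicClosure ℚ

/-! ### a local `𝒪`-algebra with an augmentation -/

section Aug

variable {𝒪 : Type} [CommRing 𝒪] [IsLocalRing 𝒪]
  {T' : Type} [CommRing T'] [IsLocalRing T'] [Algebra 𝒪 T']

/-- an augmentation of a local `𝒪`-algebra is a local hom -/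
theorem isLocalHom_aug (πO' : T' →ₐ[𝒪] 𝒪) : IsLocalHom (πO' : T' →+* 𝒪) :=
  Fermat.Agent.GP.Tan.UnivInj.isLocalHom_of_residue_cover
    (fun x => by
      obtain ⟨y, rfl⟩ := IsLocalRing.residue_surjective x
      exact ⟨y, rfl⟩) πO'

/-- the structure map of a local `𝒪`-algebra with an augmentation is a local hom -/
theorem isLocalHom_algebraMap_of_aug (πO' : T' →ₐ[𝒪] 𝒪) : IsLocalHom (algebraMap 𝒪 T') := by
  refine ⟨fun x hx => ?_⟩
  have h := hx.map (πO' : T' →+* 𝒪)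
  rwa [RingHom.coe_coe, AlgHom.commutes, Algebra.algebraMap_self, RingHom.id_apply] at h

/-- `t - πO'(t)` lies in the maximal ideal -/
theorem sub_aug_mem_maximalIdeal (πO' : T' →ₐ[𝒪] 𝒪) (t : T') :
    t - algebraMap 𝒪 T' (πO' t) ∈ maximalIdeal T' := by
  rw [mem_maximalIdeal, mem_nonunits_iff]
  intro hu
  haveI := isLocalHom_aug πO'
  have h := hu.map (πO' : T' →+* 𝒪)
  rw [RingHom.coe_coe, map_sub, AlgHom.commutes, Algebra.algebraMap_self, RingHom.id_apply,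
    sub_self] at h
  exact not_isUnit_zero h

/-- the residue field of a local `𝒪`-algebra with an augmentation is that of `𝒪` -/
theorem residue_comp_algebraMap_surjective_of_aug (πO' : T' →ₐ[𝒪] 𝒪) :
    Function.Surjective (residue T' ∘ algebraMap 𝒪 T') := by
  intro y
  obtain ⟨t, rfl⟩ := residue_surjective y
  refine ⟨πO' t, ?_⟩
  have h := (residue_eq_zero_iff _).mpr (sub_aug_mem_maximalIdeal πO' t)
  rw [map_sub, sub_eq_zero] at h
  exact h.symm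

/-- a ring hom into `T'` reduces to `residue ∘ πO' ∘ π'` -/
theorem residue_eq_map_of_aug (πO' : T' →ₐ[𝒪] 𝒪) {A : Type} [CommRing A] (π' : A →+* T')
    (t : A) :
    haveI := isLocalHom_algebraMap_of_aug πO'
    residue T' (π' t) = ResidueField.map (algebraMap 𝒪 T') (residue 𝒪 (πO' (π' t))) := by
  haveI := isLocalHom_algebraMap_of_aug πO'
  rw [ResidueField.map_residue]
  have h := (residue_eq_zero_iff _).mpr (sub_aug_mem_maximalIdeal πO' (π' t))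
  rw [map_sub, sub_eq_zero] at h
  exact h

end Aug

/-! ### the characteristic polynomials of `ρbar` from the modular point of a stage -/

section Frob

variable {𝒪 : Type} [CommRing 𝒪] [IsDomain 𝒪] [IsDiscreteValuationRing 𝒪]
  [IsAdicComplete (maximalIdeal 𝒪) 𝒪]
  {ρbar : ResidualGaloisRep (ResidueField 𝒪)} {𝒟 : DefCondE 𝒪} {d : ℕ}

/-- the characteristic polynomial of a representation equivalent to a base change of `ρ̄` -/
theorem charpoly_of_isEquiv_baseChange {k k' : Type} [Field k] [Field k'] (ψ : k →+* k')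
    (ρ₀ : ResidualGaloisRep k) (ρ' : ResidualGaloisRep k')
    (he : ρ'.IsEquiv (ρ₀.baseChangeAlong ψ)) (σ : GQ) :
    LinearMap.charpoly (ρ'.ρ σ) = (LinearMap.charpoly (ρ₀.ρ σ)).map ψ := by
  obtain ⟨e⟩ := he
  have h2 : (ρ₀.baseChangeAlong ψ).ρ σ = e.toLinearEquiv.conj (ρ'.ρ σ) := by
    apply LinearMap.ext
    intro x
    rw [LinearEquiv.conj_apply_apply, e.map_apply, LinearEquiv.apply_symm_apply]
  have h3 : LinearMap.charpoly ((ρ₀.baseChangeAlong ψ).ρ σ) =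
      (LinearMap.charpoly (ρ₀.ρ σ)).map ψ := by
    letI : Algebra k k' := ψ.toAlgebra
    exact LinearMap.charpoly_baseChange (ρ₀.ρ σ) k'
  rw [← h3, h2, LinearEquiv.charpoly_conj]

/-- **the Eichler–Shimura characteristic polynomials of `ρbar`** at the good primes of the stage
`Y`, with the eigenvalues of the modular point of `Y`. -/
theorem charpoly_rhobar_of_rtNum (Y : RTNum ρbar 𝒟 d) (ℓ : ℕ) (hℓ : ℓ.Prime)
    (hℓN : ¬ ℓ ∣ Y.rt.N) (hℓS : ℓ ∉ Y.rt.S) (P : ValuationSubring Qb) (hP : P.LiesOverPrime ℓ)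
    (σ : GQ) (hσ : P.IsFrobeniusAt σ ℓ) :
    LinearMap.charpoly (ρbar.ρ σ) =
      X ^ 2 - C (residue 𝒪 (Y.πO (Y.rt.π (heckeAlgebra.T hℓ hℓN hℓS)))) * X
        + C (residue 𝒪 ((ℓ : ℕ) : 𝒪)) := by
  have hπO : IsLocalHom (Y.πO : Y.rt.T →+* 𝒪) := isLocalHom_aug Y.πO
  have he := residual_point_isEquiv Y.rt.D Y.rt.ρT Y.rt.φ Y.rt.φ_local Y.rt.φ_ρ Y.πO hπO
  have h1 := charpoly_of_isEquiv_baseChange _ ρbar _ he σ
  have hid : ResidueField.map (algebraMap 𝒪 𝒪) = RingHom.id (ResidueField 𝒪) := by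
    ext x
    obtain ⟨y, rfl⟩ := residue_surjective x
    rw [ResidueField.map_residue]
    rfl
  rw [hid, Polynomial.map_id] at h1
  rw [← h1, Fermat.Agent.GB.Glue.Habs.charpoly_residual, charpoly_baseChangeAlongE,
    Y.rt.charpoly_frob ℓ hℓ hℓN hℓS P hP σ hσ]
  simp only [Polynomial.map_sub, Polynomial.map_add, Polynomial.map_mul, Polynomial.map_pow,
    Polynomial.map_X, Polynomial.map_C, map_natCast, RingHom.coe_coe, Polynomial.map_natCast]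

end Frob

/-! ### the raw fields of the next stage -/

section Raw

variable {𝒪 : Type} [CommRing 𝒪] [IsDomain 𝒪] [IsDiscreteValuationRing 𝒪]
  [IsAdicComplete (maximalIdeal 𝒪) 𝒪] [Finite (ResidueField 𝒪)] [CharZero 𝒪]
  {ρbar : ResidualGaloisRep (ResidueField 𝒪)} {p : ℕ} [Fact p.Prime]
  {Smin Sig : Finset ℕ} {d : ℕ}

/-- **STAGE-RAW, flat case, for a given deformation datum `D'`** of the next problem:
`ρT'`, the surjection `φ' : D'.R ↠ T'` with `D'.ρ ⊗_{φ'} T' ≅ ρT'`, the Eichler–Shimura relations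
and `η ≠ 0`, over ANY finite free local `𝒪`-algebra `T'` generated by `π'` with an augmentation
`πO'` having the eigenvalues of the modular point of `Y`. -/
theorem exists_raw_of_defRing (Y : RTNum ρbar (condFL 𝒪 p Smin Sig) d) (q : ℕ)
    (hp2 : p ≠ 2) (hp𝒪 : (p : 𝒪) ∈ maximalIdeal 𝒪) (hpSmin : p ∈ Smin)
    (S0 : Finset ℕ) (hYS : Y.rt.S ⊆ (↑S0 : Set ℕ))
    {N' : ℕ} [NeZero N'] (hNN' : Y.rt.N ∣ N') (hpN' : ¬ p ∣ N') (hpS : p ∈ S0)
    (hNS : ∀ r : ℕ, r.Prime → r ∣ N' → r ∈ S0)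
    (hNT : ∀ r : ℕ, r.Prime → r ∣ N' → r ∈ Smin ∪ insert q Sig)
    (hSminN' : ∀ r ∈ Smin, r.Prime → r ≠ p → r ∣ N' ∧ ¬ r ^ 2 ∣ N')
    {T' : Type} [CommRing T'] [IsLocalRing T'] [Algebra 𝒪 T'] [Module.Finite 𝒪 T']
    [Module.Free 𝒪 T']
    (π' : heckeAlgebra N' 2 (↑S0 : Set ℕ) →+* T')
    (hgen : Algebra.adjoin 𝒪 (Set.range π') = ⊤)
    (πO' : T' →ₐ[𝒪] 𝒪)
    (heig : ∀ (ℓ : ℕ) (hℓ : ℓ.Prime) (hℓN : ¬ ℓ ∣ Y.rt.N) (hℓS : ℓ ∉ Y.rt.S) (hℓN' : ¬ ℓ ∣ N')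
      (hℓS' : ℓ ∉ (↑S0 : Set ℕ)),
        πO' (π' (heckeAlgebra.T hℓ hℓN' hℓS')) = Y.πO (Y.rt.π (heckeAlgebra.T hℓ hℓN hℓS)))
    (D' : DeformationRingData 𝒪 ρbar (condFL 𝒪 p Smin (insert q Sig))) :
    ∃ (ρT' : GaloisRepAdic T') (φ' : D'.R →ₐ[𝒪] T')
      (φ'_local : IsLocalHom (φ' : D'.R →+* T')),
      (∀ (r : ℕ) (hr : r.Prime) (hrN : ¬ r ∣ N') (hrS : r ∉ (↑S0 : Set ℕ)),
        ∀ A : ValuationSubring Qb, A.LiesOverPrime r → ∀ σ : GQ, A.IsFrobeniusAt σ r →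
          LinearMap.charpoly (ρT'.ρ σ) =
            X ^ 2 - C (π' (heckeAlgebra.T hr hrN hrS)) * X + C ((r : T'))) ∧
      Function.Surjective φ' ∧
      (D'.ρ.baseChangeAlong (φ' : D'.R →+* T') φ'_local).IsEquiv ρT' ∧
      etaIdeal πO' ≠ ⊥ := by
  have hp : p.Prime := Fact.out
  -- the carrier
  haveI hlocA : IsLocalHom (algebraMap 𝒪 T') := isLocalHom_algebraMap_of_aug πO'
  haveI : IsNoetherianRing T' := IsNoetherianRing.of_finite 𝒪 T'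
  haveI : IsAdicComplete (maximalIdeal T') T' :=
    IsLocalRing.isAdicComplete_of_module_finite (𝒪 := 𝒪)
  have hressurj : Function.Surjective (residue T' ∘ algebraMap 𝒪 T') :=
    residue_comp_algebraMap_surjective_of_aug πO'
  -- the residual eigensystem at level `N'`
  let θ' : heckeAlgebra N' 2 (↑S0 : Set ℕ) →+* ResidueField 𝒪 :=
    (residue 𝒪).comp ((πO' : T' →+* 𝒪).comp π')
  have hres : ∀ t, residue T' (π' t) = ResidueField.map (algebraMap 𝒪 T') (θ' t) :=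
    fun t => residue_eq_map_of_aug πO' π' t
  have hfrob : ∀ (ℓ : ℕ) (hℓ : ℓ.Prime) (hℓN : ¬ ℓ ∣ N') (hℓS : ℓ ∉ (↑S0 : Set ℕ)),
      ∀ P : ValuationSubring Qb, P.LiesOverPrime ℓ → ∀ σ : GQ, P.IsFrobeniusAt σ ℓ →
        ∃ d₀ : ResidueField 𝒪, LinearMap.charpoly (ρbar.ρ σ) =
          X ^ 2 - C (θ' (heckeAlgebra.T hℓ hℓN hℓS)) * X + C d₀ := by
    intro ℓ hℓ hℓN' hℓS' P hP σ hσ
    have hℓN : ¬ ℓ ∣ Y.rt.N := fun h => hℓN' (h.trans hNN')
    have hℓS : ℓ ∉ Y.rt.S := fun h => hℓS' (hYS h)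
    refine ⟨residue 𝒪 ((ℓ : ℕ) : 𝒪), ?_⟩
    rw [charpoly_rhobar_of_rtNum Y ℓ hℓ hℓN hℓS P hP σ hσ, ← heig ℓ hℓ hℓN hℓS hℓN' hℓS']
    rfl
  -- the datum on `Tloc 𝒪 θ'`, pushed to `T'`
  obtain ⟨H, hπ, -, hunrH, hresH⟩ :=
    Fermat.Agent.GB.Glue.DatumOfRhobar.exists_datum p N' S0 𝒪 θ' hp2 hpS hNS hp𝒪 ρbar D'.absIrr
      hfrob
  obtain ⟨φ, hφ, hφs, hφt, hchar, hflat, hunip⟩ :=
    Fermat.Agent.GB.B4.Datum.PushTloc.exists_galRep_flat (TQ := T') hp hp2 hp𝒪 hpN' hpS hNS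
      H hπ π' hres hgen S0 Smin (Finset.Subset.refl S0) hSminN'
  -- the type of the pushed representation
  have h𝒟 : condFL 𝒪 p Smin (insert q Sig) (pushRep H φ.toRingHom hφ) := by
    refine ⟨⟨hflat.1, hflat.2.1, fun r hr hrT => ?_⟩, hunip⟩
    exact Fermat.Agent.GP.Tan.isUnramifiedAt_baseChangeAlong φ.toRingHom hφ
      (hunrH r hr (fun hrN => hrT (hNT r hr hrN))
        (fun hrp => hrT (by rw [hrp]; exact Finset.mem_union_left _ hpSmin)))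
  -- its residual representation
  have hresQ : (pushRep H φ.toRingHom hφ).residual.IsEquiv
      (ρbar.baseChangeAlong (ResidueField.map (algebraMap 𝒪 T'))) := by
    have h := Fermat.Agent.GB.B4.Datum.PushTloc.residual_push H.ρ φ.toRingHom hφ ρbar
      (ResidueField.map (algebraMap 𝒪 (Tloc 𝒪 θ'))) hresH
    haveI := hφ
    have e : (ResidueField.map φ.toRingHom).comp (ResidueField.map (algebraMap 𝒪 (Tloc 𝒪 θ'))) =
        ResidueField.map (algebraMap 𝒪 T') := by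
      ext x
      obtain ⟨a, rfl⟩ := residue_surjective x
      rw [RingHom.comp_apply, ResidueField.map_residue, ResidueField.map_residue,
        ResidueField.map_residue]
      congr 1
      exact φ.commutes a
    rw [e] at h
    exact h
  obtain ⟨ψ, hψ, hsurj, he⟩ := Fermat.Agent.GB.B4.Datum.PsiTQPush.exists_psi_of_type D' hNS
    hressurj (pushRep H φ.toRingHom hφ) h𝒟 hresQ π' hgen hchar
  -- `η ≠ 0`
  haveI : IsReduced (heckeAlgebra N' 2 (↑S0 : Set ℕ)) :=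
    Fermat.Agent.GS.Pet.isReduced_heckeAlgebra N' 2 (↑S0 : Set ℕ)
      (fun r hr hrN => Finset.mem_coe.mpr (hNS r hr hrN))
  haveI : IsReduced T' :=
    Fermat.Agent.GS.Pet.DatumAlg.isReduced_of_adjoin_range (O := 𝒪) π' hgen
  exact ⟨pushRep H φ.toRingHom hφ, ψ, hψ, hchar, hsurj, he, etaIdeal_ne_bot_of_finite πO'⟩

/-- the set `B` of the fields `hB`, `heig` of the step record -/
def badSet (S0 : Finset ℕ) (N' : ℕ) : Finset ℕ := S0 ∪ N'.primeFactors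

/-- the field `hB` of the step record for `B := badSet S0 N'`, `S' := ↑S0` -/
theorem hB_badSet (Y : RTNum ρbar (condFL 𝒪 p Smin Sig) d) (S0 : Finset ℕ)
    (hYS : Y.rt.S ⊆ (↑S0 : Set ℕ)) {N' : ℕ} [NeZero N'] (hNN' : Y.rt.N ∣ N') :
    ∀ ℓ : ℕ, ℓ.Prime → ℓ ∉ badSet S0 N' →
      ¬ ℓ ∣ Y.rt.N ∧ ℓ ∉ Y.rt.S ∧ ¬ ℓ ∣ N' ∧ ℓ ∉ (↑S0 : Set ℕ) := by
  intro ℓ hℓ hB
  obtain ⟨h1, h2⟩ := Fermat.Agent.GB.Glue.Habs.good_of_not_mem N' S0 hℓ hB
  exact ⟨fun h => h1 (h.trans hNN'), fun h => h2 (hYS h), h1, h2⟩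

variable [Algebra (ZMod p) (ResidueField 𝒪)]

/-- **STAGE-RAW, flat case**: every raw field of `Asm.StepInputFL Y q hq` (with `S' := ↑S0`,
`B := badSet S0 N'`, `m`, `γ` from GE6), for ANY carrier `T'` of the next stage. -/
theorem exists_rawFL (Y : RTNum ρbar (condFL 𝒪 p Smin Sig) d) (q : ℕ)
    (hp2 : p ≠ 2) (hp𝒪 : (p : 𝒪) ∈ maximalIdeal 𝒪) (hpSmin : p ∈ Smin)
    (hmin : ∀ r : ℕ, r.Prime → r ≠ p → (r ∈ Smin ↔ ¬ ρbar.IsUnramifiedAt r))
    (hbar : condFL 𝒪 p Smin (insert q Sig) (GaloisRepAdic.ofResidualGaloisRep ρbar))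
    (S0 : Finset ℕ) (hYS : Y.rt.S ⊆ (↑S0 : Set ℕ))
    {N' : ℕ} [NeZero N'] (hNN' : Y.rt.N ∣ N') (hpN' : ¬ p ∣ N') (hpS : p ∈ S0)
    (hNS : ∀ r : ℕ, r.Prime → r ∣ N' → r ∈ S0)
    (hNT : ∀ r : ℕ, r.Prime → r ∣ N' → r ∈ Smin ∪ insert q Sig)
    (hSminN' : ∀ r ∈ Smin, r.Prime → r ≠ p → r ∣ N' ∧ ¬ r ^ 2 ∣ N')
    {T' : Type} [CommRing T'] [IsLocalRing T'] [Algebra 𝒪 T'] [Module.Finite 𝒪 T']
    [Module.Free 𝒪 T']
    (π' : heckeAlgebra N' 2 (↑S0 : Set ℕ) →+* T')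
    (hgen : Algebra.adjoin 𝒪 (Set.range π') = ⊤)
    (πO' : T' →ₐ[𝒪] 𝒪)
    (heig : ∀ (ℓ : ℕ) (hℓ : ℓ.Prime) (hℓN : ¬ ℓ ∣ Y.rt.N) (hℓS : ℓ ∉ Y.rt.S) (hℓN' : ¬ ℓ ∣ N')
      (hℓS' : ℓ ∉ (↑S0 : Set ℕ)),
        πO' (π' (heckeAlgebra.T hℓ hℓN' hℓS')) = Y.πO (Y.rt.π (heckeAlgebra.T hℓ hℓN hℓS))) :
    ∃ (D' : DeformationRingData 𝒪 ρbar (condFL 𝒪 p Smin (insert q Sig)))
      (ρT' : GaloisRepAdic T') (φ' : D'.R →ₐ[𝒪] T')
      (φ'_local : IsLocalHom (φ' : D'.R →+* T')) (m : ℕ)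
      (γ : MvPowerSeries (Fin m) 𝒪 →ₐ[𝒪] D'.R),
      (∀ (r : ℕ) (hr : r.Prime) (hrN : ¬ r ∣ N') (hrS : r ∉ (↑S0 : Set ℕ)),
        ∀ A : ValuationSubring Qb, A.LiesOverPrime r → ∀ σ : GQ, A.IsFrobeniusAt σ r →
          LinearMap.charpoly (ρT'.ρ σ) =
            X ^ 2 - C (π' (heckeAlgebra.T hr hrN hrS)) * X + C ((r : T'))) ∧
      Function.Surjective φ' ∧
      (D'.ρ.baseChangeAlong (φ' : D'.R →+* T') φ'_local).IsEquiv ρT' ∧
      etaIdeal πO' ≠ ⊥ ∧ Function.Surjective γ ∧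
      (∀ ℓ : ℕ, ℓ.Prime → ℓ ∉ badSet S0 N' →
        ¬ ℓ ∣ Y.rt.N ∧ ℓ ∉ Y.rt.S ∧ ¬ ℓ ∣ N' ∧ ℓ ∉ (↑S0 : Set ℕ)) ∧
      (∀ (ℓ : ℕ) (hℓ : ℓ.Prime) (hℓN : ¬ ℓ ∣ Y.rt.N) (hℓS : ℓ ∉ Y.rt.S) (hℓN' : ¬ ℓ ∣ N')
        (hℓS' : ℓ ∉ (↑S0 : Set ℕ)), ℓ ∉ badSet S0 N' →
          πO' (π' (heckeAlgebra.T hℓ hℓN' hℓS')) =
            Y.πO (Y.rt.π (heckeAlgebra.T hℓ hℓN hℓS))) := by
  obtain ⟨D'⟩ := Fermat.Agent.GE6.DefRing.nonempty_defRing_FL p ρbar hp2 Y.rt.D.absIrr Smin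
    (insert q Sig) hpSmin hmin hbar
  obtain ⟨m, hm⟩ := Fermat.Agent.GE6.DefRing.exists_surjective_FL (𝒪 := 𝒪) p ρbar hp2 Smin
    (insert q Sig) hpSmin hmin
  obtain ⟨γ, hγ⟩ := hm D'
  obtain ⟨ρT', φ', φ'_local, hcp', hφ', φ'_ρ, hη'⟩ := exists_raw_of_defRing Y q hp2 hp𝒪 hpSmin S0
    hYS hNN' hpN' hpS hNS hNT hSminN' π' hgen πO' heig D'
  exact ⟨D', ρT', φ', φ'_local, m, γ, hcp', hφ', φ'_ρ, hη', hγ, hB_badSet Y S0 hYS hNN',
    fun ℓ hℓ hℓN hℓS hℓN' hℓS' _ => heig ℓ hℓ hℓN hℓS hℓN' hℓS'⟩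

end Raw

end Fermat.Agent.GE9.Stage.RawFL

end
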