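/-
GATE-E / GE9-STAGE-RAW, strict-ordinary twin (helper11, RULING A6.1 §2 + A6.2 §1 of helper10):
**the raw (non-numerical) fields of the step record `Asm.StepInputSO Y q hq`** (helper73,
`GE9/Asm/Chain`) from landed producers, for ANY carrier of the next stage.  SO twin of
`GE9/Stage/RawFL.lean`; same setting, with the next level of the literal form `N₀ * p`, `p ∥ N₀ * p`,
and the binders of helper32's `ProviderNew/G3.exists_psi_strict`: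

* `hordbar` : `ρbar` is ordinary at `p`;
* `hann`    : the carrier `T'` is a quotient of the `p`-NEW Hecke ring — a Hecke operator
  `t₀ ∈ 𝒪 ⊗ 𝕋` killing `𝒪 ⊗ LamNew` has `twO π' t₀ = 0` in `T'` (GB-PNEW: helper44 (ANN));
* `hside`   : `p = 3 → 2 ∣ N₀ * p`.

Chain: `DatumOfRhobar.exists_datum` on `Tloc 𝒪 θ'` (`θ' := residue ∘ πO' ∘ π'`, the polynomials of
`ρbar` from `RawFL.charpoly_rhobar_of_rtNum`) ⟹ helper39 `GalPkgSO.exists_galRep_strict_of_ann`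
(`Λ' := LamNew`) ⟹ the type `condSO` of the pushed representation ⟹
`PsiTQPush.exists_psi_of_type` ⟹ Petersson reducedness + `EtaNe`.
-/
import Fermat.Agent.GE9.Stage.RawFL
import Fermat.Agent.GB.B9.ProviderNew.G3

set_option autoImplicit false
set_option linter.unusedSectionVars false
set_option linter.unusedVariables false
set_option linter.style.haveILetI false

noncomputable section

namespace Fermat.Agent.GE9.Stage.RawSO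

open TensorProduct CuspForm IsLocalRing Polynomial GaloisRep
open Fermat.Agent.GE.Graph Fermat.Agent.GE9.Ind Fermat.Agent.GE9.NumCrit
  Fermat.Agent.GE9.CotGrowth Fermat.Agent.GE9.Stage.RawFL
open Fermat.Agent.GK.AL
open Fermat.Agent.GB.B4.Datum.Carrier Fermat.Agent.GB.B4.Datum.Push
open Fermat.Agent.GB.B10.KumLevelHecke Fermat.Agent.GB.B10.L.NewInst
open Fermat.Agent.GB.B10.L.ThetaNew Fermat.Agent.GB.B10.L.StrictQNew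

local notation "GQ" => (AlgebraicClosure ℚ ≃ₐ[ℚ] AlgebraicClosure ℚ)
local notation "Qb" => AlgebraicClosure ℚ

variable {𝒪 : Type} [CommRing 𝒪] [IsDomain 𝒪] [IsDiscreteValuationRing 𝒪]
  [IsAdicComplete (maximalIdeal 𝒪) 𝒪] [Finite (ResidueField 𝒪)] [CharZero 𝒪]
  {ρbar : ResidualGaloisRep (ResidueField 𝒪)} {p : ℕ} [Fact p.Prime]
  {Smin Sig : Finset ℕ} {d : ℕ}

/-- **STAGE-RAW, strict-ordinary case, for a given deformation datum `D'`** of the next problem. -/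
theorem exists_raw_of_defRing (Y : RTNum ρbar (condSO 𝒪 p Smin Sig) d) (q : ℕ)
    (hp2 : p ≠ 2) (hp𝒪 : (p : 𝒪) ∈ maximalIdeal 𝒪) (hpSmin : p ∈ Smin)
    (S0 : Finset ℕ) (hYS : Y.rt.S ⊆ (↑S0 : Set ℕ))
    {N₀ : ℕ} [NeZero N₀] (hNN' : Y.rt.N ∣ N₀ * p)
    (h : ExactDvd p (N₀ * p)) (hside : p = 3 → 2 ∣ N₀ * p) (hpS : p ∈ S0)
    (hNS : ∀ r : ℕ, r.Prime → r ∣ N₀ * p → r ∈ S0)
    (hNT : ∀ r : ℕ, r.Prime → r ∣ N₀ * p → r ∈ Smin ∪ insert q Sig)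
    (hSminN' : ∀ r ∈ Smin, r.Prime → r ≠ p → r ∣ N₀ * p ∧ ¬ r ^ 2 ∣ N₀ * p)
    (hordbar : (GaloisRepAdic.ofResidualGaloisRep ρbar).IsOrdinaryAt p)
    {T' : Type} [CommRing T'] [IsLocalRing T'] [Algebra 𝒪 T'] [Module.Finite 𝒪 T']
    [Module.Free 𝒪 T']
    (π' : heckeAlgebra (N₀ * p) 2 (↑S0 : Set ℕ) →+* T')
    (hgen : Algebra.adjoin 𝒪 (Set.range π') = ⊤)
    (hann : ∀ t₀ : 𝒪 ⊗[ℤ] heckeAlgebra (N₀ * p) 2 (↑S0 : Set ℕ),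
      (∀ (a : 𝒪), ∀ x ∈ (LamNew (not_dvd_of_exactDvd h) :
          AddSubgroup (levelData p (N₀ * p) hpS hNS).Λ),
        (levelData p (N₀ * p) hpS hNS).heckeTensor 𝒪 t₀ (a ⊗ₜ[ℤ] x) = 0) →
          Fermat.Agent.GB.B10.L.GalPkgSO.twO (𝒪 := 𝒪) π' t₀ = 0)
    (πO' : T' →ₐ[𝒪] 𝒪)
    (heig : ∀ (ℓ : ℕ) (hℓ : ℓ.Prime) (hℓN : ¬ ℓ ∣ Y.rt.N) (hℓS : ℓ ∉ Y.rt.S)
      (hℓN' : ¬ ℓ ∣ N₀ * p) (hℓS' : ℓ ∉ (↑S0 : Set ℕ)),
        πO' (π' (heckeAlgebra.T hℓ hℓN' hℓS')) = Y.πO (Y.rt.π (heckeAlgebra.T hℓ hℓN hℓS)))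
    (D' : DeformationRingData 𝒪 ρbar (condSO 𝒪 p Smin (insert q Sig))) :
    ∃ (ρT' : GaloisRepAdic T') (φ' : D'.R →ₐ[𝒪] T')
      (φ'_local : IsLocalHom (φ' : D'.R →+* T')),
      (∀ (r : ℕ) (hr : r.Prime) (hrN : ¬ r ∣ N₀ * p) (hrS : r ∉ (↑S0 : Set ℕ)),
        ∀ A : ValuationSubring Qb, A.LiesOverPrime r → ∀ σ : GQ, A.IsFrobeniusAt σ r →
          LinearMap.charpoly (ρT'.ρ σ) =
            X ^ 2 - C (π' (heckeAlgebra.T hr hrN hrS)) * X + C ((r : T'))) ∧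
      Function.Surjective φ' ∧
      (D'.ρ.baseChangeAlong (φ' : D'.R →+* T') φ'_local).IsEquiv ρT' ∧
      etaIdeal πO' ≠ ⊥ := by
  have hp : p.Prime := Fact.out
  -- the carrier
  haveI hlocA : IsLocalHom (algebraMap 𝒪 T') := isLocalHom_algebraMap_of_aug πO'
  haveI : IsNoetherianRing T' := IsNoetherianRing.of_finite 𝒪 T'
  haveI : IsAdicComplete (maximalIdeal T') T' :=
    IsLocalRing.isAdicComplete_of_module_finite (𝒪 := 𝒪)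
  have hressurj : Function.Surjective (residue T' ∘ algebraMap 𝒪 T') :=
    residue_comp_algebraMap_surjective_of_aug πO'
  -- the residual eigensystem at level `N₀ * p`
  let θ' : heckeAlgebra (N₀ * p) 2 (↑S0 : Set ℕ) →+* ResidueField 𝒪 :=
    (residue 𝒪).comp ((πO' : T' →+* 𝒪).comp π')
  have hres : ∀ t, residue T' (π' t) = ResidueField.map (algebraMap 𝒪 T') (θ' t) :=
    fun t => residue_eq_map_of_aug πO' π' t
  have hfrob : ∀ (ℓ : ℕ) (hℓ : ℓ.Prime) (hℓN : ¬ ℓ ∣ N₀ * p) (hℓS : ℓ ∉ (↑S0 : Set ℕ)),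
      ∀ P : ValuationSubring Qb, P.LiesOverPrime ℓ → ∀ σ : GQ, P.IsFrobeniusAt σ ℓ →
        ∃ d₀ : ResidueField 𝒪, LinearMap.charpoly (ρbar.ρ σ) =
          X ^ 2 - C (θ' (heckeAlgebra.T hℓ hℓN hℓS)) * X + C d₀ := by
    intro ℓ hℓ hℓN' hℓS' P hP σ hσ
    have hℓN : ¬ ℓ ∣ Y.rt.N := fun h => hℓN' (h.trans hNN')
    have hℓS : ℓ ∉ Y.rt.S := fun h => hℓS' (hYS h)
    refine ⟨residue 𝒪 ((ℓ : ℕ) : 𝒪), ?_⟩
    rw [charpoly_rhobar_of_rtNum Y ℓ hℓ hℓN hℓS P hP σ hσ, ← heig ℓ hℓ hℓN hℓS hℓN' hℓS']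
    rfl
  -- the datum on `Tloc 𝒪 θ'`
  obtain ⟨H, hπ, -, hunrH, hresH⟩ :=
    Fermat.Agent.GB.Glue.DatumOfRhobar.exists_datum p (N₀ * p) S0 𝒪 θ' hp2 hpS hNS hp𝒪 ρbar
      D'.absIrr hfrob
  -- S33's residual hypothesis for the datum
  have hresord : (GaloisRepAdic.ofResidualGaloisRep H.ρ.residual).IsOrdinaryAt p := by
    obtain ⟨e⟩ := hresH
    exact Fermat.Agent.GB.ResOrd.Plug.isOrdinaryAt_of_isEquiv ⟨e.symm⟩
      (Fermat.Agent.GB.ResOrd.Plug.isOrdinaryAt_baseChangeAlong ρbar _ hordbar)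
  obtain ⟨φ, hφ, hφs, hφt, hchar, hstrict, hunip⟩ :=
    Fermat.Agent.GB.B10.L.GalPkgSO.exists_galRep_strict_of_ann (TQ := T') hp2 hp𝒪 h hside hpS hNS
      H hπ hresord π' hres hgen S0 Smin (Finset.Subset.refl S0) hSminN'
      (LamNew (not_dvd_of_exactDvd h)) hann (hY_lamNew h hpS hNS (not_dvd_of_exactDvd h))
  -- the type of the pushed representation
  have h𝒟 : condSO 𝒪 p Smin (insert q Sig) (pushRep H φ.toRingHom hφ) := by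
    refine ⟨⟨hstrict.1, hstrict.2.1, fun r hr hrT => ?_⟩, hunip⟩
    exact Fermat.Agent.GP.Tan.isUnramifiedAt_baseChangeAlong φ.toRingHom hφ
      (hunrH r hr (fun hrN => hrT (hNT r hr hrN))
        (fun hrp => hrT (by rw [hrp]; exact Finset.mem_union_left _ hpSmin)))
  -- its residual representation
  have hresQ : (pushRep H φ.toRingHom hφ).residual.IsEquiv
      (ρbar.baseChangeAlong (ResidueField.map (algebraMap 𝒪 T'))) := by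
    have h1 := Fermat.Agent.GB.B4.Datum.PushTloc.residual_push H.ρ φ.toRingHom hφ ρbar
      (ResidueField.map (algebraMap 𝒪 (Tloc 𝒪 θ'))) hresH
    haveI := hφ
    have e : (ResidueField.map φ.toRingHom).comp (ResidueField.map (algebraMap 𝒪 (Tloc 𝒪 θ'))) =
        ResidueField.map (algebraMap 𝒪 T') := by
      ext x
      obtain ⟨a, rfl⟩ := residue_surjective x
      rw [RingHom.comp_apply, ResidueField.map_residue, ResidueField.map_residue,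
        ResidueField.map_residue]
      congr 1
      exact φ.commutes a
    rw [e] at h1
    exact h1
  obtain ⟨ψ, hψ, hsurj, he⟩ := Fermat.Agent.GB.B4.Datum.PsiTQPush.exists_psi_of_type D' hNS
    hressurj (pushRep H φ.toRingHom hφ) h𝒟 hresQ π' hgen hchar
  -- `η ≠ 0`
  haveI : IsReduced (heckeAlgebra (N₀ * p) 2 (↑S0 : Set ℕ)) :=
    Fermat.Agent.GS.Pet.isReduced_heckeAlgebra (N₀ * p) 2 (↑S0 : Set ℕ)
      (fun r hr hrN => Finset.mem_coe.mpr (hNS r hr hrN))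
  haveI : IsReduced T' :=
    Fermat.Agent.GS.Pet.DatumAlg.isReduced_of_adjoin_range (O := 𝒪) π' hgen
  exact ⟨pushRep H φ.toRingHom hφ, ψ, hψ, hchar, hsurj, he, etaIdeal_ne_bot_of_finite πO'⟩

/-- the field `hB` of the step record for `B := badSet S0 N'`, `S' := ↑S0` -/
theorem hB_badSet (Y : RTNum ρbar (condSO 𝒪 p Smin Sig) d) (S0 : Finset ℕ)
    (hYS : Y.rt.S ⊆ (↑S0 : Set ℕ)) {N' : ℕ} [NeZero N'] (hNN' : Y.rt.N ∣ N') :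
    ∀ ℓ : ℕ, ℓ.Prime → ℓ ∉ badSet S0 N' →
      ¬ ℓ ∣ Y.rt.N ∧ ℓ ∉ Y.rt.S ∧ ¬ ℓ ∣ N' ∧ ℓ ∉ (↑S0 : Set ℕ) := by
  intro ℓ hℓ hB
  obtain ⟨h1, h2⟩ := Fermat.Agent.GB.Glue.Habs.good_of_not_mem N' S0 hℓ hB
  exact ⟨fun h => h1 (h.trans hNN'), fun h => h2 (hYS h), h1, h2⟩

variable [Algebra (ZMod p) (ResidueField 𝒪)]

/-- **STAGE-RAW, strict-ordinary case**: every raw field of `Asm.StepInputSO Y q hq` (with
`S' := ↑S0`, `B := badSet S0 (N₀ * p)`, `m`, `γ` from GE6), for ANY carrier `T'` of the next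
stage. -/
theorem exists_rawSO (Y : RTNum ρbar (condSO 𝒪 p Smin Sig) d) (q : ℕ)
    (hp2 : p ≠ 2) (hp𝒪 : (p : 𝒪) ∈ maximalIdeal 𝒪) (hpSmin : p ∈ Smin)
    (hmin : ∀ r : ℕ, r.Prime → r ≠ p → (r ∈ Smin ↔ ¬ ρbar.IsUnramifiedAt r))
    (hbar : condSO 𝒪 p Smin (insert q Sig) (GaloisRepAdic.ofResidualGaloisRep ρbar))
    (S0 : Finset ℕ) (hYS : Y.rt.S ⊆ (↑S0 : Set ℕ))
    {N₀ : ℕ} [NeZero N₀] (hNN' : Y.rt.N ∣ N₀ * p)
    (h : ExactDvd p (N₀ * p)) (hside : p = 3 → 2 ∣ N₀ * p) (hpS : p ∈ S0)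
    (hNS : ∀ r : ℕ, r.Prime → r ∣ N₀ * p → r ∈ S0)
    (hNT : ∀ r : ℕ, r.Prime → r ∣ N₀ * p → r ∈ Smin ∪ insert q Sig)
    (hSminN' : ∀ r ∈ Smin, r.Prime → r ≠ p → r ∣ N₀ * p ∧ ¬ r ^ 2 ∣ N₀ * p)
    (hordbar : (GaloisRepAdic.ofResidualGaloisRep ρbar).IsOrdinaryAt p)
    {T' : Type} [CommRing T'] [IsLocalRing T'] [Algebra 𝒪 T'] [Module.Finite 𝒪 T']
    [Module.Free 𝒪 T']
    (π' : heckeAlgebra (N₀ * p) 2 (↑S0 : Set ℕ) →+* T')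
    (hgen : Algebra.adjoin 𝒪 (Set.range π') = ⊤)
    (hann : ∀ t₀ : 𝒪 ⊗[ℤ] heckeAlgebra (N₀ * p) 2 (↑S0 : Set ℕ),
      (∀ (a : 𝒪), ∀ x ∈ (LamNew (not_dvd_of_exactDvd h) :
          AddSubgroup (levelData p (N₀ * p) hpS hNS).Λ),
        (levelData p (N₀ * p) hpS hNS).heckeTensor 𝒪 t₀ (a ⊗ₜ[ℤ] x) = 0) →
          Fermat.Agent.GB.B10.L.GalPkgSO.twO (𝒪 := 𝒪) π' t₀ = 0)
    (πO' : T' →ₐ[𝒪] 𝒪)
    (heig : ∀ (ℓ : ℕ) (hℓ : ℓ.Prime) (hℓN : ¬ ℓ ∣ Y.rt.N) (hℓS : ℓ ∉ Y.rt.S)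
      (hℓN' : ¬ ℓ ∣ N₀ * p) (hℓS' : ℓ ∉ (↑S0 : Set ℕ)),
        πO' (π' (heckeAlgebra.T hℓ hℓN' hℓS')) = Y.πO (Y.rt.π (heckeAlgebra.T hℓ hℓN hℓS))) :
    ∃ (D' : DeformationRingData 𝒪 ρbar (condSO 𝒪 p Smin (insert q Sig)))
      (ρT' : GaloisRepAdic T') (φ' : D'.R →ₐ[𝒪] T')
      (φ'_local : IsLocalHom (φ' : D'.R →+* T')) (m : ℕ)
      (γ : MvPowerSeries (Fin m) 𝒪 →ₐ[𝒪] D'.R),
      (∀ (r : ℕ) (hr : r.Prime) (hrN : ¬ r ∣ N₀ * p) (hrS : r ∉ (↑S0 : Set ℕ)),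
        ∀ A : ValuationSubring Qb, A.LiesOverPrime r → ∀ σ : GQ, A.IsFrobeniusAt σ r →
          LinearMap.charpoly (ρT'.ρ σ) =
            X ^ 2 - C (π' (heckeAlgebra.T hr hrN hrS)) * X + C ((r : T'))) ∧
      Function.Surjective φ' ∧
      (D'.ρ.baseChangeAlong (φ' : D'.R →+* T') φ'_local).IsEquiv ρT' ∧
      etaIdeal πO' ≠ ⊥ ∧ Function.Surjective γ ∧
      (∀ ℓ : ℕ, ℓ.Prime → ℓ ∉ badSet S0 (N₀ * p) →
        ¬ ℓ ∣ Y.rt.N ∧ ℓ ∉ Y.rt.S ∧ ¬ ℓ ∣ N₀ * p ∧ ℓ ∉ (↑S0 : Set ℕ)) ∧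
      (∀ (ℓ : ℕ) (hℓ : ℓ.Prime) (hℓN : ¬ ℓ ∣ Y.rt.N) (hℓS : ℓ ∉ Y.rt.S)
        (hℓN' : ¬ ℓ ∣ N₀ * p) (hℓS' : ℓ ∉ (↑S0 : Set ℕ)), ℓ ∉ badSet S0 (N₀ * p) →
          πO' (π' (heckeAlgebra.T hℓ hℓN' hℓS')) =
            Y.πO (Y.rt.π (heckeAlgebra.T hℓ hℓN hℓS))) := by
  obtain ⟨D'⟩ := Fermat.Agent.GE6.DefRing.nonempty_defRing_SO p ρbar hp2 Y.rt.D.absIrr Smin
    (insert q Sig) hpSmin hmin hbar
  obtain ⟨m, hm⟩ := Fermat.Agent.GE6.DefRing.exists_surjective_SO (𝒪 := 𝒪) p ρbar hp2 Smin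
    (insert q Sig) hpSmin hmin
  obtain ⟨γ, hγ⟩ := hm D'
  obtain ⟨ρT', φ', φ'_local, hcp', hφ', φ'_ρ, hη'⟩ := exists_raw_of_defRing Y q hp2 hp𝒪 hpSmin S0
    hYS hNN' h hside hpS hNS hNT hSminN' hordbar π' hgen hann πO' heig D'
  exact ⟨D', ρT', φ', φ'_local, m, γ, hcp', hφ', φ'_ρ, hη', hγ, hB_badSet Y S0 hYS hNN',
    fun ℓ hℓ hℓN hℓS hℓN' hℓS' _ => heig ℓ hℓ hℓN hℓS hℓN' hℓS'⟩

end Fermat.Agent.GE9.Stage.RawSO

end
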