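/-
GATE-E / GE9-STAGE-RAW, the IMAGE-RING carrier (helper11; RULING A6.2 §1 of helper10): the stage
carrier `T'_Σ` is the image `ImageRing.TQ 𝒪 θ' tw` of the anemic Hecke algebra
`heckeAlgebra N' 2 ↑S0` in `End_𝒪 M` (`M` = the `𝔪`-local part of the lattice, `LocHyp`), and the
modular point `πO'` is the character by which `T'_Σ` acts on an eigenvector.

* `exists_aug_of_eigenvector` : `x ≠ 0` in a free `𝒪`-module `M` (`𝒪` a domain) with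
  `tw t x = χ t • x` for all `t` ⟹ an augmentation `πO' : TQ 𝒪 θ tw →ₐ[𝒪] 𝒪` with
  `πO' (chi t) = χ t` (pure algebra: `ker (twO tw) ≤ ker χ_𝒪` by torsion-freeness);
* `exists_rawFL_img`, `exists_rawSO_img` : `RawFL.exists_rawFL` / `RawSO.exists_rawSO` at the
  carrier `T' := TQ 𝒪 θ' tw`, `π' := chi 𝒪 θ' tw`, `πO'` from an eigenvector with eigensystem `χ'`
  having the eigenvalues of the modular point of the stage `Y`.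
-/
import Fermat.Agent.GE9.Stage.RawSO
import Fermat.Agent.GB.B10.L.GalPkgSOImg

set_option autoImplicit false
set_option linter.unusedSectionVars false
set_option linter.unusedVariables false
set_option linter.style.haveILetI false

noncomputable section

namespace Fermat.Agent.GE9.Stage.ImgCarrier

open TensorProduct CuspForm IsLocalRing Polynomial GaloisRep
open Fermat.Agent.GE.Graph Fermat.Agent.GE9.Ind Fermat.Agent.GE9.NumCrit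
  Fermat.Agent.GE9.Stage.RawFL
open Fermat.Agent.GK.AL
open Fermat.Agent.GB.B4.Datum.Carrier Fermat.Agent.GB.B4.Datum.ImageRing
open Fermat.Agent.GB.B10.KumLevelHecke Fermat.Agent.GB.B10.L.NewInst
open Fermat.Agent.GB.B10.L.ThetaNew Fermat.Agent.GB.B10.L.StrictQNew

local notation "GQ" => (AlgebraicClosure ℚ ≃ₐ[ℚ] AlgebraicClosure ℚ)
local notation "Qb" => AlgebraicClosure ℚ

/-! ### an eigenvector gives an augmentation of the image ring -/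

section Aug

variable {𝒪 : Type} [CommRing 𝒪] [IsLocalRing 𝒪] [IsDomain 𝒪] {A : Type} [CommRing A]
  {M : Type} [AddCommGroup M] [Module 𝒪 M] [Module.Free 𝒪 M]

/-- the `𝒪`-linear extension of a character `χ : A →+* 𝒪` -/
def chiO (χ : A →+* 𝒪) : 𝒪 ⊗[ℤ] A →ₐ[𝒪] 𝒪 :=
  Algebra.TensorProduct.lift (AlgHom.id 𝒪 𝒪) χ.toIntAlgHom (fun _ _ => Commute.all _ _)

theorem chiO_tmul (χ : A →+* 𝒪) (c : 𝒪) (t : A) : chiO χ (c ⊗ₜ t) = c * χ t := by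
  show Algebra.TensorProduct.lift _ _ _ (c ⊗ₜ t) = _
  rw [Algebra.TensorProduct.lift_tmul]
  rfl

/-- `𝒪 ⊗ A` acts on an eigenvector through `chiO` -/
theorem twO_apply_eigenvector (tw : A →+* Module.End 𝒪 M) (χ : A →+* 𝒪) (x : M)
    (hx : ∀ t, tw t x = χ t • x) (a : 𝒪 ⊗[ℤ] A) : twO 𝒪 tw a x = chiO χ a • x := by
  induction a using TensorProduct.induction_on with
  | zero => rw [map_zero, map_zero, LinearMap.zero_apply, zero_smul]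
  | tmul c t =>
    rw [twO_tmul, chiO_tmul, LinearMap.smul_apply, hx, smul_smul]
  | add a b ha hb => rw [map_add, map_add, LinearMap.add_apply, ha, hb, add_smul]

/-- **the augmentation of the image ring at an eigenvector** -/
theorem exists_aug_of_eigenvector (θ : A →+* ResidueField 𝒪) (tw : A →+* Module.End 𝒪 M)
    (χ : A →+* 𝒪) (x : M) (hx0 : x ≠ 0) (hx : ∀ t, tw t x = χ t • x) :
    ∃ πO' : TQ 𝒪 θ tw →ₐ[𝒪] 𝒪, ∀ t : A, πO' (chi 𝒪 θ tw t) = χ t := by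
  have hker : ∀ a : 𝒪 ⊗[ℤ] A, a ∈ RingHom.ker (twO 𝒪 tw) → chiO χ a = 0 := by
    intro a ha
    have h1 := twO_apply_eigenvector tw χ x hx a
    rw [RingHom.mem_ker.mp ha, LinearMap.zero_apply] at h1
    exact (smul_eq_zero.mp h1.symm).resolve_right hx0
  refine ⟨Ideal.Quotient.liftₐ (RingHom.ker (twO 𝒪 tw)) (chiO χ) hker, fun t => ?_⟩
  rw [chi_apply]
  show Ideal.Quotient.liftₐ _ (chiO χ) hker (Ideal.Quotient.mk _ ((1 : 𝒪) ⊗ₜ[ℤ] t)) = _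
  rw [Ideal.Quotient.liftₐ_apply, Ideal.Quotient.lift_mk]
  show chiO χ ((1 : 𝒪) ⊗ₜ[ℤ] t) = _
  rw [chiO_tmul, one_mul]

end Aug

/-! ### the raw fields of the next stage at the image-ring carrier -/

section Raw

variable {𝒪 : Type} [CommRing 𝒪] [IsDomain 𝒪] [IsDiscreteValuationRing 𝒪]
  [IsAdicComplete (maximalIdeal 𝒪) 𝒪] [Finite (ResidueField 𝒪)] [CharZero 𝒪]
  {ρbar : ResidualGaloisRep (ResidueField 𝒪)} {p : ℕ} [Fact p.Prime]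
  [Algebra (ZMod p) (ResidueField 𝒪)]
  {Smin Sig : Finset ℕ} {d : ℕ}
  {M : Type} [AddCommGroup M] [Module 𝒪 M] [Module.Finite 𝒪 M] [Module.Free 𝒪 M] [Nontrivial M]

/-- **STAGE-RAW, flat case, image-ring carrier.** -/
theorem exists_rawFL_img (Y : RTNum ρbar (condFL 𝒪 p Smin Sig) d) (q : ℕ)
    (hp2 : p ≠ 2) (hp𝒪 : (p : 𝒪) ∈ maximalIdeal 𝒪) (hpSmin : p ∈ Smin)
    (hmin : ∀ r : ℕ, r.Prime → r ≠ p → (r ∈ Smin ↔ ¬ ρbar.IsUnramifiedAt r))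
    (hbar : condFL 𝒪 p Smin (insert q Sig) (GaloisRepAdic.ofResidualGaloisRep ρbar))
    (S0 : Finset ℕ) (hYS : Y.rt.S ⊆ (↑S0 : Set ℕ))
    {N' : ℕ} [NeZero N'] (hNN' : Y.rt.N ∣ N') (hpN' : ¬ p ∣ N') (hpS : p ∈ S0)
    (hNS : ∀ r : ℕ, r.Prime → r ∣ N' → r ∈ S0)
    (hNT : ∀ r : ℕ, r.Prime → r ∣ N' → r ∈ Smin ∪ insert q Sig)
    (hSminN' : ∀ r ∈ Smin, r.Prime → r ≠ p → r ∣ N' ∧ ¬ r ^ 2 ∣ N')
    (θ' : heckeAlgebra N' 2 (↑S0 : Set ℕ) →+* ResidueField 𝒪)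
    (tw : heckeAlgebra N' 2 (↑S0 : Set ℕ) →+* Module.End 𝒪 M) [Fact (LocHyp 𝒪 θ' tw)]
    (χ' : heckeAlgebra N' 2 (↑S0 : Set ℕ) →+* 𝒪) (x : M) (hx0 : x ≠ 0)
    (hx : ∀ t, tw t x = χ' t • x)
    (heig : ∀ (ℓ : ℕ) (hℓ : ℓ.Prime) (hℓN : ¬ ℓ ∣ Y.rt.N) (hℓS : ℓ ∉ Y.rt.S) (hℓN' : ¬ ℓ ∣ N')
      (hℓS' : ℓ ∉ (↑S0 : Set ℕ)),
        χ' (heckeAlgebra.T hℓ hℓN' hℓS') = Y.πO (Y.rt.π (heckeAlgebra.T hℓ hℓN hℓS))) :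
    ∃ (πO' : TQ 𝒪 θ' tw →ₐ[𝒪] 𝒪), (∀ t, πO' (chi 𝒪 θ' tw t) = χ' t) ∧
    ∃ (D' : DeformationRingData 𝒪 ρbar (condFL 𝒪 p Smin (insert q Sig)))
      (ρT' : GaloisRepAdic (TQ 𝒪 θ' tw)) (φ' : D'.R →ₐ[𝒪] TQ 𝒪 θ' tw)
      (φ'_local : IsLocalHom (φ' : D'.R →+* TQ 𝒪 θ' tw)) (m : ℕ)
      (γ : MvPowerSeries (Fin m) 𝒪 →ₐ[𝒪] D'.R),
      (∀ (r : ℕ) (hr : r.Prime) (hrN : ¬ r ∣ N') (hrS : r ∉ (↑S0 : Set ℕ)),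
        ∀ A : ValuationSubring Qb, A.LiesOverPrime r → ∀ σ : GQ, A.IsFrobeniusAt σ r →
          LinearMap.charpoly (ρT'.ρ σ) =
            X ^ 2 - C (chi 𝒪 θ' tw (heckeAlgebra.T hr hrN hrS)) * X + C ((r : TQ 𝒪 θ' tw))) ∧
      Function.Surjective φ' ∧
      (D'.ρ.baseChangeAlong (φ' : D'.R →+* TQ 𝒪 θ' tw) φ'_local).IsEquiv ρT' ∧
      etaIdeal πO' ≠ ⊥ ∧ Function.Surjective γ ∧
      (∀ ℓ : ℕ, ℓ.Prime → ℓ ∉ badSet S0 N' →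
        ¬ ℓ ∣ Y.rt.N ∧ ℓ ∉ Y.rt.S ∧ ¬ ℓ ∣ N' ∧ ℓ ∉ (↑S0 : Set ℕ)) ∧
      (∀ (ℓ : ℕ) (hℓ : ℓ.Prime) (hℓN : ¬ ℓ ∣ Y.rt.N) (hℓS : ℓ ∉ Y.rt.S) (hℓN' : ¬ ℓ ∣ N')
        (hℓS' : ℓ ∉ (↑S0 : Set ℕ)), ℓ ∉ badSet S0 N' →
          πO' (chi 𝒪 θ' tw (heckeAlgebra.T hℓ hℓN' hℓS')) =
            Y.πO (Y.rt.π (heckeAlgebra.T hℓ hℓN hℓS))) := by
  obtain ⟨πO', hπO'⟩ := exists_aug_of_eigenvector θ' tw χ' x hx0 hx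
  refine ⟨πO', hπO', ?_⟩
  exact exists_rawFL Y q hp2 hp𝒪 hpSmin hmin hbar S0 hYS hNN' hpN' hpS hNS hNT hSminN'
    (chi 𝒪 θ' tw) (adjoin_range_chi 𝒪 θ' tw) πO'
    (fun ℓ hℓ hℓN hℓS hℓN' hℓS' => by rw [hπO']; exact heig ℓ hℓ hℓN hℓS hℓN' hℓS')

/-- **STAGE-RAW, strict-ordinary case, image-ring carrier**; the annihilator binder in its
MODULE-level form (`twO 𝒪 tw t₀ m = 0` for all `m : M`). -/
theorem exists_rawSO_img (Y : RTNum ρbar (condSO 𝒪 p Smin Sig) d) (q : ℕ)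
    (hp2 : p ≠ 2) (hp𝒪 : (p : 𝒪) ∈ maximalIdeal 𝒪) (hpSmin : p ∈ Smin)
    (hmin : ∀ r : ℕ, r.Prime → r ≠ p → (r ∈ Smin ↔ ¬ ρbar.IsUnramifiedAt r))
    (hbar : condSO 𝒪 p Smin (insert q Sig) (GaloisRepAdic.ofResidualGaloisRep ρbar))
    (S0 : Finset ℕ) (hYS : Y.rt.S ⊆ (↑S0 : Set ℕ))
    {N₀ : ℕ} [NeZero N₀] (hNN' : Y.rt.N ∣ N₀ * p)
    (h : ExactDvd p (N₀ * p)) (hside : p = 3 → 2 ∣ N₀ * p) (hpS : p ∈ S0)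
    (hNS : ∀ r : ℕ, r.Prime → r ∣ N₀ * p → r ∈ S0)
    (hNT : ∀ r : ℕ, r.Prime → r ∣ N₀ * p → r ∈ Smin ∪ insert q Sig)
    (hSminN' : ∀ r ∈ Smin, r.Prime → r ≠ p → r ∣ N₀ * p ∧ ¬ r ^ 2 ∣ N₀ * p)
    (hordbar : (GaloisRepAdic.ofResidualGaloisRep ρbar).IsOrdinaryAt p)
    (θ' : heckeAlgebra (N₀ * p) 2 (↑S0 : Set ℕ) →+* ResidueField 𝒪)
    (tw : heckeAlgebra (N₀ * p) 2 (↑S0 : Set ℕ) →+* Module.End 𝒪 M) [Fact (LocHyp 𝒪 θ' tw)]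
    (hAnn : ∀ t₀ : 𝒪 ⊗[ℤ] heckeAlgebra (N₀ * p) 2 (↑S0 : Set ℕ),
      (∀ (a : 𝒪), ∀ x ∈ (LamNew (not_dvd_of_exactDvd h) :
          AddSubgroup (levelData p (N₀ * p) hpS hNS).Λ),
        (levelData p (N₀ * p) hpS hNS).heckeTensor 𝒪 t₀ (a ⊗ₜ[ℤ] x) = 0) →
          ∀ m : M, twO 𝒪 tw t₀ m = 0)
    (χ' : heckeAlgebra (N₀ * p) 2 (↑S0 : Set ℕ) →+* 𝒪) (x : M) (hx0 : x ≠ 0)
    (hx : ∀ t, tw t x = χ' t • x)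
    (heig : ∀ (ℓ : ℕ) (hℓ : ℓ.Prime) (hℓN : ¬ ℓ ∣ Y.rt.N) (hℓS : ℓ ∉ Y.rt.S)
      (hℓN' : ¬ ℓ ∣ N₀ * p) (hℓS' : ℓ ∉ (↑S0 : Set ℕ)),
        χ' (heckeAlgebra.T hℓ hℓN' hℓS') = Y.πO (Y.rt.π (heckeAlgebra.T hℓ hℓN hℓS))) :
    ∃ (πO' : TQ 𝒪 θ' tw →ₐ[𝒪] 𝒪), (∀ t, πO' (chi 𝒪 θ' tw t) = χ' t) ∧
    ∃ (D' : DeformationRingData 𝒪 ρbar (condSO 𝒪 p Smin (insert q Sig)))
      (ρT' : GaloisRepAdic (TQ 𝒪 θ' tw)) (φ' : D'.R →ₐ[𝒪] TQ 𝒪 θ' tw)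
      (φ'_local : IsLocalHom (φ' : D'.R →+* TQ 𝒪 θ' tw)) (m : ℕ)
      (γ : MvPowerSeries (Fin m) 𝒪 →ₐ[𝒪] D'.R),
      (∀ (r : ℕ) (hr : r.Prime) (hrN : ¬ r ∣ N₀ * p) (hrS : r ∉ (↑S0 : Set ℕ)),
        ∀ A : ValuationSubring Qb, A.LiesOverPrime r → ∀ σ : GQ, A.IsFrobeniusAt σ r →
          LinearMap.charpoly (ρT'.ρ σ) =
            X ^ 2 - C (chi 𝒪 θ' tw (heckeAlgebra.T hr hrN hrS)) * X + C ((r : TQ 𝒪 θ' tw))) ∧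
      Function.Surjective φ' ∧
      (D'.ρ.baseChangeAlong (φ' : D'.R →+* TQ 𝒪 θ' tw) φ'_local).IsEquiv ρT' ∧
      etaIdeal πO' ≠ ⊥ ∧ Function.Surjective γ ∧
      (∀ ℓ : ℕ, ℓ.Prime → ℓ ∉ badSet S0 (N₀ * p) →
        ¬ ℓ ∣ Y.rt.N ∧ ℓ ∉ Y.rt.S ∧ ¬ ℓ ∣ N₀ * p ∧ ℓ ∉ (↑S0 : Set ℕ)) ∧
      (∀ (ℓ : ℕ) (hℓ : ℓ.Prime) (hℓN : ¬ ℓ ∣ Y.rt.N) (hℓS : ℓ ∉ Y.rt.S)
        (hℓN' : ¬ ℓ ∣ N₀ * p) (hℓS' : ℓ ∉ (↑S0 : Set ℕ)), ℓ ∉ badSet S0 (N₀ * p) →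
          πO' (chi 𝒪 θ' tw (heckeAlgebra.T hℓ hℓN' hℓS')) =
            Y.πO (Y.rt.π (heckeAlgebra.T hℓ hℓN hℓS))) := by
  obtain ⟨πO', hπO'⟩ := exists_aug_of_eigenvector θ' tw χ' x hx0 hx
  refine ⟨πO', hπO', ?_⟩
  exact Fermat.Agent.GE9.Stage.RawSO.exists_rawSO Y q hp2 hp𝒪 hpSmin hmin hbar S0 hYS hNN' h hside
    hpS hNS hNT hSminN' hordbar (chi 𝒪 θ' tw) (adjoin_range_chi 𝒪 θ' tw)
    (Fermat.Agent.GB.B10.L.GalPkgSOImg.hann_of_module (θ := θ') tw _ hAnn) πO'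
    (fun ℓ hℓ hℓN hℓS hℓN' hℓS' => by rw [hπO']; exact heig ℓ hℓ hℓN hℓS hℓN' hℓS')

end Raw

end Fermat.Agent.GE9.Stage.ImgCarrier

end
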