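/-
GATE-E / RISK-3 DESIDE, consumer twins of the STAGE column (helper11; RULING A11 / A11.1 §3 of
helper10): **the strict-ordinary STAGE-RAW chain with the side condition `p = 3 → 2 ∣ N₀ * p`
REPLACED by the hypothesis-form statement `NoSide.GalPkgSONewStmt`** (`GE9/Stage/NoSideStmt.lean`)
of the de-sided SO Galois package.

* `exists_raw_of_defRing_noSide`, `exists_rawSO_noSide` : twins of `RawSO.exists_raw_of_defRing` /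
  `RawSO.exists_rawSO`;
* `exists_rawSO_img_noSide`    : twin of `ImgCarrier.exists_rawSO_img`;
* `exists_stepInputSO'_noSide` : twin of `Step.exists_stepInputSO'`.

Each twin = the landed proof with the call of the landed lemma replaced by `hpkg`; all other binders
and the conclusions are VERBATIM those of the landed lemmas (minus `hside`).
-/
import Fermat.Agent.GE9.Stage.NoSideStmt
import Fermat.Agent.GE9.Stage.Step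
import Fermat.Agent.GE9.Stage.ImgCarrier

set_option autoImplicit false
set_option linter.unusedSectionVars false
set_option linter.unusedVariables false
set_option linter.style.haveILetI false

noncomputable section

namespace Fermat.Agent.GE9.Stage.NoSide

open TensorProduct CuspForm IsLocalRing Polynomial GaloisRep
open Fermat.Agent.GE.Graph Fermat.Agent.GE9.Ind Fermat.Agent.GE9.NumCrit
  Fermat.Agent.GE9.CotGrowth Fermat.Agent.GE9.TanGrow Fermat.Agent.GE9.Asm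
  Fermat.Agent.GE9.Stage.RawFL
open Fermat.Agent.GK.AL
open Fermat.Agent.GB.B4.Datum.Carrier Fermat.Agent.GB.B4.Datum.Push
open Fermat.Agent.GB.B10.KumLevelHecke Fermat.Agent.GB.B10.L.NewInst
open Fermat.Agent.GB.B10.L.ThetaNew Fermat.Agent.GB.B10.L.StrictQNew

local notation "GQ" => (AlgebraicClosure ℚ ≃ₐ[ℚ] AlgebraicClosure ℚ)
local notation "Qb" => AlgebraicClosure ℚ

/-! ### the STAGE-RAW twins -/

section Raw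

variable {𝒪 : Type} [CommRing 𝒪] [IsDomain 𝒪] [IsDiscreteValuationRing 𝒪]
  [IsAdicComplete (maximalIdeal 𝒪) 𝒪] [Finite (ResidueField 𝒪)] [CharZero 𝒪]
  {ρbar : ResidualGaloisRep (ResidueField 𝒪)} {p : ℕ} [Fact p.Prime]
  {Smin Sig : Finset ℕ} {d : ℕ}

/-- **STAGE-RAW, strict-ordinary case, for a given deformation datum `D'`** of the next problem. -/
theorem exists_raw_of_defRing_noSide (hpkg : GalPkgSONewStmt) (Y : RTNum ρbar (condSO 𝒪 p Smin Sig) d) (q : ℕ)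
    (hp2 : p ≠ 2) (hp𝒪 : (p : 𝒪) ∈ maximalIdeal 𝒪) (hpSmin : p ∈ Smin)
    (S0 : Finset ℕ) (hYS : Y.rt.S ⊆ (↑S0 : Set ℕ))
    {N₀ : ℕ} [NeZero N₀] (hNN' : Y.rt.N ∣ N₀ * p)
    (h : ExactDvd p (N₀ * p)) (hpS : p ∈ S0)
    (hNS : ∀ r : ℕ, r.Prime → r ∣ N₀ * p → r ∈ S0)
    (hNT : ∀ r : ℕ, r.Prime → r ∣ N₀ * p → r ∈ Smin ∪ insert q Sig)
    (hSminN' : ∀ r ∈ Smin, r.Prime → r ≠ p → r ∣ N₀ * p ∧ ¬ r ^ 2 ∣ N₀ * p)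
    (hordbar : (GaloisRepAdic.ofResidualGaloisRep ρbar).IsOrdinaryAt p)
    {T' : Type} [CommRing T'] [IsLocalRing T'] [Algebra 𝒪 T'] [Module.Finite 𝒪 T']
    [Module.Free 𝒪 T']
    (π' : heckeAlgebra (N₀ * p) 2 (↑S0 : Set ℕ) →+* T')
    (hgen : Algebra.adjoin 𝒪 (Set.range π') = ⊤)
    (hann : ∀ t₀ : 𝒪 ⊗[ℤ] heckeAlgebra (N₀ * p) 2 (↑S0 : Set ℕ),
      (∀ (a : 𝒪), ∀ x ∈ (LamNew (not_dvd_of_exactDvd h) :
          AddSubgroup (levelData p (N₀ * p) hpS hNS).Λ),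
        (levelData p (N₀ * p) hpS hNS).heckeTensor 𝒪 t₀ (a ⊗ₜ[ℤ] x) = 0) →
          Fermat.Agent.GB.B10.L.GalPkgSO.twO (𝒪 := 𝒪) π' t₀ = 0)
    (πO' : T' →ₐ[𝒪] 𝒪)
    (heig : ∀ (ℓ : ℕ) (hℓ : ℓ.Prime) (hℓN : ¬ ℓ ∣ Y.rt.N) (hℓS : ℓ ∉ Y.rt.S)
      (hℓN' : ¬ ℓ ∣ N₀ * p) (hℓS' : ℓ ∉ (↑S0 : Set ℕ)),
        πO' (π' (heckeAlgebra.T hℓ hℓN' hℓS')) = Y.πO (Y.rt.π (heckeAlgebra.T hℓ hℓN hℓS)))
    (D' : DeformationRingData 𝒪 ρbar (condSO 𝒪 p Smin (insert q Sig))) :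
    ∃ (ρT' : GaloisRepAdic T') (φ' : D'.R →ₐ[𝒪] T')
      (φ'_local : IsLocalHom (φ' : D'.R →+* T')),
      (∀ (r : ℕ) (hr : r.Prime) (hrN : ¬ r ∣ N₀ * p) (hrS : r ∉ (↑S0 : Set ℕ)),
        ∀ A : ValuationSubring Qb, A.LiesOverPrime r → ∀ σ : GQ, A.IsFrobeniusAt σ r →
          LinearMap.charpoly (ρT'.ρ σ) =
            X ^ 2 - C (π' (heckeAlgebra.T hr hrN hrS)) * X + C ((r : T'))) ∧
      Function.Surjective φ' ∧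
      (D'.ρ.baseChangeAlong (φ' : D'.R →+* T') φ'_local).IsEquiv ρT' ∧
      etaIdeal πO' ≠ ⊥ := by
  have hp : p.Prime := Fact.out
  -- the carrier
  haveI hlocA : IsLocalHom (algebraMap 𝒪 T') := isLocalHom_algebraMap_of_aug πO'
  haveI : IsNoetherianRing T' := IsNoetherianRing.of_finite 𝒪 T'
  haveI : IsAdicComplete (maximalIdeal T') T' :=
    IsLocalRing.isAdicComplete_of_module_finite (𝒪 := 𝒪)
  have hressurj : Function.Surjective (residue T' ∘ algebraMap 𝒪 T') :=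
    residue_comp_algebraMap_surjective_of_aug πO'
  -- the residual eigensystem at level `N₀ * p`
  let θ' : heckeAlgebra (N₀ * p) 2 (↑S0 : Set ℕ) →+* ResidueField 𝒪 :=
    (residue 𝒪).comp ((πO' : T' →+* 𝒪).comp π')
  have hres : ∀ t, residue T' (π' t) = ResidueField.map (algebraMap 𝒪 T') (θ' t) :=
    fun t => residue_eq_map_of_aug πO' π' t
  have hfrob : ∀ (ℓ : ℕ) (hℓ : ℓ.Prime) (hℓN : ¬ ℓ ∣ N₀ * p) (hℓS : ℓ ∉ (↑S0 : Set ℕ)),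
      ∀ P : ValuationSubring Qb, P.LiesOverPrime ℓ → ∀ σ : GQ, P.IsFrobeniusAt σ ℓ →
        ∃ d₀ : ResidueField 𝒪, LinearMap.charpoly (ρbar.ρ σ) =
          X ^ 2 - C (θ' (heckeAlgebra.T hℓ hℓN hℓS)) * X + C d₀ := by
    intro ℓ hℓ hℓN' hℓS' P hP σ hσ
    have hℓN : ¬ ℓ ∣ Y.rt.N := fun h => hℓN' (h.trans hNN')
    have hℓS : ℓ ∉ Y.rt.S := fun h => hℓS' (hYS h)
    refine ⟨residue 𝒪 ((ℓ : ℕ) : 𝒪), ?_⟩
    rw [charpoly_rhobar_of_rtNum Y ℓ hℓ hℓN hℓS P hP σ hσ, ← heig ℓ hℓ hℓN hℓS hℓN' hℓS']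
    rfl
  -- the datum on `Tloc 𝒪 θ'`
  obtain ⟨H, hπ, -, hunrH, hresH⟩ :=
    Fermat.Agent.GB.Glue.DatumOfRhobar.exists_datum p (N₀ * p) S0 𝒪 θ' hp2 hpS hNS hp𝒪 ρbar
      D'.absIrr hfrob
  -- S33's residual hypothesis for the datum
  have hresord : (GaloisRepAdic.ofResidualGaloisRep H.ρ.residual).IsOrdinaryAt p := by
    obtain ⟨e⟩ := hresH
    exact Fermat.Agent.GB.ResOrd.Plug.isOrdinaryAt_of_isEquiv ⟨e.symm⟩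
      (Fermat.Agent.GB.ResOrd.Plug.isOrdinaryAt_baseChangeAlong ρbar _ hordbar)
  obtain ⟨φ, hφ, hφs, hφt, hchar, hstrict, hunip⟩ :=
    hpkg (TQ := T') hp2 hp𝒪 h hpS hNS
      H hπ hresord π' hres hgen S0 Smin (Finset.Subset.refl S0) hSminN' hann
  -- the type of the pushed representation
  have h𝒟 : condSO 𝒪 p Smin (insert q Sig) (pushRep H φ.toRingHom hφ) := by
    refine ⟨⟨hstrict.1, hstrict.2.1, fun r hr hrT => ?_⟩, hunip⟩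
    exact Fermat.Agent.GP.Tan.isUnramifiedAt_baseChangeAlong φ.toRingHom hφ
      (hunrH r hr (fun hrN => hrT (hNT r hr hrN))
        (fun hrp => hrT (by rw [hrp]; exact Finset.mem_union_left _ hpSmin)))
  -- its residual representation
  have hresQ : (pushRep H φ.toRingHom hφ).residual.IsEquiv
      (ρbar.baseChangeAlong (ResidueField.map (algebraMap 𝒪 T'))) := by
    have h1 := Fermat.Agent.GB.B4.Datum.PushTloc.residual_push H.ρ φ.toRingHom hφ ρbar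
      (ResidueField.map (algebraMap 𝒪 (Tloc 𝒪 θ'))) hresH
    haveI := hφ
    have e : (ResidueField.map φ.toRingHom).comp (ResidueField.map (algebraMap 𝒪 (Tloc 𝒪 θ'))) =
        ResidueField.map (algebraMap 𝒪 T') := by
      ext x
      obtain ⟨a, rfl⟩ := residue_surjective x
      rw [RingHom.comp_apply, ResidueField.map_residue, ResidueField.map_residue,
        ResidueField.map_residue]
      congr 1
      exact φ.commutes a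
    rw [e] at h1
    exact h1
  obtain ⟨ψ, hψ, hsurj, he⟩ := Fermat.Agent.GB.B4.Datum.PsiTQPush.exists_psi_of_type D' hNS
    hressurj (pushRep H φ.toRingHom hφ) h𝒟 hresQ π' hgen hchar
  -- `η ≠ 0`
  haveI : IsReduced (heckeAlgebra (N₀ * p) 2 (↑S0 : Set ℕ)) :=
    Fermat.Agent.GS.Pet.isReduced_heckeAlgebra (N₀ * p) 2 (↑S0 : Set ℕ)
      (fun r hr hrN => Finset.mem_coe.mpr (hNS r hr hrN))
  haveI : IsReduced T' :=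
    Fermat.Agent.GS.Pet.DatumAlg.isReduced_of_adjoin_range (O := 𝒪) π' hgen
  exact ⟨pushRep H φ.toRingHom hφ, ψ, hψ, hchar, hsurj, he, etaIdeal_ne_bot_of_finite πO'⟩

variable [Algebra (ZMod p) (ResidueField 𝒪)]

/-- **STAGE-RAW, strict-ordinary case**: every raw field of `Asm.StepInputSO Y q hq` (with
`S' := ↑S0`, `B := badSet S0 (N₀ * p)`, `m`, `γ` from GE6), for ANY carrier `T'` of the next
stage. -/
theorem exists_rawSO_noSide (hpkg : GalPkgSONewStmt) (Y : RTNum ρbar (condSO 𝒪 p Smin Sig) d) (q : ℕ)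
    (hp2 : p ≠ 2) (hp𝒪 : (p : 𝒪) ∈ maximalIdeal 𝒪) (hpSmin : p ∈ Smin)
    (hmin : ∀ r : ℕ, r.Prime → r ≠ p → (r ∈ Smin ↔ ¬ ρbar.IsUnramifiedAt r))
    (hbar : condSO 𝒪 p Smin (insert q Sig) (GaloisRepAdic.ofResidualGaloisRep ρbar))
    (S0 : Finset ℕ) (hYS : Y.rt.S ⊆ (↑S0 : Set ℕ))
    {N₀ : ℕ} [NeZero N₀] (hNN' : Y.rt.N ∣ N₀ * p)
    (h : ExactDvd p (N₀ * p)) (hpS : p ∈ S0)
    (hNS : ∀ r : ℕ, r.Prime → r ∣ N₀ * p → r ∈ S0)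
    (hNT : ∀ r : ℕ, r.Prime → r ∣ N₀ * p → r ∈ Smin ∪ insert q Sig)
    (hSminN' : ∀ r ∈ Smin, r.Prime → r ≠ p → r ∣ N₀ * p ∧ ¬ r ^ 2 ∣ N₀ * p)
    (hordbar : (GaloisRepAdic.ofResidualGaloisRep ρbar).IsOrdinaryAt p)
    {T' : Type} [CommRing T'] [IsLocalRing T'] [Algebra 𝒪 T'] [Module.Finite 𝒪 T']
    [Module.Free 𝒪 T']
    (π' : heckeAlgebra (N₀ * p) 2 (↑S0 : Set ℕ) →+* T')
    (hgen : Algebra.adjoin 𝒪 (Set.range π') = ⊤)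
    (hann : ∀ t₀ : 𝒪 ⊗[ℤ] heckeAlgebra (N₀ * p) 2 (↑S0 : Set ℕ),
      (∀ (a : 𝒪), ∀ x ∈ (LamNew (not_dvd_of_exactDvd h) :
          AddSubgroup (levelData p (N₀ * p) hpS hNS).Λ),
        (levelData p (N₀ * p) hpS hNS).heckeTensor 𝒪 t₀ (a ⊗ₜ[ℤ] x) = 0) →
          Fermat.Agent.GB.B10.L.GalPkgSO.twO (𝒪 := 𝒪) π' t₀ = 0)
    (πO' : T' →ₐ[𝒪] 𝒪)
    (heig : ∀ (ℓ : ℕ) (hℓ : ℓ.Prime) (hℓN : ¬ ℓ ∣ Y.rt.N) (hℓS : ℓ ∉ Y.rt.S)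
      (hℓN' : ¬ ℓ ∣ N₀ * p) (hℓS' : ℓ ∉ (↑S0 : Set ℕ)),
        πO' (π' (heckeAlgebra.T hℓ hℓN' hℓS')) = Y.πO (Y.rt.π (heckeAlgebra.T hℓ hℓN hℓS))) :
    ∃ (D' : DeformationRingData 𝒪 ρbar (condSO 𝒪 p Smin (insert q Sig)))
      (ρT' : GaloisRepAdic T') (φ' : D'.R →ₐ[𝒪] T')
      (φ'_local : IsLocalHom (φ' : D'.R →+* T')) (m : ℕ)
      (γ : MvPowerSeries (Fin m) 𝒪 →ₐ[𝒪] D'.R),
      (∀ (r : ℕ) (hr : r.Prime) (hrN : ¬ r ∣ N₀ * p) (hrS : r ∉ (↑S0 : Set ℕ)),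
        ∀ A : ValuationSubring Qb, A.LiesOverPrime r → ∀ σ : GQ, A.IsFrobeniusAt σ r →
          LinearMap.charpoly (ρT'.ρ σ) =
            X ^ 2 - C (π' (heckeAlgebra.T hr hrN hrS)) * X + C ((r : T'))) ∧
      Function.Surjective φ' ∧
      (D'.ρ.baseChangeAlong (φ' : D'.R →+* T') φ'_local).IsEquiv ρT' ∧
      etaIdeal πO' ≠ ⊥ ∧ Function.Surjective γ ∧
      (∀ ℓ : ℕ, ℓ.Prime → ℓ ∉ badSet S0 (N₀ * p) →
        ¬ ℓ ∣ Y.rt.N ∧ ℓ ∉ Y.rt.S ∧ ¬ ℓ ∣ N₀ * p ∧ ℓ ∉ (↑S0 : Set ℕ)) ∧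
      (∀ (ℓ : ℕ) (hℓ : ℓ.Prime) (hℓN : ¬ ℓ ∣ Y.rt.N) (hℓS : ℓ ∉ Y.rt.S)
        (hℓN' : ¬ ℓ ∣ N₀ * p) (hℓS' : ℓ ∉ (↑S0 : Set ℕ)), ℓ ∉ badSet S0 (N₀ * p) →
          πO' (π' (heckeAlgebra.T hℓ hℓN' hℓS')) =
            Y.πO (Y.rt.π (heckeAlgebra.T hℓ hℓN hℓS))) := by
  obtain ⟨D'⟩ := Fermat.Agent.GE6.DefRing.nonempty_defRing_SO p ρbar hp2 Y.rt.D.absIrr Smin
    (insert q Sig) hpSmin hmin hbar
  obtain ⟨m, hm⟩ := Fermat.Agent.GE6.DefRing.exists_surjective_SO (𝒪 := 𝒪) p ρbar hp2 Smin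
    (insert q Sig) hpSmin hmin
  obtain ⟨γ, hγ⟩ := hm D'
  obtain ⟨ρT', φ', φ'_local, hcp', hφ', φ'_ρ, hη'⟩ := exists_raw_of_defRing_noSide hpkg Y q hp2 hp𝒪
    hpSmin S0 hYS hNN' h hpS hNS hNT hSminN' hordbar π' hgen hann πO' heig D'
  exact ⟨D', ρT', φ', φ'_local, m, γ, hcp', hφ', φ'_ρ, hη', hγ, Fermat.Agent.GE9.Stage.RawSO.hB_badSet Y S0 hYS hNN',
    fun ℓ hℓ hℓN hℓS hℓN' hℓS' _ => heig ℓ hℓ hℓN hℓS hℓN' hℓS'⟩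


section Img

open Fermat.Agent.GB.B4.Datum.ImageRing

variable {M : Type} [AddCommGroup M] [Module 𝒪 M] [Module.Finite 𝒪 M] [Module.Free 𝒪 M]
  [Nontrivial M]

/-- **STAGE-RAW, strict-ordinary case, image-ring carrier**; the annihilator binder in its
MODULE-level form (`twO 𝒪 tw t₀ m = 0` for all `m : M`). -/
theorem exists_rawSO_img_noSide (hpkg : GalPkgSONewStmt) (Y : RTNum ρbar (condSO 𝒪 p Smin Sig) d) (q : ℕ)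
    (hp2 : p ≠ 2) (hp𝒪 : (p : 𝒪) ∈ maximalIdeal 𝒪) (hpSmin : p ∈ Smin)
    (hmin : ∀ r : ℕ, r.Prime → r ≠ p → (r ∈ Smin ↔ ¬ ρbar.IsUnramifiedAt r))
    (hbar : condSO 𝒪 p Smin (insert q Sig) (GaloisRepAdic.ofResidualGaloisRep ρbar))
    (S0 : Finset ℕ) (hYS : Y.rt.S ⊆ (↑S0 : Set ℕ))
    {N₀ : ℕ} [NeZero N₀] (hNN' : Y.rt.N ∣ N₀ * p)
    (h : ExactDvd p (N₀ * p)) (hpS : p ∈ S0)
    (hNS : ∀ r : ℕ, r.Prime → r ∣ N₀ * p → r ∈ S0)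
    (hNT : ∀ r : ℕ, r.Prime → r ∣ N₀ * p → r ∈ Smin ∪ insert q Sig)
    (hSminN' : ∀ r ∈ Smin, r.Prime → r ≠ p → r ∣ N₀ * p ∧ ¬ r ^ 2 ∣ N₀ * p)
    (hordbar : (GaloisRepAdic.ofResidualGaloisRep ρbar).IsOrdinaryAt p)
    (θ' : heckeAlgebra (N₀ * p) 2 (↑S0 : Set ℕ) →+* ResidueField 𝒪)
    (tw : heckeAlgebra (N₀ * p) 2 (↑S0 : Set ℕ) →+* Module.End 𝒪 M) [Fact (LocHyp 𝒪 θ' tw)]
    (hAnn : ∀ t₀ : 𝒪 ⊗[ℤ] heckeAlgebra (N₀ * p) 2 (↑S0 : Set ℕ),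
      (∀ (a : 𝒪), ∀ x ∈ (LamNew (not_dvd_of_exactDvd h) :
          AddSubgroup (levelData p (N₀ * p) hpS hNS).Λ),
        (levelData p (N₀ * p) hpS hNS).heckeTensor 𝒪 t₀ (a ⊗ₜ[ℤ] x) = 0) →
          ∀ m : M, twO 𝒪 tw t₀ m = 0)
    (χ' : heckeAlgebra (N₀ * p) 2 (↑S0 : Set ℕ) →+* 𝒪) (x : M) (hx0 : x ≠ 0)
    (hx : ∀ t, tw t x = χ' t • x)
    (heig : ∀ (ℓ : ℕ) (hℓ : ℓ.Prime) (hℓN : ¬ ℓ ∣ Y.rt.N) (hℓS : ℓ ∉ Y.rt.S)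
      (hℓN' : ¬ ℓ ∣ N₀ * p) (hℓS' : ℓ ∉ (↑S0 : Set ℕ)),
        χ' (heckeAlgebra.T hℓ hℓN' hℓS') = Y.πO (Y.rt.π (heckeAlgebra.T hℓ hℓN hℓS))) :
    ∃ (πO' : TQ 𝒪 θ' tw →ₐ[𝒪] 𝒪), (∀ t, πO' (chi 𝒪 θ' tw t) = χ' t) ∧
    ∃ (D' : DeformationRingData 𝒪 ρbar (condSO 𝒪 p Smin (insert q Sig)))
      (ρT' : GaloisRepAdic (TQ 𝒪 θ' tw)) (φ' : D'.R →ₐ[𝒪] TQ 𝒪 θ' tw)
      (φ'_local : IsLocalHom (φ' : D'.R →+* TQ 𝒪 θ' tw)) (m : ℕ)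
      (γ : MvPowerSeries (Fin m) 𝒪 →ₐ[𝒪] D'.R),
      (∀ (r : ℕ) (hr : r.Prime) (hrN : ¬ r ∣ N₀ * p) (hrS : r ∉ (↑S0 : Set ℕ)),
        ∀ A : ValuationSubring Qb, A.LiesOverPrime r → ∀ σ : GQ, A.IsFrobeniusAt σ r →
          LinearMap.charpoly (ρT'.ρ σ) =
            X ^ 2 - C (chi 𝒪 θ' tw (heckeAlgebra.T hr hrN hrS)) * X + C ((r : TQ 𝒪 θ' tw))) ∧
      Function.Surjective φ' ∧
      (D'.ρ.baseChangeAlong (φ' : D'.R →+* TQ 𝒪 θ' tw) φ'_local).IsEquiv ρT' ∧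
      etaIdeal πO' ≠ ⊥ ∧ Function.Surjective γ ∧
      (∀ ℓ : ℕ, ℓ.Prime → ℓ ∉ badSet S0 (N₀ * p) →
        ¬ ℓ ∣ Y.rt.N ∧ ℓ ∉ Y.rt.S ∧ ¬ ℓ ∣ N₀ * p ∧ ℓ ∉ (↑S0 : Set ℕ)) ∧
      (∀ (ℓ : ℕ) (hℓ : ℓ.Prime) (hℓN : ¬ ℓ ∣ Y.rt.N) (hℓS : ℓ ∉ Y.rt.S)
        (hℓN' : ¬ ℓ ∣ N₀ * p) (hℓS' : ℓ ∉ (↑S0 : Set ℕ)), ℓ ∉ badSet S0 (N₀ * p) →
          πO' (chi 𝒪 θ' tw (heckeAlgebra.T hℓ hℓN' hℓS')) =
            Y.πO (Y.rt.π (heckeAlgebra.T hℓ hℓN hℓS))) := by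
  obtain ⟨πO', hπO'⟩ := Fermat.Agent.GE9.Stage.ImgCarrier.exists_aug_of_eigenvector θ' tw χ' x hx0 hx
  refine ⟨πO', hπO', ?_⟩
  exact exists_rawSO_noSide hpkg Y q hp2 hp𝒪 hpSmin hmin hbar S0 hYS hNN' h
    hpS hNS hNT hSminN' hordbar (chi 𝒪 θ' tw) (adjoin_range_chi 𝒪 θ' tw)
    (Fermat.Agent.GB.B10.L.GalPkgSOImg.hann_of_module (θ := θ') tw _ hAnn) πO'
    (fun ℓ hℓ hℓN hℓS hℓN' hℓS' => by rw [hπO']; exact heig ℓ hℓ hℓN hℓS hℓN' hℓS')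

end Img

/-- **the step record, strict-ordinary case** (constant-`S` convention), in the shape of the `step`
binder of `Asm.exists_rtNum_condSO'`; next level `N₀ * p`. -/
theorem exists_stepInputSO'_noSide (hpkg : GalPkgSONewStmt) (Sig₀ : Finset ℕ) (Y : RTNum ρbar (condSO 𝒪 p Smin Sig) d) (q : ℕ)
    (hq : q.Prime)
    (hp2 : p ≠ 2) (hp𝒪 : (p : 𝒪) ∈ maximalIdeal 𝒪) (hpSmin : p ∈ Smin)
    (hmin : ∀ r : ℕ, r.Prime → r ≠ p → (r ∈ Smin ↔ ¬ ρbar.IsUnramifiedAt r))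
    (hbar : condSO 𝒪 p Smin (insert q Sig) (GaloisRepAdic.ofResidualGaloisRep ρbar))
    (S0 : Finset ℕ) (hYS : Y.rt.S ⊆ (↑S0 : Set ℕ))
    {N₀ : ℕ} [NeZero N₀] (hNN' : Y.rt.N ∣ N₀ * p)
    (h : ExactDvd p (N₀ * p)) (hpS : p ∈ S0)
    (hNS : ∀ r : ℕ, r.Prime → r ∣ N₀ * p → r ∈ S0)
    (hNT : ∀ r : ℕ, r.Prime → r ∣ N₀ * p → r ∈ Smin ∪ insert q Sig)
    (hSminN' : ∀ r ∈ Smin, r.Prime → r ≠ p → r ∣ N₀ * p ∧ ¬ r ^ 2 ∣ N₀ * p)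
    (hordbar : (GaloisRepAdic.ofResidualGaloisRep ρbar).IsOrdinaryAt p)
    {T' : Type} [CommRing T'] [IsLocalRing T'] [Algebra 𝒪 T'] [Module.Finite 𝒪 T']
    [Module.Free 𝒪 T']
    (π' : heckeAlgebra (N₀ * p) 2 (↑S0 : Set ℕ) →+* T')
    (hgen : Algebra.adjoin 𝒪 (Set.range π') = ⊤)
    (hann : ∀ t₀ : 𝒪 ⊗[ℤ] heckeAlgebra (N₀ * p) 2 (↑S0 : Set ℕ),
      (∀ (a : 𝒪), ∀ x ∈ (LamNew (not_dvd_of_exactDvd h) :
          AddSubgroup (levelData p (N₀ * p) hpS hNS).Λ),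
        (levelData p (N₀ * p) hpS hNS).heckeTensor 𝒪 t₀ (a ⊗ₜ[ℤ] x) = 0) →
          Fermat.Agent.GB.B10.L.GalPkgSO.twO (𝒪 := 𝒪) π' t₀ = 0)
    (πO' : T' →ₐ[𝒪] 𝒪)
    (heig : ∀ (ℓ : ℕ) (hℓ : ℓ.Prime) (hℓN : ¬ ℓ ∣ Y.rt.N) (hℓS : ℓ ∉ Y.rt.S)
      (hℓN' : ¬ ℓ ∣ N₀ * p) (hℓS' : ℓ ∉ (↑S0 : Set ℕ)),
        πO' (π' (heckeAlgebra.T hℓ hℓN' hℓS')) = Y.πO (Y.rt.π (heckeAlgebra.T hℓ hℓN hℓS)))
    -- the numerical binders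
    (f₀ : Matrix (Fin 2) (Fin 2) 𝒪)
    (hf₀ : ∀ P : ValuationSubring Qb, P.LiesOverPrime q → ∀ φ : GQ, P.IsFrobeniusAt φ q →
      f₀.trace = Y.πO (Y.rt.ρT.trace φ))
    (hc : wilesFactor f₀ (q : 𝒪) ≠ 0) (w' : ℕ)
    (heta : Y.w * Nat.card (𝒪 ⧸ Ideal.span {wilesFactor f₀ (q : 𝒪)}) ^ d ≤ w')
    (hM1 : w' ≤ etaCard πO' ^ d)
    (hlev : LevelOK' p Smin Sig₀ (insert q Sig) (N₀ * p) (↑S0 : Set ℕ))
    -- the invariant of the next stage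
    (Q : ∀ (N : ℕ) [NeZero N] (S : Set ℕ), (heckeAlgebra N 2 S →+* 𝒪) → ℕ → Prop)
    (hQ : Q (N₀ * p) (↑S0 : Set ℕ) ((πO' : T' →+* 𝒪).comp π') w') :
    ∃ I : StepInputSO' Sig₀ Y q hq, Q I.N' I.S' I.pointChar' I.w' := by
  obtain ⟨D', ρT', φ', φ'_local, m, γ, hcp', hφ', φ'_ρ, hη', hγ, hB, heig'⟩ :=
    exists_rawSO_noSide hpkg Y q hp2 hp𝒪 hpSmin hmin hbar S0 hYS hNN' h hpS
      hNS hNT hSminN' hordbar π' hgen hann πO' heig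
  obtain ⟨Pq, φq, hPq, hφq⟩ := Fermat.Agent.Common_helper32.exists_isFrobeniusAt q hq
  exact ⟨{ D' := D', N' := N₀ * p, S' := (↑S0 : Set ℕ), T' := T', π' := π', ρT' := ρT',
           hcp' := hcp', φ' := φ', hφ' := hφ', φ'_local := φ'_local, φ'_ρ := φ'_ρ, πO' := πO',
           hη' := hη', m := m, γ := γ, hγ := hγ, B := badSet S0 (N₀ * p), hB := hB, heig := heig',
           Pq := Pq, hPq := hPq, φq := φq, hφq := hφq, f₀ := f₀, hf₀ := hf₀ Pq hPq φq hφq,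
           hc := hc, w' := w', heta := heta, hM1 := hM1, hlev := hlev }, hQ⟩

end Raw

end Fermat.Agent.GE9.Stage.NoSide

end
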