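/-
GATE-E / RISK-3 DESIDE, consumer side (helper11): **the two hypothesis-form statements of the de-sided
SO Galois package on the `p`-new lattice coincide** — helper32's `GE8/Deside/G3.GalPkgSONoSideNew`
(consumed by the `ProviderNew` twins `G3`/`G3Pkg`) and `GE9/Stage/NoSide.GalPkgSONewStmt` (consumed
by the STAGE-column twins `GE9/Stage/NoSide`) are the same proposition, so DESIDE discharges both with
ONE theorem (in any of the three spellings `GalPkgSONoSideGen`, `GalPkgSONoSideNew`,
`GalPkgSONewStmt`).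

* `galPkgSONewStmt_iff`     : `NoSide.GalPkgSONewStmt ↔ G3.GalPkgSONoSideNew` (`Iff.rfl`);
* `galPkgSONewStmt_of_new`, `galPkgSONewStmt_of_gen` : the two adapters used by the ASM column.
-/
import Fermat.Agent.GE9.Stage.NoSideStmt
import Fermat.Agent.GE8.Deside.G3

set_option autoImplicit false

namespace Fermat.Agent.GE9.Stage.NoSide

theorem galPkgSONewStmt_iff :
    GalPkgSONewStmt ↔ Fermat.Agent.GE8.Deside.G3.GalPkgSONoSideNew := Iff.rfl

theorem galPkgSONewStmt_of_new (h : Fermat.Agent.GE8.Deside.G3.GalPkgSONoSideNew) :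
    GalPkgSONewStmt := h

theorem galPkgSONewStmt_of_gen (h : Fermat.Agent.GE8.Deside.G3.GalPkgSONoSideGen) :
    GalPkgSONewStmt := Fermat.Agent.GE8.Deside.G3.galPkgSONoSideNew_of_gen h

end Fermat.Agent.GE9.Stage.NoSide
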