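/-
GATE-E / RISK-3 DESIDE, consumer side CLOSED (helper11): **the hypothesis `hpkg` of the STAGE-column
twins `GE9/Stage/NoSide` is a theorem.**

* `galPkgSONewStmt : NoSide.GalPkgSONewStmt` := `GE8/Deside/Final.galPkgSONoSideNew` through
  `NoSideAdapter.galPkgSONewStmt_of_new`.

USE: `NoSide.exists_stepInputSO'_noSide NoSide.galPkgSONewStmt Sig₀ Y q hq hp2 …` is
`Step.exists_stepInputSO' Sig₀ Y q hq hp2 …` VERBATIM minus the binder `hside` (likewise
`exists_rawSO_noSide`, `exists_rawSO_img_noSide`, `exists_raw_of_defRing_noSide`).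
-/
import Fermat.Agent.GE9.Stage.NoSide
import Fermat.Agent.GE9.Stage.NoSideAdapter
import Fermat.Agent.GE8.Deside.Final

set_option autoImplicit false

namespace Fermat.Agent.GE9.Stage.NoSide

/-- **the de-sided SO Galois package on the `p`-new lattice** (DESIDE, route (D2)). -/
theorem galPkgSONewStmt : GalPkgSONewStmt :=
  galPkgSONewStmt_of_new Fermat.Agent.GE8.Deside.Final.galPkgSONoSideNew

end Fermat.Agent.GE9.Stage.NoSide
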