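/-
GATE-E / RISK-4 R4-H seam (S4) (helper11; helper80 7771): **STAGE-RAW, strict-ordinary case, WITHOUT a
previous stage** — the raw fields of the BASE stage of the `p`-new (SOb) branch, and more generally of
any stage of type `condSO 𝒪 p Smin Sig'`, for ANY finite free local carrier `T'` generated by `π'`
with an augmentation `πO'`.

`NoSide.exists_raw_of_defRing_noSide` uses the previous stage `Y` ONLY to produce the Hecke
polynomials of `ρbar` at the next level; here they are the binder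

  `hcharbar : charpoly ρbar(Frob_ℓ) = X² − residue (πO' (π' T_ℓ)) X + d₀`   (`ℓ ∤ N₀ p`, `ℓ ∉ S0`)

(at the call site: `Pkg.theta_T` / the eigensystem of the base point), and the next set `insert q Sig`
is a general `Sig'`.

* `exists_raw_of_defRing_gen_noSide` : hypothesis form over `hpkg : NoSide.GalPkgSONewStmt`;
* `exists_rawSO_base`  : `Sig' := ∅`, `hpkg` DISCHARGED (`NoSide.galPkgSONewStmt`, DESIDE closed) —
  binders `hp2 hp𝒪 hpSmin S0 h hpS hNS hNT hSminN' hordbar π' hgen hann πO' hcharbar D`, conclusion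
  `∃ ρT' φ' φ'_local, hcp' ∧ Surjective φ' ∧ IsEquiv ∧ etaIdeal πO' ≠ ⊥`;
* `exists_rawSO_gen`   : the same for a general `Sig'`.
-/
import Fermat.Agent.GE9.Stage.NoSideFinal

set_option autoImplicit false
set_option linter.unusedSectionVars false
set_option linter.unusedVariables false
set_option linter.style.haveILetI false

noncomputable section

namespace Fermat.Agent.GE9.Stage.RawSOBase

open TensorProduct CuspForm IsLocalRing Polynomial GaloisRep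
open Fermat.Agent.GE.Graph Fermat.Agent.GE9.Ind Fermat.Agent.GE9.NumCrit
  Fermat.Agent.GE9.CotGrowth Fermat.Agent.GE9.Stage.RawFL Fermat.Agent.GE9.Stage.NoSide
open Fermat.Agent.GK.AL
open Fermat.Agent.GB.B4.Datum.Carrier Fermat.Agent.GB.B4.Datum.Push
open Fermat.Agent.GB.B10.KumLevelHecke Fermat.Agent.GB.B10.L.NewInst
open Fermat.Agent.GB.B10.L.ThetaNew Fermat.Agent.GB.B10.L.StrictQNew

local notation "GQ" => (AlgebraicClosure ℚ ≃ₐ[ℚ] AlgebraicClosure ℚ)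
local notation "Qb" => AlgebraicClosure ℚ

variable {𝒪 : Type} [CommRing 𝒪] [IsDomain 𝒪] [IsDiscreteValuationRing 𝒪]
  [IsAdicComplete (maximalIdeal 𝒪) 𝒪] [Finite (ResidueField 𝒪)] [CharZero 𝒪]
  {ρbar : ResidualGaloisRep (ResidueField 𝒪)} {p : ℕ} [Fact p.Prime]
  {Smin : Finset ℕ}

/-- **STAGE-RAW, strict-ordinary case, no previous stage, hypothesis form.** -/
theorem exists_raw_of_defRing_gen_noSide (hpkg : GalPkgSONewStmt) (Sig' : Finset ℕ)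
    (hp2 : p ≠ 2) (hp𝒪 : (p : 𝒪) ∈ maximalIdeal 𝒪) (hpSmin : p ∈ Smin)
    (S0 : Finset ℕ)
    {N₀ : ℕ} [NeZero N₀]
    (h : ExactDvd p (N₀ * p)) (hpS : p ∈ S0)
    (hNS : ∀ r : ℕ, r.Prime → r ∣ N₀ * p → r ∈ S0)
    (hNT : ∀ r : ℕ, r.Prime → r ∣ N₀ * p → r ∈ Smin ∪ Sig')
    (hSminN' : ∀ r ∈ Smin, r.Prime → r ≠ p → r ∣ N₀ * p ∧ ¬ r ^ 2 ∣ N₀ * p)
    (hordbar : (GaloisRepAdic.ofResidualGaloisRep ρbar).IsOrdinaryAt p)
    {T' : Type} [CommRing T'] [IsLocalRing T'] [Algebra 𝒪 T'] [Module.Finite 𝒪 T']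
    [Module.Free 𝒪 T']
    (π' : heckeAlgebra (N₀ * p) 2 (↑S0 : Set ℕ) →+* T')
    (hgen : Algebra.adjoin 𝒪 (Set.range π') = ⊤)
    (hann : ∀ t₀ : 𝒪 ⊗[ℤ] heckeAlgebra (N₀ * p) 2 (↑S0 : Set ℕ),
      (∀ (a : 𝒪), ∀ x ∈ (LamNew (not_dvd_of_exactDvd h) :
          AddSubgroup (levelData p (N₀ * p) hpS hNS).Λ),
        (levelData p (N₀ * p) hpS hNS).heckeTensor 𝒪 t₀ (a ⊗ₜ[ℤ] x) = 0) →
          Fermat.Agent.GB.B10.L.GalPkgSO.twO (𝒪 := 𝒪) π' t₀ = 0)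
    (πO' : T' →ₐ[𝒪] 𝒪)
    (hcharbar : ∀ (ℓ : ℕ) (hℓ : ℓ.Prime) (hℓN : ¬ ℓ ∣ N₀ * p) (hℓS : ℓ ∉ (↑S0 : Set ℕ)),
      ∀ P : ValuationSubring Qb, P.LiesOverPrime ℓ → ∀ σ : GQ, P.IsFrobeniusAt σ ℓ →
        ∃ d₀ : ResidueField 𝒪, LinearMap.charpoly (ρbar.ρ σ) =
          X ^ 2 - C (residue 𝒪 (πO' (π' (heckeAlgebra.T hℓ hℓN hℓS)))) * X + C d₀)
    (D' : DeformationRingData 𝒪 ρbar (condSO 𝒪 p Smin Sig')) :
    ∃ (ρT' : GaloisRepAdic T') (φ' : D'.R →ₐ[𝒪] T')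
      (φ'_local : IsLocalHom (φ' : D'.R →+* T')),
      (∀ (r : ℕ) (hr : r.Prime) (hrN : ¬ r ∣ N₀ * p) (hrS : r ∉ (↑S0 : Set ℕ)),
        ∀ A : ValuationSubring Qb, A.LiesOverPrime r → ∀ σ : GQ, A.IsFrobeniusAt σ r →
          LinearMap.charpoly (ρT'.ρ σ) =
            X ^ 2 - C (π' (heckeAlgebra.T hr hrN hrS)) * X + C ((r : T'))) ∧
      Function.Surjective φ' ∧
      (D'.ρ.baseChangeAlong (φ' : D'.R →+* T') φ'_local).IsEquiv ρT' ∧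
      etaIdeal πO' ≠ ⊥ := by
  have hp : p.Prime := Fact.out
  -- the carrier
  haveI hlocA : IsLocalHom (algebraMap 𝒪 T') := isLocalHom_algebraMap_of_aug πO'
  haveI : IsNoetherianRing T' := IsNoetherianRing.of_finite 𝒪 T'
  haveI : IsAdicComplete (maximalIdeal T') T' :=
    IsLocalRing.isAdicComplete_of_module_finite (𝒪 := 𝒪)
  have hressurj : Function.Surjective (residue T' ∘ algebraMap 𝒪 T') :=
    residue_comp_algebraMap_surjective_of_aug πO'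
  -- the residual eigensystem at level `N₀ * p`
  let θ' : heckeAlgebra (N₀ * p) 2 (↑S0 : Set ℕ) →+* ResidueField 𝒪 :=
    (residue 𝒪).comp ((πO' : T' →+* 𝒪).comp π')
  have hres : ∀ t, residue T' (π' t) = ResidueField.map (algebraMap 𝒪 T') (θ' t) :=
    fun t => residue_eq_map_of_aug πO' π' t
  have hfrob : ∀ (ℓ : ℕ) (hℓ : ℓ.Prime) (hℓN : ¬ ℓ ∣ N₀ * p) (hℓS : ℓ ∉ (↑S0 : Set ℕ)),
      ∀ P : ValuationSubring Qb, P.LiesOverPrime ℓ → ∀ σ : GQ, P.IsFrobeniusAt σ ℓ →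
        ∃ d₀ : ResidueField 𝒪, LinearMap.charpoly (ρbar.ρ σ) =
          X ^ 2 - C (θ' (heckeAlgebra.T hℓ hℓN hℓS)) * X + C d₀ := by
    intro ℓ hℓ hℓN' hℓS' P hP σ hσ
    exact hcharbar ℓ hℓ hℓN' hℓS' P hP σ hσ
  -- the datum on `Tloc 𝒪 θ'`
  obtain ⟨H, hπ, -, hunrH, hresH⟩ :=
    Fermat.Agent.GB.Glue.DatumOfRhobar.exists_datum p (N₀ * p) S0 𝒪 θ' hp2 hpS hNS hp𝒪 ρbar
      D'.absIrr hfrob
  -- S33's residual hypothesis for the datum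
  have hresord : (GaloisRepAdic.ofResidualGaloisRep H.ρ.residual).IsOrdinaryAt p := by
    obtain ⟨e⟩ := hresH
    exact Fermat.Agent.GB.ResOrd.Plug.isOrdinaryAt_of_isEquiv ⟨e.symm⟩
      (Fermat.Agent.GB.ResOrd.Plug.isOrdinaryAt_baseChangeAlong ρbar _ hordbar)
  obtain ⟨φ, hφ, hφs, hφt, hchar, hstrict, hunip⟩ :=
    hpkg (TQ := T') hp2 hp𝒪 h hpS hNS
      H hπ hresord π' hres hgen S0 Smin (Finset.Subset.refl S0) hSminN' hann
  -- the type of the pushed representation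
  have h𝒟 : condSO 𝒪 p Smin Sig' (pushRep H φ.toRingHom hφ) := by
    refine ⟨⟨hstrict.1, hstrict.2.1, fun r hr hrT => ?_⟩, hunip⟩
    exact Fermat.Agent.GP.Tan.isUnramifiedAt_baseChangeAlong φ.toRingHom hφ
      (hunrH r hr (fun hrN => hrT (hNT r hr hrN))
        (fun hrp => hrT (by rw [hrp]; exact Finset.mem_union_left _ hpSmin)))
  -- its residual representation
  have hresQ : (pushRep H φ.toRingHom hφ).residual.IsEquiv
      (ρbar.baseChangeAlong (ResidueField.map (algebraMap 𝒪 T'))) := by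
    have h1 := Fermat.Agent.GB.B4.Datum.PushTloc.residual_push H.ρ φ.toRingHom hφ ρbar
      (ResidueField.map (algebraMap 𝒪 (Tloc 𝒪 θ'))) hresH
    haveI := hφ
    have e : (ResidueField.map φ.toRingHom).comp (ResidueField.map (algebraMap 𝒪 (Tloc 𝒪 θ'))) =
        ResidueField.map (algebraMap 𝒪 T') := by
      ext x
      obtain ⟨a, rfl⟩ := residue_surjective x
      rw [RingHom.comp_apply, ResidueField.map_residue, ResidueField.map_residue,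
        ResidueField.map_residue]
      congr 1
      exact φ.commutes a
    rw [e] at h1
    exact h1
  obtain ⟨ψ, hψ, hsurj, he⟩ := Fermat.Agent.GB.B4.Datum.PsiTQPush.exists_psi_of_type D' hNS
    hressurj (pushRep H φ.toRingHom hφ) h𝒟 hresQ π' hgen hchar
  -- `η ≠ 0`
  haveI : IsReduced (heckeAlgebra (N₀ * p) 2 (↑S0 : Set ℕ)) :=
    Fermat.Agent.GS.Pet.isReduced_heckeAlgebra (N₀ * p) 2 (↑S0 : Set ℕ)
      (fun r hr hrN => Finset.mem_coe.mpr (hNS r hr hrN))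
  haveI : IsReduced T' :=
    Fermat.Agent.GS.Pet.DatumAlg.isReduced_of_adjoin_range (O := 𝒪) π' hgen
  exact ⟨pushRep H φ.toRingHom hφ, ψ, hψ, hchar, hsurj, he, etaIdeal_ne_bot_of_finite πO'⟩

/-- **STAGE-RAW, strict-ordinary case, no previous stage, general `Sig'`** (DESIDE discharged). -/
theorem exists_rawSO_gen (Sig' : Finset ℕ)
    (hp2 : p ≠ 2) (hp𝒪 : (p : 𝒪) ∈ maximalIdeal 𝒪) (hpSmin : p ∈ Smin)
    (S0 : Finset ℕ)
    {N₀ : ℕ} [NeZero N₀]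
    (h : ExactDvd p (N₀ * p)) (hpS : p ∈ S0)
    (hNS : ∀ r : ℕ, r.Prime → r ∣ N₀ * p → r ∈ S0)
    (hNT : ∀ r : ℕ, r.Prime → r ∣ N₀ * p → r ∈ Smin ∪ Sig')
    (hSminN' : ∀ r ∈ Smin, r.Prime → r ≠ p → r ∣ N₀ * p ∧ ¬ r ^ 2 ∣ N₀ * p)
    (hordbar : (GaloisRepAdic.ofResidualGaloisRep ρbar).IsOrdinaryAt p)
    {T' : Type} [CommRing T'] [IsLocalRing T'] [Algebra 𝒪 T'] [Module.Finite 𝒪 T']
    [Module.Free 𝒪 T']
    (π' : heckeAlgebra (N₀ * p) 2 (↑S0 : Set ℕ) →+* T')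
    (hgen : Algebra.adjoin 𝒪 (Set.range π') = ⊤)
    (hann : ∀ t₀ : 𝒪 ⊗[ℤ] heckeAlgebra (N₀ * p) 2 (↑S0 : Set ℕ),
      (∀ (a : 𝒪), ∀ x ∈ (LamNew (not_dvd_of_exactDvd h) :
          AddSubgroup (levelData p (N₀ * p) hpS hNS).Λ),
        (levelData p (N₀ * p) hpS hNS).heckeTensor 𝒪 t₀ (a ⊗ₜ[ℤ] x) = 0) →
          Fermat.Agent.GB.B10.L.GalPkgSO.twO (𝒪 := 𝒪) π' t₀ = 0)
    (πO' : T' →ₐ[𝒪] 𝒪)
    (hcharbar : ∀ (ℓ : ℕ) (hℓ : ℓ.Prime) (hℓN : ¬ ℓ ∣ N₀ * p) (hℓS : ℓ ∉ (↑S0 : Set ℕ)),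
      ∀ P : ValuationSubring Qb, P.LiesOverPrime ℓ → ∀ σ : GQ, P.IsFrobeniusAt σ ℓ →
        ∃ d₀ : ResidueField 𝒪, LinearMap.charpoly (ρbar.ρ σ) =
          X ^ 2 - C (residue 𝒪 (πO' (π' (heckeAlgebra.T hℓ hℓN hℓS)))) * X + C d₀)
    (D' : DeformationRingData 𝒪 ρbar (condSO 𝒪 p Smin Sig')) :
    ∃ (ρT' : GaloisRepAdic T') (φ' : D'.R →ₐ[𝒪] T')
      (φ'_local : IsLocalHom (φ' : D'.R →+* T')),
      (∀ (r : ℕ) (hr : r.Prime) (hrN : ¬ r ∣ N₀ * p) (hrS : r ∉ (↑S0 : Set ℕ)),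
        ∀ A : ValuationSubring Qb, A.LiesOverPrime r → ∀ σ : GQ, A.IsFrobeniusAt σ r →
          LinearMap.charpoly (ρT'.ρ σ) =
            X ^ 2 - C (π' (heckeAlgebra.T hr hrN hrS)) * X + C ((r : T'))) ∧
      Function.Surjective φ' ∧
      (D'.ρ.baseChangeAlong (φ' : D'.R →+* T') φ'_local).IsEquiv ρT' ∧
      etaIdeal πO' ≠ ⊥ :=
  exists_raw_of_defRing_gen_noSide galPkgSONewStmt Sig' hp2 hp𝒪 hpSmin S0 h hpS hNS hNT hSminN'
    hordbar π' hgen hann πO' hcharbar D'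

/-- **STAGE-RAW at the BASE of the `p`-new branch** (`Sig' = ∅`: the primes of the level lie in
`Smin`), DESIDE discharged: the raw conjuncts of helper80's `HeckeSideSOb`. -/
theorem exists_rawSO_base
    (hp2 : p ≠ 2) (hp𝒪 : (p : 𝒪) ∈ maximalIdeal 𝒪) (hpSmin : p ∈ Smin)
    (S0 : Finset ℕ)
    {N₀ : ℕ} [NeZero N₀]
    (h : ExactDvd p (N₀ * p)) (hpS : p ∈ S0)
    (hNS : ∀ r : ℕ, r.Prime → r ∣ N₀ * p → r ∈ S0)
    (hNT : ∀ r : ℕ, r.Prime → r ∣ N₀ * p → r ∈ Smin)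
    (hSminN' : ∀ r ∈ Smin, r.Prime → r ≠ p → r ∣ N₀ * p ∧ ¬ r ^ 2 ∣ N₀ * p)
    (hordbar : (GaloisRepAdic.ofResidualGaloisRep ρbar).IsOrdinaryAt p)
    {T' : Type} [CommRing T'] [IsLocalRing T'] [Algebra 𝒪 T'] [Module.Finite 𝒪 T']
    [Module.Free 𝒪 T']
    (π' : heckeAlgebra (N₀ * p) 2 (↑S0 : Set ℕ) →+* T')
    (hgen : Algebra.adjoin 𝒪 (Set.range π') = ⊤)
    (hann : ∀ t₀ : 𝒪 ⊗[ℤ] heckeAlgebra (N₀ * p) 2 (↑S0 : Set ℕ),
      (∀ (a : 𝒪), ∀ x ∈ (LamNew (not_dvd_of_exactDvd h) :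
          AddSubgroup (levelData p (N₀ * p) hpS hNS).Λ),
        (levelData p (N₀ * p) hpS hNS).heckeTensor 𝒪 t₀ (a ⊗ₜ[ℤ] x) = 0) →
          Fermat.Agent.GB.B10.L.GalPkgSO.twO (𝒪 := 𝒪) π' t₀ = 0)
    (πO' : T' →ₐ[𝒪] 𝒪)
    (hcharbar : ∀ (ℓ : ℕ) (hℓ : ℓ.Prime) (hℓN : ¬ ℓ ∣ N₀ * p) (hℓS : ℓ ∉ (↑S0 : Set ℕ)),
      ∀ P : ValuationSubring Qb, P.LiesOverPrime ℓ → ∀ σ : GQ, P.IsFrobeniusAt σ ℓ →
        ∃ d₀ : ResidueField 𝒪, LinearMap.charpoly (ρbar.ρ σ) =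
          X ^ 2 - C (residue 𝒪 (πO' (π' (heckeAlgebra.T hℓ hℓN hℓS)))) * X + C d₀)
    (D : DeformationRingData 𝒪 ρbar (condSO 𝒪 p Smin ∅)) :
    ∃ (ρT' : GaloisRepAdic T') (φ' : D.R →ₐ[𝒪] T')
      (φ'_local : IsLocalHom (φ' : D.R →+* T')),
      (∀ (r : ℕ) (hr : r.Prime) (hrN : ¬ r ∣ N₀ * p) (hrS : r ∉ (↑S0 : Set ℕ)),
        ∀ A : ValuationSubring Qb, A.LiesOverPrime r → ∀ σ : GQ, A.IsFrobeniusAt σ r →
          LinearMap.charpoly (ρT'.ρ σ) =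
            X ^ 2 - C (π' (heckeAlgebra.T hr hrN hrS)) * X + C ((r : T'))) ∧
      Function.Surjective φ' ∧
      (D.ρ.baseChangeAlong (φ' : D.R →+* T') φ'_local).IsEquiv ρT' ∧
      etaIdeal πO' ≠ ⊥ :=
  exists_rawSO_gen ∅ hp2 hp𝒪 hpSmin S0 h hpS hNS
    (fun r hr hd => Finset.mem_union_left _ (hNT r hr hd)) hSminN' hordbar π' hgen hann πO'
    hcharbar D

end Fermat.Agent.GE9.Stage.RawSOBase

end
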