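/-
GATE-E / RISK-4 = PNEW-STAGE, slice (e5) (helper47, second seat of helper3; plan helper37 7832):
**the stage carrier for a NON-DEGENERATE (not necessarily perfect) self-adjoint form.**

`GE9/Stage/CarrierAbs.exists_carrier` (helper73) asks for a PERFECT form `B` on the Hecke module `M`.
Perfectness is used there at exactly one place: to restrict `B` to the `𝔪`-local part and to call
`stage_binders`, whose FIRST component (`hM1`, the only one used) is `hM1_of_eta_ne_bot`, which needs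
only the (right) non-degeneracy `hnd`.  On the `p`-new part `KNew = ker (β_p ⊗ 𝒪)` the form `BW` is
non-degenerate but NOT perfect, so the carrier of the `p`-new stages needs this form of the theorem.

* `hnd_BLoc`          : a right non-degenerate form with self-adjoint `A`-action stays right
                        non-degenerate on `locPart 𝔪 L` (`locPart ⟂ awayPart`);
* `exists_carrier_nd` : **`exists_carrier` with `hperf` replaced by `hnd`**, plus the conjunct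
                        `hkill` : an element of `𝒪 ⊗ A` which kills `locPart 𝔪 M` dies in the carrier
                        (the raw form of the `hann` clause of `StepSO.StepSupplySO`).
-/
import Mathlib
import Fermat.Agent.GE9.Stage.CarrierAbs

set_option autoImplicit false
set_option linter.unusedSectionVars false
set_option linter.style.haveILetI false

noncomputable section

namespace Fermat.Agent.GE9.Stage.CarrierNd

open TensorProduct IsLocalRing Submodule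
open Fermat.Agent.GB.B3.Loc Fermat.Agent.GB.B4.Datum.ImageRing Fermat.Agent.GB.B4.Datum.Carrier
  Fermat.Agent.GE9.Eta Fermat.Agent.GE9.Eta.Loc Fermat.Agent.GE9.NumCrit
  Fermat.Agent.GE9.NumCrit.ModForm Fermat.Agent.GE9.Ind Fermat.Agent.GE9.Stage.CarrierAbs

/-! ### non-degeneracy on the local part -/

section Nd

variable {𝒪 : Type} [CommRing 𝒪] [IsLocalRing 𝒪] [IsNoetherianRing 𝒪]
  [IsAdicComplete (IsLocalRing.maximalIdeal 𝒪) 𝒪]
variable {A : Type} [CommRing A] [Algebra 𝒪 A] (𝔪 : Ideal A) [𝔪.IsMaximal]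
variable {L : Type*} [AddCommGroup L] [Module 𝒪 L] [Module A L] [IsScalarTower 𝒪 A L]
  [Module.Finite 𝒪 L]

/-- **a right non-degenerate form with self-adjoint `A`-action stays right non-degenerate on the
`𝔪`-primary part.** -/
theorem hnd_BLoc (B : L →ₗ[𝒪] L →ₗ[𝒪] 𝒪)
    (hsa : ∀ (a : A) (x y : L), B (a • x) y = B x (a • y))
    (hnd : ∀ w : L, (∀ z : L, B z w = 0) → w = 0) :
    ∀ w : locPart 𝔪 L, (∀ z : locPart 𝔪 L, BLoc 𝔪 B z w = 0) → w = 0 := by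
  intro w hw
  apply Subtype.ext
  refine hnd (w : L) fun z => ?_
  have hcompl := isCompl_locPart_awayPart 𝒪 (L := L) 𝔪
  have hztop : z ∈ locPart 𝔪 L ⊔ awayPart 𝔪 L := by rw [hcompl.sup_eq_top]; trivial
  obtain ⟨z₁, hz₁, z₂, hz₂, rfl⟩ := Submodule.mem_sup.1 hztop
  rw [map_add, LinearMap.add_apply,
    (apply_eq_zero_of_mem_locPart_of_mem_awayPart 𝔪 B hsa w.2 hz₂).2, add_zero]
  exact hw ⟨z₁, hz₁⟩

/-- the left version. -/
theorem hnd_BLoc_left (B : L →ₗ[𝒪] L →ₗ[𝒪] 𝒪)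
    (hsa : ∀ (a : A) (x y : L), B (a • x) y = B x (a • y))
    (hnd : ∀ w : L, (∀ z : L, B w z = 0) → w = 0) :
    ∀ w : locPart 𝔪 L, (∀ z : locPart 𝔪 L, BLoc 𝔪 B w z = 0) → w = 0 := by
  intro w hw
  apply Subtype.ext
  refine hnd (w : L) fun z => ?_
  have hcompl := isCompl_locPart_awayPart 𝒪 (L := L) 𝔪
  have hztop : z ∈ locPart 𝔪 L ⊔ awayPart 𝔪 L := by rw [hcompl.sup_eq_top]; trivial
  obtain ⟨z₁, hz₁, z₂, hz₂, rfl⟩ := Submodule.mem_sup.1 hztop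
  rw [map_add, (apply_eq_zero_of_mem_locPart_of_mem_awayPart 𝔪 B hsa w.2 hz₂).1, add_zero]
  exact hw ⟨z₁, hz₁⟩

end Nd

/-! ### the carrier -/

section Carrier

variable {𝒪 : Type} [CommRing 𝒪] [IsDomain 𝒪] [IsDiscreteValuationRing 𝒪]
  [IsAdicComplete (maximalIdeal 𝒪) 𝒪] [Finite (ResidueField 𝒪)] [CharZero 𝒪]
  {Af : Type} [CommRing Af] [Algebra 𝒪 Af] (𝔪 : Ideal Af) [𝔪.IsMaximal]
  {M : Type} [AddCommGroup M] [Module 𝒪 M] [Module Af M] [IsScalarTower 𝒪 Af M]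
  [Module.Finite 𝒪 M] [Module.Free 𝒪 M]
  {A : Type} [CommRing A] [IsReduced A] [Module.Finite ℤ A] (ι : A →+* Af)

/-- **The stage carrier for a non-degenerate form**: `CarrierAbs.exists_carrier` with the
perfectness of `B` replaced by its right non-degeneracy, and the extra conjunct `hkill`: an element
of `𝒪 ⊗ A` which kills the `𝔪`-local part dies in the carrier (`𝒪`-linear extension of `π'` in the
spelling of `GB/B10/L/GalPkgSO.twO`). -/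
theorem exists_carrier_nd (B : M →ₗ[𝒪] M →ₗ[𝒪] 𝒪)
    (hnd : ∀ w : M, (∀ z : M, B z w = 0) → w = 0)
    (hsa : ∀ (a : Af) (x y : M), B (a • x) y = B x (a • y))
    {d : ℕ} (hd : d ≠ 0) (b : Fin d → M) (hli : LinearIndependent 𝒪 b)
    (χ : Af → 𝒪) (hb : ∀ (a : Af) (i : Fin d), a • b i = χ a • b i)
    (h𝔪 : ∀ a : Af, a ∉ 𝔪 → IsUnit (χ a))
    (hold : ∀ x ∈ locPart 𝔪 M, (∀ t : A, ι t • x = χ (ι t) • x) →
      x ∈ span 𝒪 (Set.range b)) :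
    ∃ (T' : Type) (_ : CommRing T') (_ : IsLocalRing T') (_ : Algebra 𝒪 T')
      (_ : Module.Finite 𝒪 T') (_ : Module.Free 𝒪 T') (π' : A →+* T') (πO' : T' →ₐ[𝒪] 𝒪),
      Algebra.adjoin 𝒪 (Set.range π') = ⊤ ∧ (∀ t : A, πO' (π' t) = χ (ι t)) ∧
      etaIdeal πO' ≠ ⊥ ∧
      Nat.card (CongMod B (span 𝒪 (Set.range b))) ≤ etaCard πO' ^ d ∧
      ∀ t₀ : 𝒪 ⊗[ℤ] A, (∀ x ∈ locPart 𝔪 M, iotaO ι t₀ • x = 0) →
        (Algebra.TensorProduct.lift (Algebra.ofId 𝒪 T') π'.toIntAlgHom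
          (fun _ _ => Commute.all _ _) : 𝒪 ⊗[ℤ] A →ₐ[𝒪] T') t₀ = 0 := by
  classical
  set i0 : Fin d := ⟨0, Nat.pos_of_ne_zero hd⟩ with hi0
  have hx0 : b i0 ≠ 0 := hli.ne_zero i0
  set χA : Af →ₐ[𝒪] 𝒪 := eigenChar χ hx0 (fun a => hb a i0) with hχA
  have hχAχ : ∀ a, χA a = χ a := fun _ => rfl
  have hbL : ∀ i, b i ∈ locPart 𝔪 M := fun i =>
    mem_locPart_of_eigen 𝔪 χ h𝔪 (fun a => hb a i)
  set bL : Fin d → locPart 𝔪 M := fun i => ⟨b i, hbL i⟩ with hbLdef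
  haveI : Module.Finite 𝒪 (locPart 𝔪 M) := finite_locPart 𝒪 𝔪
  haveI : Module.Free 𝒪 (locPart 𝔪 M) := free_locPart 𝒪 𝔪
  haveI : Nontrivial (locPart 𝔪 M) :=
    ⟨⟨bL i0, 0, fun h => hx0 (congrArg Subtype.val h)⟩⟩
  have hloc : LocHyp 𝒪 (thetaRes ι χA) (twLoc (𝒪 := 𝒪) (M := M) 𝔪 ι) := locHyp 𝔪 ι χA h𝔪
  haveI : Fact (LocHyp 𝒪 (thetaRes ι χA) (twLoc (𝒪 := 𝒪) (M := M) 𝔪 ι)) := ⟨hloc⟩
  -- the point
  set χO : 𝒪 ⊗[ℤ] A →ₐ[𝒪] 𝒪 := χA.comp (iotaO ι) with hχO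
  have hker : ∀ a ∈ RingHom.ker (twO 𝒪 (twLoc (𝒪 := 𝒪) (M := M) 𝔪 ι)), χO a = 0 := by
    intro a ha
    rw [RingHom.mem_ker, twO_twLoc] at ha
    have h1 : iotaO ι a • b i0 = 0 := by
      have h2 := congrArg (fun f : Module.End 𝒪 (locPart 𝔪 M) =>
        ((f (bL i0) : locPart 𝔪 M) : M)) ha
      simpa [actAf_apply] using h2
    rw [hb, smul_eq_zero] at h1
    exact h1.resolve_right hx0
  let πO' : TQ 𝒪 (thetaRes ι χA) (twLoc (𝒪 := 𝒪) (M := M) 𝔪 ι) →ₐ[𝒪] 𝒪 :=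
    Ideal.Quotient.liftₐ (RingHom.ker (twO 𝒪 (twLoc (𝒪 := 𝒪) (M := M) 𝔪 ι))) χO hker
  have hπO'mk : ∀ a, πO' (mkQ 𝒪 (thetaRes ι χA) (twLoc (𝒪 := 𝒪) (M := M) 𝔪 ι) a) = χO a :=
    fun _ => rfl
  have hpt : ∀ t : A, πO' (chi 𝒪 (thetaRes ι χA) (twLoc (𝒪 := 𝒪) (M := M) 𝔪 ι) t) = χ (ι t) := by
    intro t
    rw [chi_apply, hπO'mk, hχO, AlgHom.comp_apply, iotaO_tmul, one_smul, hχAχ]
  have hgen := adjoin_range_chi 𝒪 (thetaRes ι χA) (twLoc (𝒪 := 𝒪) (M := M) 𝔪 ι)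
  -- reducedness and `η ≠ 0`
  haveI : IsReduced (TQ 𝒪 (thetaRes ι χA) (twLoc (𝒪 := 𝒪) (M := M) 𝔪 ι)) :=
    Fermat.Agent.GS.Pet.DatumAlg.isReduced_of_adjoin_range (O := 𝒪) _ hgen
  have hη : etaIdeal πO' ≠ ⊥ := etaIdeal_ne_bot_of_finite πO'
  haveI : Finite (𝒪 ⧸ etaIdeal πO') := finite_quotient_of_ne_bot _ hη
  -- the module structure of the local part over the carrier
  letI modT : Module (TQ 𝒪 (thetaRes ι χA) (twLoc (𝒪 := 𝒪) (M := M) 𝔪 ι)) (locPart 𝔪 M) :=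
    Module.compHom _ (act 𝒪 (thetaRes ι χA) (twLoc (𝒪 := 𝒪) (M := M) 𝔪 ι)).toRingHom
  have hsmul : ∀ (a : 𝒪 ⊗[ℤ] A) (x : locPart 𝔪 M),
      (mkQ 𝒪 (thetaRes ι χA) (twLoc (𝒪 := 𝒪) (M := M) 𝔪 ι) a) • x = iotaO ι a • x := by
    intro a x
    show act 𝒪 (thetaRes ι χA) (twLoc (𝒪 := 𝒪) (M := M) 𝔪 ι) (mkQ 𝒪 _ _ a) x = _
    rw [act_mkQ, twO_twLoc]
    rfl
  haveI : IsScalarTower 𝒪 (TQ 𝒪 (thetaRes ι χA) (twLoc (𝒪 := 𝒪) (M := M) 𝔪 ι))
      (locPart 𝔪 M) := ⟨fun c t x => by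
    show act 𝒪 (thetaRes ι χA) (twLoc (𝒪 := 𝒪) (M := M) 𝔪 ι) (c • t) x =
      c • act 𝒪 (thetaRes ι χA) (twLoc (𝒪 := 𝒪) (M := M) 𝔪 ι) t x
    rw [map_smul]
    rfl⟩
  -- the binders of `hM1_of_eta_ne_bot`
  have hndL := hnd_BLoc 𝔪 B hsa hnd
  have hadj : ∀ (t : TQ 𝒪 (thetaRes ι χA) (twLoc (𝒪 := 𝒪) (M := M) 𝔪 ι))
      (x y : locPart 𝔪 M), BLoc 𝔪 B (t • x) y = BLoc 𝔪 B x (t • y) := by
    intro t x y
    obtain ⟨a, rfl⟩ := mkQ_surjective 𝒪 (thetaRes ι χA) (twLoc (𝒪 := 𝒪) (M := M) 𝔪 ι) t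
    rw [hsmul, hsmul]
    exact BLoc_selfAdjoint 𝔪 B hsa _ x y
  have hliL : LinearIndependent 𝒪 bL :=
    LinearIndependent.of_comp ((locPart 𝔪 M).subtype.restrictScalars 𝒪) hli
  have hspan : span 𝒪 (Set.range bL) = torPO πO' (locPart 𝔪 M) := by
    apply le_antisymm
    · rw [Submodule.span_le]
      rintro _ ⟨i, rfl⟩
      show bL i ∈ torP πO' (locPart 𝔪 M)
      intro t ht
      obtain ⟨a, rfl⟩ := mkQ_surjective 𝒪 (thetaRes ι χA) (twLoc (𝒪 := 𝒪) (M := M) 𝔪 ι) t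
      rw [hsmul]
      apply Subtype.ext
      show iotaO ι a • b i = 0
      rw [hb, ← hχAχ]
      rw [hπO'mk] at ht
      have : χA (iotaO ι a) = 0 := ht
      rw [this, zero_smul]
    · intro x hx
      have hx' : ∀ t : A, ι t • (x : M) = χ (ι t) • (x : M) := by
        intro t
        have h1 := smul_eq_of_mem_torP πO' (L := locPart 𝔪 M) hx
          (chi 𝒪 (thetaRes ι χA) (twLoc (𝒪 := 𝒪) (M := M) 𝔪 ι) t)
        rw [hpt, chi_apply, hsmul, iotaO_tmul, one_smul] at h1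
        exact congrArg Subtype.val h1
      have h2 := hold (x : M) x.2 hx'
      have h3 : span 𝒪 (Set.range b) =
          (span 𝒪 (Set.range bL)).map ((locPart 𝔪 M).subtype.restrictScalars 𝒪) := by
        rw [Submodule.map_span, ← Set.range_comp]
        rfl
      rw [h3] at h2
      obtain ⟨y, hy, hyx⟩ := h2
      have : y = x := Subtype.ext hyx
      rwa [← this]
  haveI := noZeroSMulDivisors_of_isTorsionFree 𝒪
    (TQ 𝒪 (thetaRes ι χA) (twLoc (𝒪 := 𝒪) (M := M) 𝔪 ι))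
  haveI := noZeroSMulDivisors_of_isTorsionFree 𝒪 (locPart 𝔪 M)
  have hM1 := hM1_of_eta_ne_bot (π := πO') (BLoc 𝔪 B) hadj hndL hη bL hliL hspan
  rw [← Fermat.Agent.GE9.Eta.OmegaLoc.card_congMod_of_mem_locPart 𝔪 B hsa b hbL] at hM1
  -- the kill clause
  have hkill : ∀ t₀ : 𝒪 ⊗[ℤ] A, (∀ x ∈ locPart 𝔪 M, iotaO ι t₀ • x = 0) →
      (Algebra.TensorProduct.lift
        (Algebra.ofId 𝒪 (TQ 𝒪 (thetaRes ι χA) (twLoc (𝒪 := 𝒪) (M := M) 𝔪 ι)))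
        (chi 𝒪 (thetaRes ι χA) (twLoc (𝒪 := 𝒪) (M := M) 𝔪 ι)).toIntAlgHom
        (fun _ _ => Commute.all _ _) :
          𝒪 ⊗[ℤ] A →ₐ[𝒪] TQ 𝒪 (thetaRes ι χA) (twLoc (𝒪 := 𝒪) (M := M) 𝔪 ι)) t₀ = 0 := by
    intro t₀ ht₀
    have hlift : (Algebra.TensorProduct.lift
        (Algebra.ofId 𝒪 (TQ 𝒪 (thetaRes ι χA) (twLoc (𝒪 := 𝒪) (M := M) 𝔪 ι)))
        (chi 𝒪 (thetaRes ι χA) (twLoc (𝒪 := 𝒪) (M := M) 𝔪 ι)).toIntAlgHom
        (fun _ _ => Commute.all _ _) :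
          𝒪 ⊗[ℤ] A →ₐ[𝒪] TQ 𝒪 (thetaRes ι χA) (twLoc (𝒪 := 𝒪) (M := M) 𝔪 ι)) =
        mkQ 𝒪 (thetaRes ι χA) (twLoc (𝒪 := 𝒪) (M := M) 𝔪 ι) := by
      apply Algebra.TensorProduct.ext'
      intro x t
      rw [Algebra.TensorProduct.lift_tmul, mkQ_tmul, Algebra.smul_def]
      rfl
    rw [hlift, mkQ_eq_zero_iff, twO_twLoc]
    apply LinearMap.ext
    intro x
    apply Subtype.ext
    exact ht₀ (x : M) x.2
  exact ⟨TQ 𝒪 (thetaRes ι χA) (twLoc (𝒪 := 𝒪) (M := M) 𝔪 ι), inferInstance, inferInstance,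
    inferInstance, inferInstance, inferInstance, chi 𝒪 _ _, πO', hgen, hpt, hη, hM1, hkill⟩

end Carrier

end Fermat.Agent.GE9.Stage.CarrierNd

end
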