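/-
GATE-E / GE9-STAGE-RAW, the PACKAGING (helper11): **the step record `Asm.StepInputFL' Sig₀ Y q hq` /
`Asm.StepInputSO' Sig₀ Y q hq`** of helper73's `GE9/Asm/Chain2` (constant-`S` convention) from
`RawFL.exists_rawFL` / `RawSO.exists_rawSO` + the numerical binders, in the SHAPE OF THE `step`
BINDER of `Asm.exists_rtNum_condFL'` / `exists_rtNum_condSO'`:

  `∃ I : StepInputFL' Sig₀ Y q hq, Q I.N' I.S' I.pointChar' I.w'`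

for ANY predicate `Q` (take `Q := Inv (insert q Sg)`) which holds at
`(N', ↑S0, πO' ∘ π', w')` — the record is built with exactly these fields, so no transport.

Inputs = those of `exists_rawFL` (the carrier `T' π' hgen πO' heig`, the level arithmetic, `hbar`)
+ `f₀` with `hf₀ : f₀.trace = Y.πO (Y.rt.ρT.trace φ)` for EVERY Frobenius `φ` at `q`
  (`FrobQ.trace_frob_eq_of_fullSystem`) + `hc`, `w'`, `heta`, `hM1`, `hlev`.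
-/
import Fermat.Agent.GE9.Stage.RawSO
import Fermat.Agent.GE9.Asm.Chain2

set_option autoImplicit false
set_option linter.unusedSectionVars false
set_option linter.unusedVariables false
set_option linter.style.haveILetI false

noncomputable section

namespace Fermat.Agent.GE9.Stage.Step

open TensorProduct CuspForm IsLocalRing Polynomial GaloisRep
open Fermat.Agent.GE.Graph Fermat.Agent.GE9.Ind Fermat.Agent.GE9.NumCrit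
  Fermat.Agent.GE9.TanGrow Fermat.Agent.GE9.Asm Fermat.Agent.GE9.Stage.RawFL
open Fermat.Agent.GK.AL
open Fermat.Agent.GB.B10.KumLevelHecke Fermat.Agent.GB.B10.L.NewInst
open Fermat.Agent.GB.B10.L.ThetaNew Fermat.Agent.GB.B10.L.StrictQNew

local notation "GQ" => (AlgebraicClosure ℚ ≃ₐ[ℚ] AlgebraicClosure ℚ)
local notation "Qb" => AlgebraicClosure ℚ

variable {𝒪 : Type} [CommRing 𝒪] [IsDomain 𝒪] [IsDiscreteValuationRing 𝒪]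
  [IsAdicComplete (maximalIdeal 𝒪) 𝒪] [Finite (ResidueField 𝒪)] [CharZero 𝒪]
  {ρbar : ResidualGaloisRep (ResidueField 𝒪)} {p : ℕ} [Fact p.Prime]
  [Algebra (ZMod p) (ResidueField 𝒪)]
  {Smin Sig : Finset ℕ} {d : ℕ}

/-- **the step record, flat case** (constant-`S` convention), in the shape of the `step` binder of
`Asm.exists_rtNum_condFL'`. -/
theorem exists_stepInputFL' (Sig₀ : Finset ℕ) (Y : RTNum ρbar (condFL 𝒪 p Smin Sig) d) (q : ℕ)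
    (hq : q.Prime)
    (hp2 : p ≠ 2) (hp𝒪 : (p : 𝒪) ∈ maximalIdeal 𝒪) (hpSmin : p ∈ Smin)
    (hmin : ∀ r : ℕ, r.Prime → r ≠ p → (r ∈ Smin ↔ ¬ ρbar.IsUnramifiedAt r))
    (hbar : condFL 𝒪 p Smin (insert q Sig) (GaloisRepAdic.ofResidualGaloisRep ρbar))
    (S0 : Finset ℕ) (hYS : Y.rt.S ⊆ (↑S0 : Set ℕ))
    {N' : ℕ} [NeZero N'] (hNN' : Y.rt.N ∣ N') (hpN' : ¬ p ∣ N') (hpS : p ∈ S0)
    (hNS : ∀ r : ℕ, r.Prime → r ∣ N' → r ∈ S0)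
    (hNT : ∀ r : ℕ, r.Prime → r ∣ N' → r ∈ Smin ∪ insert q Sig)
    (hSminN' : ∀ r ∈ Smin, r.Prime → r ≠ p → r ∣ N' ∧ ¬ r ^ 2 ∣ N')
    {T' : Type} [CommRing T'] [IsLocalRing T'] [Algebra 𝒪 T'] [Module.Finite 𝒪 T']
    [Module.Free 𝒪 T']
    (π' : heckeAlgebra N' 2 (↑S0 : Set ℕ) →+* T')
    (hgen : Algebra.adjoin 𝒪 (Set.range π') = ⊤)
    (πO' : T' →ₐ[𝒪] 𝒪)
    (heig : ∀ (ℓ : ℕ) (hℓ : ℓ.Prime) (hℓN : ¬ ℓ ∣ Y.rt.N) (hℓS : ℓ ∉ Y.rt.S) (hℓN' : ¬ ℓ ∣ N')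
      (hℓS' : ℓ ∉ (↑S0 : Set ℕ)),
        πO' (π' (heckeAlgebra.T hℓ hℓN' hℓS')) = Y.πO (Y.rt.π (heckeAlgebra.T hℓ hℓN hℓS)))
    -- the numerical binders
    (f₀ : Matrix (Fin 2) (Fin 2) 𝒪)
    (hf₀ : ∀ P : ValuationSubring Qb, P.LiesOverPrime q → ∀ φ : GQ, P.IsFrobeniusAt φ q →
      f₀.trace = Y.πO (Y.rt.ρT.trace φ))
    (hc : wilesFactor f₀ (q : 𝒪) ≠ 0) (w' : ℕ)
    (heta : Y.w * Nat.card (𝒪 ⧸ Ideal.span {wilesFactor f₀ (q : 𝒪)}) ^ d ≤ w')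
    (hM1 : w' ≤ etaCard πO' ^ d)
    (hlev : LevelOK' p Smin Sig₀ (insert q Sig) N' (↑S0 : Set ℕ))
    -- the invariant of the next stage
    (Q : ∀ (N : ℕ) [NeZero N] (S : Set ℕ), (heckeAlgebra N 2 S →+* 𝒪) → ℕ → Prop)
    (hQ : Q N' (↑S0 : Set ℕ) ((πO' : T' →+* 𝒪).comp π') w') :
    ∃ I : StepInputFL' Sig₀ Y q hq, Q I.N' I.S' I.pointChar' I.w' := by
  obtain ⟨D', ρT', φ', φ'_local, m, γ, hcp', hφ', φ'_ρ, hη', hγ, hB, heig'⟩ :=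
    exists_rawFL Y q hp2 hp𝒪 hpSmin hmin hbar S0 hYS hNN' hpN' hpS hNS hNT hSminN' π' hgen πO' heig
  obtain ⟨Pq, φq, hPq, hφq⟩ := Fermat.Agent.Common_helper32.exists_isFrobeniusAt q hq
  exact ⟨{ D' := D', N' := N', S' := (↑S0 : Set ℕ), T' := T', π' := π', ρT' := ρT',
           hcp' := hcp', φ' := φ', hφ' := hφ', φ'_local := φ'_local, φ'_ρ := φ'_ρ, πO' := πO',
           hη' := hη', m := m, γ := γ, hγ := hγ, B := badSet S0 N', hB := hB, heig := heig',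
           Pq := Pq, hPq := hPq, φq := φq, hφq := hφq, f₀ := f₀, hf₀ := hf₀ Pq hPq φq hφq,
           hc := hc, w' := w', heta := heta, hM1 := hM1, hlev := hlev }, hQ⟩

/-- **the step record, strict-ordinary case** (constant-`S` convention), in the shape of the `step`
binder of `Asm.exists_rtNum_condSO'`; next level `N₀ * p`. -/
theorem exists_stepInputSO' (Sig₀ : Finset ℕ) (Y : RTNum ρbar (condSO 𝒪 p Smin Sig) d) (q : ℕ)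
    (hq : q.Prime)
    (hp2 : p ≠ 2) (hp𝒪 : (p : 𝒪) ∈ maximalIdeal 𝒪) (hpSmin : p ∈ Smin)
    (hmin : ∀ r : ℕ, r.Prime → r ≠ p → (r ∈ Smin ↔ ¬ ρbar.IsUnramifiedAt r))
    (hbar : condSO 𝒪 p Smin (insert q Sig) (GaloisRepAdic.ofResidualGaloisRep ρbar))
    (S0 : Finset ℕ) (hYS : Y.rt.S ⊆ (↑S0 : Set ℕ))
    {N₀ : ℕ} [NeZero N₀] (hNN' : Y.rt.N ∣ N₀ * p)
    (h : ExactDvd p (N₀ * p)) (hside : p = 3 → 2 ∣ N₀ * p) (hpS : p ∈ S0)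
    (hNS : ∀ r : ℕ, r.Prime → r ∣ N₀ * p → r ∈ S0)
    (hNT : ∀ r : ℕ, r.Prime → r ∣ N₀ * p → r ∈ Smin ∪ insert q Sig)
    (hSminN' : ∀ r ∈ Smin, r.Prime → r ≠ p → r ∣ N₀ * p ∧ ¬ r ^ 2 ∣ N₀ * p)
    (hordbar : (GaloisRepAdic.ofResidualGaloisRep ρbar).IsOrdinaryAt p)
    {T' : Type} [CommRing T'] [IsLocalRing T'] [Algebra 𝒪 T'] [Module.Finite 𝒪 T']
    [Module.Free 𝒪 T']
    (π' : heckeAlgebra (N₀ * p) 2 (↑S0 : Set ℕ) →+* T')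
    (hgen : Algebra.adjoin 𝒪 (Set.range π') = ⊤)
    (hann : ∀ t₀ : 𝒪 ⊗[ℤ] heckeAlgebra (N₀ * p) 2 (↑S0 : Set ℕ),
      (∀ (a : 𝒪), ∀ x ∈ (LamNew (not_dvd_of_exactDvd h) :
          AddSubgroup (levelData p (N₀ * p) hpS hNS).Λ),
        (levelData p (N₀ * p) hpS hNS).heckeTensor 𝒪 t₀ (a ⊗ₜ[ℤ] x) = 0) →
          Fermat.Agent.GB.B10.L.GalPkgSO.twO (𝒪 := 𝒪) π' t₀ = 0)
    (πO' : T' →ₐ[𝒪] 𝒪)
    (heig : ∀ (ℓ : ℕ) (hℓ : ℓ.Prime) (hℓN : ¬ ℓ ∣ Y.rt.N) (hℓS : ℓ ∉ Y.rt.S)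
      (hℓN' : ¬ ℓ ∣ N₀ * p) (hℓS' : ℓ ∉ (↑S0 : Set ℕ)),
        πO' (π' (heckeAlgebra.T hℓ hℓN' hℓS')) = Y.πO (Y.rt.π (heckeAlgebra.T hℓ hℓN hℓS)))
    -- the numerical binders
    (f₀ : Matrix (Fin 2) (Fin 2) 𝒪)
    (hf₀ : ∀ P : ValuationSubring Qb, P.LiesOverPrime q → ∀ φ : GQ, P.IsFrobeniusAt φ q →
      f₀.trace = Y.πO (Y.rt.ρT.trace φ))
    (hc : wilesFactor f₀ (q : 𝒪) ≠ 0) (w' : ℕ)
    (heta : Y.w * Nat.card (𝒪 ⧸ Ideal.span {wilesFactor f₀ (q : 𝒪)}) ^ d ≤ w')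
    (hM1 : w' ≤ etaCard πO' ^ d)
    (hlev : LevelOK' p Smin Sig₀ (insert q Sig) (N₀ * p) (↑S0 : Set ℕ))
    -- the invariant of the next stage
    (Q : ∀ (N : ℕ) [NeZero N] (S : Set ℕ), (heckeAlgebra N 2 S →+* 𝒪) → ℕ → Prop)
    (hQ : Q (N₀ * p) (↑S0 : Set ℕ) ((πO' : T' →+* 𝒪).comp π') w') :
    ∃ I : StepInputSO' Sig₀ Y q hq, Q I.N' I.S' I.pointChar' I.w' := by
  obtain ⟨D', ρT', φ', φ'_local, m, γ, hcp', hφ', φ'_ρ, hη', hγ, hB, heig'⟩ :=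
    Fermat.Agent.GE9.Stage.RawSO.exists_rawSO Y q hp2 hp𝒪 hpSmin hmin hbar S0 hYS hNN' h hside hpS
      hNS hNT hSminN' hordbar π' hgen hann πO' heig
  obtain ⟨Pq, φq, hPq, hφq⟩ := Fermat.Agent.Common_helper32.exists_isFrobeniusAt q hq
  exact ⟨{ D' := D', N' := N₀ * p, S' := (↑S0 : Set ℕ), T' := T', π' := π', ρT' := ρT',
           hcp' := hcp', φ' := φ', hφ' := hφ', φ'_local := φ'_local, φ'_ρ := φ'_ρ, πO' := πO',
           hη' := hη', m := m, γ := γ, hγ := hγ, B := badSet S0 (N₀ * p), hB := hB, heig := heig',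
           Pq := Pq, hPq := hPq, φq := φq, hφq := hφq, f₀ := f₀, hf₀ := hf₀ Pq hPq φq hφq,
           hc := hc, w' := w', heta := heta, hM1 := hM1, hlev := hlev }, hQ⟩

end Fermat.Agent.GE9.Stage.Step

end
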