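/-
GATE-E / GE9-STAGE-RAW, leaf **ES-at-`q`** (helper11; helper10 board 7239): in the CONSTANT-`S`
convention the new prime `q` lies in the Hecke set `S0` of every stage, so `T_q` is NOT in the stage
algebra `heckeAlgebra N 2 S0`; the number `a_q` of the (ETA) side is the eigenvalue of `T_q` in the
FULL-at-`q` algebra `heckeAlgebra N 2 S1` (`S1 ∌ q`, e.g. `S1 = primes(N) ∪ {p}`).  This file
identifies it with the trace of Frobenius at the modular point of the stage: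

`trace_frob_eq_of_fullSystem` : `Y : RTNum ρbar 𝒟 d` (ANY problem `𝒟`), `χ : heckeAlgebra Y.rt.N 2 ↑S1
→+* 𝒪` with `χ(T_ℓ) = Y.πO (Y.rt.π (T_ℓ))` for the primes `ℓ` outside a finite set `B` (`B ⊇` the
bad primes of both algebras), `q ∤ Y.rt.N`, `q ∉ S1`, `φ` a Frobenius at `q`.  Then
`Y.πO (Y.rt.ρT.trace φ) = χ (T_q)`.

Proof: frozen S30 for `χ` (over `S1`: Eichler–Shimura at EVERY `ℓ ∤ N`, `ℓ ∉ S1`, in particular at
`q`) gives `ρ_χ` over a finite extension `R ⊇ 𝒪`; `ρ_χ` and `ρ_Y ⊗ R` are lifts of `ρbar ⊗ k_R`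
(residual Brauer–Nesbitt `Habs.residual_isEquiv_of_charpoly`, the polynomials of `ρbar` from
`RawFL.charpoly_rhobar_of_rtNum`) with the same Frobenius polynomials outside `B`, hence equivalent
(Chebotarev + Carayol = helper73's `CotGrowth.isEquiv_of_charpoly_frob_eq`); compare traces at `φ`.
-/
import Fermat.Agent.GE9.Stage.RawFL
import Fermat.Agent.GB.Glue.OfS30

set_option autoImplicit false
set_option linter.unusedSectionVars false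
set_option linter.unusedVariables false
set_option linter.style.haveILetI false

noncomputable section

namespace Fermat.Agent.GE9.Stage.FrobQ

open CuspForm IsLocalRing Polynomial GaloisRep
open Fermat.Agent.GE.Graph Fermat.Agent.GE9.Ind Fermat.Agent.GE9.CotGrowth
open Fermat.Agent.GE9.Stage.RawFL

local notation "GQ" => (AlgebraicClosure ℚ ≃ₐ[ℚ] AlgebraicClosure ℚ)
local notation "Qb" => AlgebraicClosure ℚ

variable {𝒪 : Type} [CommRing 𝒪] [IsDomain 𝒪] [IsDiscreteValuationRing 𝒪]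
  [IsAdicComplete (maximalIdeal 𝒪) 𝒪] [Finite (ResidueField 𝒪)] [CharZero 𝒪]
  {ρbar : ResidualGaloisRep (ResidueField 𝒪)} {𝒟 : DefCondE 𝒪} {d : ℕ}

/-- **ES at `q`**: the trace of Frobenius at `q` at the modular point of a stage is the eigenvalue
of `T_q` of any eigensystem `χ` over a Hecke set `S1 ∌ q` which agrees with the modular point
outside a finite set of primes. -/
theorem trace_frob_eq_of_fullSystem (Y : RTNum ρbar 𝒟 d) (p : ℕ) [Fact p.Prime]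
    (hp𝒪 : (p : 𝒪) ∈ maximalIdeal 𝒪)
    (S1 : Finset ℕ) (hpS1 : p ∈ S1) (hNS1 : ∀ r : ℕ, r.Prime → r ∣ Y.rt.N → r ∈ S1)
    (χ : heckeAlgebra Y.rt.N 2 (↑S1 : Set ℕ) →+* 𝒪) (B : Finset ℕ)
    (hB : ∀ ℓ : ℕ, ℓ.Prime → ℓ ∉ B → ¬ ℓ ∣ Y.rt.N ∧ ℓ ∉ Y.rt.S ∧ ℓ ∉ (↑S1 : Set ℕ))
    (hχ : ∀ (ℓ : ℕ) (hℓ : ℓ.Prime) (hℓN : ¬ ℓ ∣ Y.rt.N) (hℓS : ℓ ∉ Y.rt.S)
      (hℓS1 : ℓ ∉ (↑S1 : Set ℕ)), ℓ ∉ B →
        χ (heckeAlgebra.T hℓ hℓN hℓS1) = Y.πO (Y.rt.π (heckeAlgebra.T hℓ hℓN hℓS)))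
    {q : ℕ} (hq : q.Prime) (hqN : ¬ q ∣ Y.rt.N) (hqS1 : q ∉ (↑S1 : Set ℕ))
    (P : ValuationSubring Qb) (hP : P.LiesOverPrime q) (φ : GQ) (hφ : P.IsFrobeniusAt φ q) :
    Y.πO (Y.rt.ρT.trace φ) = χ (heckeAlgebra.T hq hqN hqS1) := by
  have hπO : IsLocalHom (Y.πO : Y.rt.T →+* 𝒪) := isLocalHom_aug Y.πO
  have habs : ρbar.IsAbsolutelyIrreducible := Y.rt.D.absIrr
  -- the representation of `χ`
  obtain ⟨D⟩ := Fermat.Agent.GB.Glue.OfS30.nonempty_s30Out p Y.rt.N S1 hpS1 hNS1 𝒪 hp𝒪 χ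
  haveI hlocR : IsLocalHom (algebraMap 𝒪 D.R) := D.isLocalHom
  -- the representation of the modular point, over `𝒪` and over `D.R`
  set ρY : GaloisRepAdic 𝒪 := Y.rt.ρT.baseChangeAlong (Y.πO : Y.rt.T →+* 𝒪) hπO with hρY
  set ρYR : GaloisRepAdic D.R := ρY.baseChangeAlong (algebraMap 𝒪 D.R) hlocR with hρYR
  have hcpY : ∀ (ℓ : ℕ) (hℓ : ℓ.Prime) (hℓN : ¬ ℓ ∣ Y.rt.N) (hℓS : ℓ ∉ Y.rt.S)
      (A : ValuationSubring Qb), A.LiesOverPrime ℓ → ∀ σ : GQ, A.IsFrobeniusAt σ ℓ →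
        LinearMap.charpoly (ρYR.ρ σ) =
          X ^ 2 - C (algebraMap 𝒪 D.R (Y.πO (Y.rt.π (heckeAlgebra.T hℓ hℓN hℓS)))) * X
            + C ((ℓ : D.R)) := by
    intro ℓ hℓ hℓN hℓS A hA σ hσ
    rw [hρYR, hρY, charpoly_baseChangeAlongE, charpoly_baseChangeAlongE,
      Y.rt.charpoly_frob ℓ hℓ hℓN hℓS A hA σ hσ]
    simp only [Polynomial.map_sub, Polynomial.map_add, Polynomial.map_mul, Polynomial.map_pow,
      Polynomial.map_X, Polynomial.map_C, map_natCast, RingHom.coe_coe, Polynomial.map_natCast]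
  -- both are lifts of `ρbar ⊗ k_R`
  have h1 : D.ρ.residual.IsEquiv
      (ρbar.baseChangeAlong (ResidueField.map (algebraMap 𝒪 D.R))) := by
    refine (Fermat.Agent.GB.Glue.Habs.residual_isEquiv_of_charpoly D.ρ ρbar
      (ResidueField.map (algebraMap 𝒪 D.R)) habs B ?_).1
    intro ℓ hℓ hℓB A hA σ hσ
    obtain ⟨hℓN, hℓS, hℓS1⟩ := hB ℓ hℓ hℓB
    refine ⟨_, _, _, _, D.charpoly_frob ℓ hℓ hℓN hℓS1 A hA σ hσ,
      charpoly_rhobar_of_rtNum Y ℓ hℓ hℓN hℓS A hA σ hσ, ?_⟩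
    rw [ResidueField.map_residue, hχ ℓ hℓ hℓN hℓS hℓS1 hℓB]
  have h2 : ρYR.residual.IsEquiv
      (ρbar.baseChangeAlong (ResidueField.map (algebraMap 𝒪 D.R))) := by
    refine (Fermat.Agent.GB.Glue.Habs.residual_isEquiv_of_charpoly ρYR ρbar
      (ResidueField.map (algebraMap 𝒪 D.R)) habs B ?_).1
    intro ℓ hℓ hℓB A hA σ hσ
    obtain ⟨hℓN, hℓS, hℓS1⟩ := hB ℓ hℓ hℓB
    refine ⟨_, _, _, _, hcpY ℓ hℓ hℓN hℓS A hA σ hσ,
      charpoly_rhobar_of_rtNum Y ℓ hℓ hℓN hℓS A hA σ hσ, ?_⟩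
    rw [ResidueField.map_residue]
  -- Chebotarev + Carayol
  have hequiv : D.ρ.IsEquiv ρYR := by
    refine isEquiv_of_charpoly_frob_eq D.ρ ρYR ρbar habs
      (ResidueField.map (algebraMap 𝒪 D.R)) h1 h2 B ?_
    intro ℓ hℓ hℓB A hA σ hσ
    obtain ⟨hℓN, hℓS, hℓS1⟩ := hB ℓ hℓ hℓB
    rw [D.charpoly_frob ℓ hℓ hℓN hℓS1 A hA σ hσ, hcpY ℓ hℓ hℓN hℓS A hA σ hσ,
      hχ ℓ hℓ hℓN hℓS hℓS1 hℓB]
  -- compare the traces at `φ`
  have ht1 : D.ρ.trace φ = algebraMap 𝒪 D.R (χ (heckeAlgebra.T hq hqN hqS1)) :=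
    Fermat.Agent.GE9.Asm.trace_eq_of_charpoly D.ρ φ _ _ (D.charpoly_frob q hq hqN hqS1 P hP φ hφ)
  have ht2 : ρYR.trace φ = algebraMap 𝒪 D.R (Y.πO (Y.rt.ρT.trace φ)) := by
    rw [hρYR, hρY, Fermat.Agent.S53_helper35.trace_baseChangeAlong,
      Fermat.Agent.S53_helper35.trace_baseChangeAlong]
    rfl
  apply D.injective
  rw [← ht1, ← ht2]
  exact (Fermat.Agent.S53_helper35.trace_eq_of_isEquiv hequiv φ).symm

end Fermat.Agent.GE9.Stage.FrobQ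

end
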