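/-
GATE-E / GE9-STAGE (helper73): **the carrier + numerics of ONE step of the induction over `Σ`, flat
case, for an ABSTRACT stage** — the `Pkg`-free body of helper54's `GE/Engine/StepFL.StepSupplyFL`.

`Y : RTNum ρbar 𝒟 d` is a stage at the level `Y.rt.N = M ∏_{x ∈ Sg} x²` with the CONSTANT Hecke set
`↑S0`, `#Ω = omegaCard Y.rt.N 𝒪 (lamAt lam Sg)` and the eigenvalues `lam ℓ` at its modular point;
`q ∉ Sg` is the new prime.  From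

* helper2 `GE9/Eta/Chain` (`etaStage_lev`, `omegaCard_lev_insert`) : the module-side invariant
  `EtaStage` at the two levels and the growth of `#Ω` (an equality);
* `GE9/Stage/CarrierLam.exists_carrier_lam` : the carrier `T'` of the next stage with (M1);
* helper11 `GE9/Stage/FrobQ.trace_frob_eq_of_fullSystem` with the full-at-`q` eigensystem
  `χ_{S1} := chiHom ∘ iotaLam` (`S1 = primes(Y.rt.N) ∪ {p}`) : `f₀.trace = Y.πO (tr ρ_T(Frob_q))`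
  for `f₀ := !![lam q, 0; 0, 0]` — HERE in hypothesis form (`hfrob`, so that this file does not import
  the heavy closure of `FrobQ`); discharged in `GE9/Stage/SupplyFrob.lean`.

Binders left: `hne` (non-Eisenstein, helper2), `hbase` (ETA at `Σ = ∅`), `hcq` (`c_x ≠ 0`), `hold`
(OldQ at the next level: an ANEMIC eigenvector in the `𝔪_full`-local part is a FULL eigenvector;
discharged from helper63's `hold_stage` in `GE9/Stage/SupplyHold.lean`) and `hfrob`.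

* `exists_fullSystem` : the eigensystem `heckeAlgebra N 2 S1 →+* 𝒪` of a stage invariant;
* `isMaximal_mLam_of_etaStage` : the maximal ideal of the full algebra of a stage invariant;
* `FrobAt Y p q lamq` : the hypothesis form of ES at `q`;
* **`exists_supplyFL_core`** : the supply, `hfrob : FrobAt …`.
-/
import Mathlib
import Fermat.Agent.GE9.Stage.CarrierLam
import Fermat.Agent.GE9.Eta.Chain
import Fermat.Agent.GE9.Asm.Chain2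

set_option autoImplicit false
set_option linter.unusedSectionVars false
set_option linter.unusedVariables false
set_option linter.style.haveILetI false

noncomputable section

namespace Fermat.Agent.GE9.Stage.Supply

open TensorProduct IsLocalRing Submodule CuspForm
open Fermat.Agent.GJ.J2.Lat Fermat.Agent.GB.B3.Loc
open Fermat.Agent.GE.Graph Fermat.Agent.GE9.Ind Fermat.Agent.GE9.Asm Fermat.Agent.GE9.NumCrit
  Fermat.Agent.GE9.TanGrow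
open Fermat.Agent.GE9.Eta Fermat.Agent.GE9.Eta.Mod Fermat.Agent.GE9.Eta.Chain
  Fermat.Agent.GE9.Mult1 Fermat.Agent.GE.Engine.LevArith
open Fermat.Agent.GE9.Stage.CarrierLam

local notation "GQ" => (AlgebraicClosure ℚ ≃ₐ[ℚ] AlgebraicClosure ℚ)
local notation "Qb" => AlgebraicClosure ℚ

section Full

variable {𝒪 : Type} [CommRing 𝒪] [IsDomain 𝒪] [CharZero 𝒪]

/-- **the eigensystem of a stage invariant** over ANY Hecke set `S1`: the joint eigen-sublattice of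
`𝒪 ⊗ Lam N` for `lam` is non-zero, hence `lam` is the system of eigenvalues of a ring homomorphism
`heckeAlgebra N 2 S1 →+* 𝒪` (`chiHom ∘ iotaLam`). -/
theorem exists_fullSystem {N : ℕ} [NeZero N] (lam : Nat.Primes → 𝒪) {d : ℕ} (hd : d ≠ 0)
    (hst : EtaStage N 𝒪 lam d) (S1 : Set ℕ) :
    ∃ χ : ↥(heckeAlgebra N 2 S1) →+* 𝒪,
      ∀ (ℓ : ℕ) (hℓ : ℓ.Prime) (hℓN : ¬ ℓ ∣ N) (hℓS : ℓ ∉ S1),
        χ (heckeAlgebra.T hℓ hℓN hℓS) = lam ⟨ℓ, hℓ⟩ := by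
  obtain ⟨b, hli, hspan, -⟩ := hst
  set i0 : Fin d := ⟨0, Nat.pos_of_ne_zero hd⟩ with hi0
  have hx0 : b i0 ≠ 0 := hli.ne_zero i0
  have hx : b i0 ∈ eigenTensorO N 𝒪 lam := by
    rw [← hspan]
    exact subset_span ⟨i0, rfl⟩
  refine ⟨((chiHom hx hx0 : AfLam N 𝒪 →ₐ[𝒪] 𝒪) : AfLam N 𝒪 →+* 𝒪).comp (iotaLam N 𝒪 S1),
    fun ℓ hℓ hℓN hℓS => ?_⟩
  rw [RingHom.comp_apply, RingHom.coe_coe, chiHom_apply]
  refine chiLam_eq_of_smul hx hx0 _ ?_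
  rw [iotaLam_T_smul]
  exact mem_eigenTensorO.mp hx _

/-- a stage invariant of positive rank makes the ideal `mLam` maximal -/
theorem isMaximal_mLam_of_etaStage [IsLocalRing 𝒪] {N : ℕ} [NeZero N] (lam : Nat.Primes → 𝒪)
    {d : ℕ} (hd : d ≠ 0) (hst : EtaStage N 𝒪 lam d) : (mLam N 𝒪 lam).IsMaximal := by
  obtain ⟨b, hli, hspan, -⟩ := hst
  set i0 : Fin d := ⟨0, Nat.pos_of_ne_zero hd⟩ with hi0
  have hx0 : b i0 ≠ 0 := hli.ne_zero i0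
  have hx : b i0 ∈ eigenTensorO N 𝒪 lam := by
    rw [← hspan]
    exact subset_span ⟨i0, rfl⟩
  exact isMaximal_mLam hx hx0

end Full

section Supply

variable {𝒪 : Type} [CommRing 𝒪] [IsDomain 𝒪] [IsDiscreteValuationRing 𝒪]
  [IsAdicComplete (maximalIdeal 𝒪) 𝒪] [Finite (ResidueField 𝒪)] [CharZero 𝒪]
  {ρbar : ResidualGaloisRep (ResidueField 𝒪)} {𝒟 : DefCondE 𝒪} {d : ℕ}

/-- **ES at `q`, hypothesis form** — the conclusion of helper11's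
`GE9/Stage/FrobQ.trace_frob_eq_of_fullSystem` at `S1 := primes(Y.rt.N) ∪ {p}`: an eigensystem `χ`
over `S1` which agrees with the modular point of the stage `Y` has `χ (T_q) = Y.πO (tr ρ_T(Frob_q))`.
Proved in `GE9/Stage/SupplyFrob.lean` (`frobAt`) for every stage with a FINITE Hecke set. -/
def FrobAt (Y : RTNum ρbar 𝒟 d) (p q : ℕ) : Prop :=
  ∀ (χ : ↥(heckeAlgebra Y.rt.N 2 (↑((Y.rt.N).primeFactors ∪ {p}) : Set ℕ)) →+* 𝒪),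
    (∀ (ℓ : ℕ) (hℓ : ℓ.Prime) (hℓN : ¬ ℓ ∣ Y.rt.N) (hℓS : ℓ ∉ Y.rt.S)
      (hℓS1 : ℓ ∉ (↑((Y.rt.N).primeFactors ∪ {p}) : Set ℕ)),
        χ (heckeAlgebra.T hℓ hℓN hℓS1) = Y.πO (Y.rt.π (heckeAlgebra.T hℓ hℓN hℓS))) →
    ∀ (hq : q.Prime) (hqN : ¬ q ∣ Y.rt.N)
      (hqS1 : q ∉ (↑((Y.rt.N).primeFactors ∪ {p}) : Set ℕ))
      (Pq : ValuationSubring Qb), Pq.LiesOverPrime q → ∀ φ : GQ, Pq.IsFrobeniusAt φ q →
        Y.πO (Y.rt.ρT.trace φ) = χ (heckeAlgebra.T hq hqN hqS1)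

/-- **The carrier + numerics of ONE step, flat case, abstract stage** (ES at `q` as the binder
`hfrob`). -/
theorem exists_supplyFL_core (Y : RTNum ρbar 𝒟 d) (p : ℕ) [Fact p.Prime] (hp2 : p ≠ 2)
    (hp𝒪 : (p : 𝒪) ∈ maximalIdeal 𝒪)
    {ϖ : 𝒪} (hϖ : Irreducible ϖ) (hpϖ : ∃ c : 𝒪, (p : 𝒪) = ϖ * c)
    {M : ℕ} [NeZero M] (lam : Nat.Primes → 𝒪)
    (hne : ∀ (F : Finset ℕ) (q : ℕ), q.Prime → ∃ l : Nat.Primes, (l : ℕ) ∉ F ∧
      (((l : ℕ) : ZMod q) = 1) ∧ IsUnit (lam l - (((l : ℕ) : 𝒪) + 1)))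
    (hd : 2 ≤ d) (hbase : EtaStage M 𝒪 lam d)
    (Sg : Finset ℕ) (hSg : ∀ x ∈ Sg, x.Prime ∧ ¬ x ∣ M)
    {q : ℕ} (hq : q.Prime) (hqS : q ∉ Sg) (hqM : ¬ q ∣ M) (hqp : q ≠ p)
    (hcq : ∀ (x : ℕ) (hx : x.Prime), x ∈ insert q Sg →
      (((x : ℕ) : 𝒪) - 1) * ((1 + ((x : ℕ) : 𝒪)) ^ 2 - lam (⟨x, hx⟩ : Nat.Primes) ^ 2) ≠ 0)
    (S0 : Finset ℕ) (hpS0 : p ∈ S0) (hMS0 : ∀ r : ℕ, r.Prime → r ∣ M → r ∈ S0)
    (hSgS0 : ∀ x ∈ insert q Sg, x ∈ S0)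
    (hYN : Y.rt.N = M * ∏ x ∈ Sg, x ^ 2) (hYS : Y.rt.S = (↑S0 : Set ℕ))
    (hYw : Y.w = omegaCard Y.rt.N 𝒪 (lamAt lam Sg))
    (hYχ : ∀ (ℓ : ℕ) (hℓ : ℓ.Prime) (hℓN : ¬ ℓ ∣ Y.rt.N) (hℓS : ℓ ∉ Y.rt.S),
      pointChar Y (heckeAlgebra.T hℓ hℓN hℓS) = lam ⟨ℓ, hℓ⟩)
    [NeZero (Y.rt.N * q * q)] (hfrob : FrobAt Y p q)
    (hold : EtaStage (Y.rt.N * q * q) 𝒪 (lamAt lam (insert q Sg)) d →
      ∀ [(mLam (Y.rt.N * q * q) 𝒪 (lamAt lam (insert q Sg))).IsMaximal],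
      ∀ x ∈ locPart (mLam (Y.rt.N * q * q) 𝒪 (lamAt lam (insert q Sg)))
          (𝒪 ⊗[ℤ] Lam (Y.rt.N * q * q)),
        (∀ (ℓ : ℕ) (hℓ : ℓ.Prime), ¬ ℓ ∣ Y.rt.N * q * q → ℓ ∉ (↑S0 : Set ℕ) →
          (latT (Y.rt.N * q * q) (⟨ℓ, hℓ⟩ : Nat.Primes)).baseChange 𝒪 x
            = lamAt lam (insert q Sg) ⟨ℓ, hℓ⟩ • x) →
        x ∈ eigenTensorO (Y.rt.N * q * q) 𝒪 (lamAt lam (insert q Sg))) :
    ∃ (T' : Type) (_ : CommRing T') (_ : IsLocalRing T') (_ : Algebra 𝒪 T')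
      (_ : Module.Finite 𝒪 T') (_ : Module.Free 𝒪 T')
      (π' : ↥(heckeAlgebra (Y.rt.N * q * q) 2 (↑S0 : Set ℕ)) →+* T')
      (πO' : T' →ₐ[𝒪] 𝒪) (f₀ : Matrix (Fin 2) (Fin 2) 𝒪),
      Algebra.adjoin 𝒪 (Set.range π') = ⊤ ∧
      (∀ (ℓ : ℕ) (hℓ : ℓ.Prime) (hℓN' : ¬ ℓ ∣ Y.rt.N * q * q) (hℓS' : ℓ ∉ (↑S0 : Set ℕ)),
        πO' (π' (heckeAlgebra.T hℓ hℓN' hℓS')) = lam ⟨ℓ, hℓ⟩) ∧
      (∀ Pq : ValuationSubring Qb, Pq.LiesOverPrime q →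
        ∀ φ : GQ, Pq.IsFrobeniusAt φ q → f₀.trace = Y.πO (Y.rt.ρT.trace φ)) ∧
      wilesFactor f₀ ((q : ℕ) : 𝒪) ≠ 0 ∧
      Y.w * Nat.card (𝒪 ⧸ Ideal.span {wilesFactor f₀ ((q : ℕ) : 𝒪)}) ^ d
        ≤ omegaCard (Y.rt.N * q * q) 𝒪 (lamAt lam (insert q Sg)) ∧
      omegaCard (Y.rt.N * q * q) 𝒪 (lamAt lam (insert q Sg)) ≤ etaCard πO' ^ d := by
  have hp : p.Prime := Fact.out
  have hd0 : d ≠ 0 := by omega
  have hSgP : ∀ x ∈ Sg, x.Prime := fun x hx => (hSg x hx).1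
  have hSg' : ∀ x ∈ insert q Sg, x.Prime ∧ ¬ x ∣ M := by
    intro x hx
    rcases Finset.mem_insert.mp hx with rfl | h
    · exact ⟨hq, hqM⟩
    · exact hSg x h
  have hSgP' : ∀ x ∈ insert q Sg, x.Prime := fun x hx => (hSg' x hx).1
  have hN' : Y.rt.N * q * q = M * ∏ x ∈ insert q Sg, x ^ 2 := by
    rw [hYN]
    exact (lev_insert' hqS).symm
  have hqN : ¬ q ∣ Y.rt.N := by
    rw [hYN]
    exact not_dvd_lev hSgP hq hqM hqS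
  -- (a) the module side at the two levels
  have hst : EtaStage Y.rt.N 𝒪 (lamAt lam Sg) d :=
    etaStage_lev hp hp2 hϖ hpϖ lam hne hd hbase Sg hSg
      (fun x hx hxS => hcq x hx (Finset.mem_insert_of_mem hxS)) Y.rt.N hYN
  have hst' : EtaStage (Y.rt.N * q * q) 𝒪 (lamAt lam (insert q Sg)) d :=
    etaStage_lev hp hp2 hϖ hpϖ lam hne hd hbase (insert q Sg) hSg' hcq (Y.rt.N * q * q) hN'
  -- the matrix `f₀`
  let f₀ : Matrix (Fin 2) (Fin 2) 𝒪 := !![lam (⟨q, hq⟩ : Nat.Primes), 0; 0, 0]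
  have hf₀ : f₀.trace = lam (⟨q, hq⟩ : Nat.Primes) := by
    simp [f₀, Matrix.trace_fin_two]
  have hcf : wilesFactor f₀ ((q : ℕ) : 𝒪) ≠ 0 := by
    rw [wilesFactor, hf₀]
    exact hcq q hq (Finset.mem_insert_self _ _)
  have hgrow := omegaCard_lev_insert hp hp2 hϖ hpϖ lam hne hd hbase Sg hSg
    (fun x hx hxS => hcq x hx (Finset.mem_insert_of_mem hxS)) hq hqS hqM f₀ hf₀ hcf
    Y.rt.N (Y.rt.N * q * q) hYN hN'
  -- (b) the carrier of the next stage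
  haveI hmax : (mLam (Y.rt.N * q * q) 𝒪 (lamAt lam (insert q Sg))).IsMaximal :=
    isMaximal_mLam_of_etaStage _ hd0 hst'
  have hNS : ∀ r : ℕ, r.Prime → r ∣ Y.rt.N * q * q → r ∈ (↑S0 : Set ℕ) := by
    intro r hr hrN
    rw [hN'] at hrN
    exact Finset.mem_coe.mpr (mem_S0_of_dvd_lev hSgP' hMS0 hSgS0 r hr hrN)
  obtain ⟨T', i1, i2, i3, i4, i5, π', πO', hgen, hpt, hη, hM1⟩ :=
    exists_carrier_lam (↑S0 : Set ℕ) hNS (lamAt lam (insert q Sg)) hd0 hst' (hold hst')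
  -- (c) the full-at-`q` eigensystem at the level of `Y`
  have hqS1 : q ∉ (↑((Y.rt.N).primeFactors ∪ {p}) : Set ℕ) := by
    intro h
    rcases Finset.mem_union.mp (Finset.mem_coe.mp h) with h | h
    · exact hqN (Nat.mem_primeFactors.mp h).2.1
    · exact hqp (Finset.mem_singleton.mp h)
  obtain ⟨χ₁, hχ₁⟩ := exists_fullSystem (lamAt lam Sg) hd0 hst
    (↑((Y.rt.N).primeFactors ∪ {p}) : Set ℕ)
  have hlamSg : ∀ (ℓ : ℕ) (hℓ : ℓ.Prime), ¬ ℓ ∣ Y.rt.N →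
      lamAt lam Sg ⟨ℓ, hℓ⟩ = lam ⟨ℓ, hℓ⟩ := by
    intro ℓ hℓ hℓN
    refine lamAt_of_notMem lam fun h => hℓN ?_
    rw [hYN]
    exact dvd_lev_of_mem h
  have hfrob : ∀ Pq : ValuationSubring Qb, Pq.LiesOverPrime q →
      ∀ φ : GQ, Pq.IsFrobeniusAt φ q → f₀.trace = Y.πO (Y.rt.ρT.trace φ) := by
    intro Pq hPq φ hφ
    rw [hf₀, hfrob χ₁ ?_ hq hqN hqS1 Pq hPq φ hφ, hχ₁, hlamSg q hq hqN]
    intro ℓ hℓ hℓN hℓS hℓS1
    rw [hχ₁, hlamSg ℓ hℓ hℓN, ← hYχ ℓ hℓ hℓN hℓS]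
    rfl
  refine ⟨T', i1, i2, i3, i4, i5, π', πO', f₀, hgen, fun ℓ hℓ hℓN' hℓS' => ?_, hfrob, hcf, ?_, hM1⟩
  · rw [hpt]
    refine lamAt_of_notMem lam fun h => hℓN' ?_
    rw [hN']
    exact dvd_lev_of_mem h
  · rw [hgrow, hYw]

end Supply

end Fermat.Agent.GE9.Stage.Supply

end
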