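/-
GATE-E / GE9-STAGE (helper73): **the binder `hold` of `GE9/Stage/CarrierLam.exists_carrier_lam` /
`GE9/Stage/Supply.exists_supplyFL_core` at the stage levels, from helper63's
`GE9/OldQ/HoldStage.hold_stage`.**

`N' = M ∏_{x ∈ Sg'} x²`, `lam` the FULL system of the minimal level `M` (`EtaStage M 𝒪 lam d`, `d ≠ 0`),
`lamAt lam Sg'` the system of the stage, `𝔪 = mLam N' 𝒪 (lamAt lam Sg')` the maximal ideal of the full
algebra `AfLam N' 𝒪`.  `hold_stage` is applied to `Lp := locPart 𝔪 (𝒪 ⊗ Lam N')`: it is stable under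
every `T'_l = gen l • ·`, and the cofactor `T'_x² − lam x • T'_x + x` (`x ∈ Sg'`) is the action of an
element of `AfLam N' 𝒪` which acts on the joint eigen-sublattice of the stage by the UNIT `x`
(`x ≠ p`), hence bijectively on `Lp` (`CarrierLam.bijective_smul_of_isUnit`).

The only binder left is `hbad` of `hold_stage`: every prime `b ∈ S0 ∖ Sg'` is prime to `M`, or
divides `M` exactly once with `NonOccAt 𝒪 S0 b lam` (`GE9/OldQ/BaseR.nonOccAt_of_ramified` at the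
`Pkg` level).

* `isUnit_natCast_of_prime_ne` : a prime `q ≠ p` is a unit of a local ring of residue characteristic
  `p`;
* `stageLam_eq_lamAt` : helper63's `stageLam` is helper2's `lamAt`;
* **`hold_of_stage`** : the binder `hold`.
-/
import Mathlib
import Fermat.Agent.GE9.Stage.Supply
import Fermat.Agent.GE9.OldQ.HoldStage

set_option autoImplicit false
set_option linter.unusedSectionVars false
set_option linter.unusedVariables false
set_option linter.style.haveILetI false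

noncomputable section

namespace Fermat.Agent.GE9.Stage.SupplyHold

open TensorProduct IsLocalRing Submodule CuspForm
open Fermat.Agent.GJ.J2.Lat Fermat.Agent.GB.B3.Loc
open Fermat.Agent.GE9.Eta Fermat.Agent.GE9.Eta.Mod Fermat.Agent.GE9.Eta.Chain
  Fermat.Agent.GE9.Mult1 Fermat.Agent.GE.Engine.LevArith
open Fermat.Agent.GE9.Stage.CarrierLam Fermat.Agent.GE9.OldQ.Consumer

section Unit

variable {𝒪 : Type*} [CommRing 𝒪] [IsLocalRing 𝒪]

/-- a prime `q ≠ p` is a unit of a local ring of residue characteristic `p` -/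
theorem isUnit_natCast_of_prime_ne {p q : ℕ} (hp : p.Prime) (hq : q.Prime) (hqp : q ≠ p)
    (hp𝒪 : (p : 𝒪) ∈ maximalIdeal 𝒪) : IsUnit ((q : ℕ) : 𝒪) := by
  by_contra h
  have hq𝒪 : ((q : ℕ) : 𝒪) ∈ maximalIdeal 𝒪 := (mem_maximalIdeal _).mpr (mem_nonunits_iff.mpr h)
  have hcop : IsCoprime (q : ℤ) (p : ℤ) :=
    Nat.isCoprime_iff_coprime.mpr ((Nat.coprime_primes hq hp).mpr hqp)
  obtain ⟨a, b, hab⟩ := hcop
  have h1 : (1 : 𝒪) ∈ maximalIdeal 𝒪 := by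
    have h2 : ((a * (q : ℤ) + b * (p : ℤ) : ℤ) : 𝒪) = 1 := by
      rw [hab]
      exact Int.cast_one
    rw [← h2]
    push_cast
    exact Ideal.add_mem _ (Ideal.mul_mem_left _ _ hq𝒪) (Ideal.mul_mem_left _ _ hp𝒪)
  exact (Ideal.ne_top_iff_one _).mp (maximalIdeal.isMaximal 𝒪).ne_top h1

end Unit

section Lam

variable {𝒪 : Type*} [CommRing 𝒪]

/-- helper63's `stageLam` is helper2's `lamAt` -/
theorem stageLam_eq_lamAt (lam : Nat.Primes → 𝒪) (Sg : Finset ℕ) (l : Nat.Primes) :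
    stageLam Sg lam l = lamAt lam Sg l := by
  by_cases h : (l : ℕ) ∈ Sg
  · rw [stageLam_of_mem lam h, lamAt_of_mem lam h]
  · rw [stageLam_of_notMem lam h, lamAt_of_notMem lam h]

end Lam

section Hold

variable {𝒪 : Type} [CommRing 𝒪] [IsDomain 𝒪] [IsDiscreteValuationRing 𝒪]
  [IsAdicComplete (maximalIdeal 𝒪) 𝒪] [CharZero 𝒪]

/-- **the binder `hold` at a stage level** (flat case), from helper63's `hold_stage`. -/
theorem hold_of_stage {M N' : ℕ} [NeZero M] [NeZero N'] {p : ℕ} (hp : p.Prime)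
    (hp𝒪 : (p : 𝒪) ∈ maximalIdeal 𝒪) (lam : Nat.Primes → 𝒪) {d : ℕ} (hd : d ≠ 0)
    (hbase : EtaStage M 𝒪 lam d) (Sg' S0 : Finset ℕ) (hN' : N' = M * ∏ x ∈ Sg', x ^ 2)
    (hSg' : ∀ x ∈ Sg', x.Prime ∧ ¬ x ∣ M) (hSgp : ∀ x ∈ Sg', x ≠ p)
    (hMS0 : ∀ r : ℕ, r.Prime → r ∣ M → r ∈ S0) (hSgS0 : ∀ x ∈ Sg', x ∈ S0)
    (hbad : ∀ b : Nat.Primes, (b : ℕ) ∈ S0 → (b : ℕ) ∉ Sg' →
      ¬ (b : ℕ) ∣ M ∨ ((b : ℕ) ∣ M ∧ ¬ (b : ℕ) ^ 2 ∣ M ∧ NonOccAt 𝒪 S0 b lam))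
    (hst' : EtaStage N' 𝒪 (lamAt lam Sg') d) [(mLam N' 𝒪 (lamAt lam Sg')).IsMaximal] :
    ∀ x ∈ locPart (mLam N' 𝒪 (lamAt lam Sg')) (𝒪 ⊗[ℤ] Lam N'),
      (∀ (ℓ : ℕ) (hℓ : ℓ.Prime), ¬ ℓ ∣ N' → ℓ ∉ (↑S0 : Set ℕ) →
        (latT N' (⟨ℓ, hℓ⟩ : Nat.Primes)).baseChange 𝒪 x = lamAt lam Sg' ⟨ℓ, hℓ⟩ • x) →
      x ∈ eigenTensorO N' 𝒪 (lamAt lam Sg') := by
  intro x hx hxe
  -- the reference vectors
  obtain ⟨b₁, hli₁, hspan₁, -⟩ := hbase
  obtain ⟨b', hli', hspan', -⟩ := hst'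
  set i0 : Fin d := ⟨0, Nat.pos_of_ne_zero hd⟩ with hi0
  have hy₁ : b₁ i0 ≠ 0 := hli₁.ne_zero i0
  have hy₁m : b₁ i0 ∈ eigenTensorO M 𝒪 lam := by
    rw [← hspan₁]
    exact subset_span ⟨i0, rfl⟩
  have hx0 : b' i0 ≠ 0 := hli'.ne_zero i0
  have hx0m : b' i0 ∈ eigenTensorO N' 𝒪 (lamAt lam Sg') := by
    rw [← hspan']
    exact subset_span ⟨i0, rfl⟩
  -- the `𝔪`-primary part as an `𝒪`-submodule
  set Lp : Submodule 𝒪 (𝒪 ⊗[ℤ] Lam N') :=
    (locPart (mLam N' 𝒪 (lamAt lam Sg')) (𝒪 ⊗[ℤ] Lam N')).restrictScalars 𝒪 with hLpdef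
  have hLp : ∀ l : Nat.Primes, ∀ y ∈ Lp, (latT N' l).baseChange 𝒪 y ∈ Lp := by
    intro l y hy
    rw [← gen_smul]
    exact (Submodule.restrictScalars_mem 𝒪 _ _).mpr
      (Submodule.smul_mem _ _ ((Submodule.restrictScalars_mem 𝒪 _ _).mp hy))
  have hinj : ∀ q : Nat.Primes, (q : ℕ) ∈ Sg' → ∀ y ∈ Lp,
      (latT N' q).baseChange 𝒪 ((latT N' q).baseChange 𝒪 y)
        - lam q • (latT N' q).baseChange 𝒪 y + ((q : ℕ) : 𝒪) • y = 0 → y = 0 := by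
    intro q hqS y hy h0
    set a : AfLam N' 𝒪 := gen N' 𝒪 q * gen N' 𝒪 q
      - algebraMap 𝒪 (AfLam N' 𝒪) (lam q) * gen N' 𝒪 q
      + algebraMap 𝒪 (AfLam N' 𝒪) ((q : ℕ) : 𝒪) with ha
    have hact : ∀ z : 𝒪 ⊗[ℤ] Lam N', a • z =
        (latT N' q).baseChange 𝒪 ((latT N' q).baseChange 𝒪 z)
          - lam q • (latT N' q).baseChange 𝒪 z + ((q : ℕ) : 𝒪) • z := by
      intro z
      rw [ha, add_smul, sub_smul, mul_smul, mul_smul, gen_smul, gen_smul, algebraMap_smul,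
        algebraMap_smul]
    have hu : IsUnit (((q : ℕ) : 𝒪)) := isUnit_natCast_of_prime_ne hp q.2 (hSgp _ hqS) hp𝒪
    have hax : a • b' i0 = ((q : ℕ) : 𝒪) • b' i0 := by
      rw [hact, mem_eigenTensorO.mp hx0m q, lamAt_of_mem lam hqS, zero_smul, map_zero, smul_zero,
        sub_zero, zero_add]
    have hbij := bijective_smul_of_isUnit hx0m hx0 a hu hax
    have hy' : y ∈ locPart (mLam N' 𝒪 (lamAt lam Sg')) (𝒪 ⊗[ℤ] Lam N') :=
      (Submodule.restrictScalars_mem 𝒪 _ _).mp hy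
    have h1 : (⟨y, hy'⟩ : locPart (mLam N' 𝒪 (lamAt lam Sg')) (𝒪 ⊗[ℤ] Lam N')) = 0 := by
      apply hbij.1
      apply Subtype.ext
      show a • y = a • (0 : 𝒪 ⊗[ℤ] Lam N')
      rw [smul_zero, hact, h0]
    exact congrArg Subtype.val h1
  have hNS : ∀ r : ℕ, r.Prime → r ∣ N' → r ∈ S0 := by
    intro r hr hrN
    rw [hN'] at hrN
    exact mem_S0_of_dvd_lev (fun y hy => (hSg' y hy).1) hMS0 hSgS0 r hr hrN
  have hall := hold_stage S0 Sg' hN' hSg' (fun y hy => hSgS0 y hy) lam (b₁ i0) hy₁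
    (mem_eigenTensorO.mp hy₁m) hbad Lp hLp hinj x
    ((Submodule.restrictScalars_mem 𝒪 _ _).mpr hx) ?_
  · exact mem_eigenTensorO.mpr fun l => by rw [hall l, stageLam_eq_lamAt]
  · intro l hlS0
    have hlSg : (l : ℕ) ∉ Sg' := fun h => hlS0 (hSgS0 _ h)
    have hlN : ¬ (l : ℕ) ∣ N' := fun h => hlS0 (hNS _ l.2 h)
    have h2 := hxe l l.2 hlN (fun h => hlS0 (Finset.mem_coe.mp h))
    rw [lamAt_of_notMem lam (l := (⟨(l : ℕ), l.2⟩ : Nat.Primes)) hlSg] at h2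
    exact h2

end Hold

end Fermat.Agent.GE9.Stage.SupplyHold

end
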