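/-
GATE-E / GE9-STAGE (helper73): **the supply of ONE step of the induction over `Σ`, flat case, with
`hfrob` and `hold` discharged** — the `Pkg`-free body of helper54's `GE/Engine/StepFL.StepSupplyFL`.

* `frobAt` : `Supply.FrobAt Y p q` for every stage with a finite Hecke set, = helper11's
  `GE9/Stage/FrobQ.trace_frob_eq_of_fullSystem` at `S1 := primes(Y.rt.N) ∪ {p}`, `B := S0 ∪ S1`;
* `cq_ne_zero_of_etaStage` : `c_x ≠ 0` at every prime `x ∤ M` from `EtaStage M 𝒪 lam d`, `d ≠ 0`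
  (helper63's `GE9/OldQ/CqNeO.cq_ne_zero_of_eigen`);
* `exists_supplyFL_hcq` : `Supply.exists_supplyFL_core` with `hfrob := frobAt …` and
  `hold := SupplyHold.hold_of_stage …` (helper63's `hold_stage`), `hcq` still a binder;
* **`exists_supplyFL`** : the same with `hcq` discharged.

Binders left: `hne` (non-Eisenstein, helper2 `GE9/Ihara2/NonEisOne`), `hbase` (ETA at `Σ = ∅`, helper2
`GE9/Eta/Base`) and `hno` (`NonOccAt 𝒪 S0 b lam` at the primes `b ∣ M`: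
`GE9/OldQ/BaseR.nonOccAt_of_ramified` at the `Pkg` level, `ρ̄` is ramified at the primes of the
minimal level).
-/
import Mathlib
import Fermat.Agent.GE9.Stage.SupplyHold
import Fermat.Agent.GE9.Stage.FrobQ
import Fermat.Agent.GE9.OldQ.CqNeO

set_option autoImplicit false
set_option linter.unusedSectionVars false
set_option linter.unusedVariables false
set_option linter.style.haveILetI false

noncomputable section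

namespace Fermat.Agent.GE9.Stage.SupplyFrob

open TensorProduct IsLocalRing Submodule CuspForm
open Fermat.Agent.GJ.J2.Lat Fermat.Agent.GB.B3.Loc
open Fermat.Agent.GE.Graph Fermat.Agent.GE9.Ind Fermat.Agent.GE9.Asm Fermat.Agent.GE9.NumCrit
  Fermat.Agent.GE9.TanGrow
open Fermat.Agent.GE9.Eta Fermat.Agent.GE9.Eta.Mod Fermat.Agent.GE9.Eta.Chain
  Fermat.Agent.GE9.Mult1 Fermat.Agent.GE.Engine.LevArith
open Fermat.Agent.GE9.Stage.CarrierLam Fermat.Agent.GE9.Stage.Supply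
  Fermat.Agent.GE9.Stage.SupplyHold Fermat.Agent.GE9.OldQ.Consumer

local notation "GQ" => (AlgebraicClosure ℚ ≃ₐ[ℚ] AlgebraicClosure ℚ)
local notation "Qb" => AlgebraicClosure ℚ

variable {𝒪 : Type} [CommRing 𝒪] [IsDomain 𝒪] [IsDiscreteValuationRing 𝒪]
  [IsAdicComplete (maximalIdeal 𝒪) 𝒪] [Finite (ResidueField 𝒪)] [CharZero 𝒪]
  {ρbar : ResidualGaloisRep (ResidueField 𝒪)} {𝒟 : DefCondE 𝒪} {d : ℕ}

/-- **ES at `q`** for a stage with a finite Hecke set (helper11's `FrobQ`). -/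
theorem frobAt (Y : RTNum ρbar 𝒟 d) (p : ℕ) [Fact p.Prime] (hp𝒪 : (p : 𝒪) ∈ maximalIdeal 𝒪)
    (q : ℕ) (S0 : Finset ℕ) (hYS : Y.rt.S ⊆ (↑S0 : Set ℕ)) : FrobAt Y p q := by
  intro χ hχ hq hqN hqS1 Pq hPq φ hφ
  have hpS1 : p ∈ (Y.rt.N).primeFactors ∪ {p} :=
    Finset.mem_union_right _ (Finset.mem_singleton_self p)
  have hNS1 : ∀ r : ℕ, r.Prime → r ∣ Y.rt.N → r ∈ (Y.rt.N).primeFactors ∪ {p} :=
    fun r hr hrN => Finset.mem_union_left _ (Nat.mem_primeFactors.mpr ⟨hr, hrN, NeZero.ne _⟩)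
  refine Fermat.Agent.GE9.Stage.FrobQ.trace_frob_eq_of_fullSystem Y p hp𝒪
    ((Y.rt.N).primeFactors ∪ {p}) hpS1 hNS1 χ (S0 ∪ ((Y.rt.N).primeFactors ∪ {p})) ?_
    (fun ℓ hℓ hℓN hℓS hℓS1 _ => hχ ℓ hℓ hℓN hℓS hℓS1) hq hqN hqS1 Pq hPq φ hφ
  intro ℓ hℓ hℓB
  exact ⟨fun h => hℓB (Finset.mem_union_right _ (hNS1 ℓ hℓ h)),
    fun h => hℓB (Finset.mem_union_left _ (Finset.mem_coe.mp (hYS h))),
    fun h => hℓB (Finset.mem_union_right _ (Finset.mem_coe.mp h))⟩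

/-- `c_x ≠ 0` at every prime `x ∤ M`, from the stage invariant at the minimal level (helper63's
`CqNeO`). -/
theorem cq_ne_zero_of_etaStage {M : ℕ} [NeZero M] (lam : Nat.Primes → 𝒪) (hd : d ≠ 0)
    (hbase : EtaStage M 𝒪 lam d) (x : ℕ) (hx : x.Prime) (hxM : ¬ x ∣ M) :
    (((x : ℕ) : 𝒪) - 1) * ((1 + ((x : ℕ) : 𝒪)) ^ 2 - lam (⟨x, hx⟩ : Nat.Primes) ^ 2) ≠ 0 := by
  obtain ⟨b₁, hli₁, hspan₁, -⟩ := hbase
  have hy₁m : b₁ ⟨0, Nat.pos_of_ne_zero hd⟩ ∈ eigenTensorO M 𝒪 lam := by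
    rw [← hspan₁]
    exact subset_span ⟨_, rfl⟩
  exact Fermat.Agent.GE9.OldQ.CqNeO.cq_ne_zero_of_eigen lam (b₁ ⟨0, Nat.pos_of_ne_zero hd⟩)
    (hli₁.ne_zero _) (mem_eigenTensorO.mp hy₁m) x hx hxM

/-- **The carrier + numerics of ONE step, flat case, abstract stage** (`hcq` a binder).  `Y` is a
stage at the level `M ∏_{x ∈ Sg} x²` with the constant Hecke set `↑S0`, `#Ω = omegaCard …` and the
eigenvalues `lam ℓ`; `q ∉ Sg` is the new prime. -/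
theorem exists_supplyFL_hcq (Y : RTNum ρbar 𝒟 d) (p : ℕ) [Fact p.Prime] (hp2 : p ≠ 2)
    (hp𝒪 : (p : 𝒪) ∈ maximalIdeal 𝒪)
    {ϖ : 𝒪} (hϖ : Irreducible ϖ) (hpϖ : ∃ c : 𝒪, (p : 𝒪) = ϖ * c)
    {M : ℕ} [NeZero M] (hsq : Squarefree M) (lam : Nat.Primes → 𝒪)
    (hne : ∀ (F : Finset ℕ) (q : ℕ), q.Prime → ∃ l : Nat.Primes, (l : ℕ) ∉ F ∧
      (((l : ℕ) : ZMod q) = 1) ∧ IsUnit (lam l - (((l : ℕ) : 𝒪) + 1)))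
    (hd : 2 ≤ d) (hbase : EtaStage M 𝒪 lam d)
    (Sg : Finset ℕ) (hSg : ∀ x ∈ Sg, x.Prime ∧ ¬ x ∣ M ∧ x ≠ p)
    {q : ℕ} (hq : q.Prime) (hqS : q ∉ Sg) (hqM : ¬ q ∣ M) (hqp : q ≠ p)
    (hcq : ∀ (x : ℕ) (hx : x.Prime), x ∈ insert q Sg →
      (((x : ℕ) : 𝒪) - 1) * ((1 + ((x : ℕ) : 𝒪)) ^ 2 - lam (⟨x, hx⟩ : Nat.Primes) ^ 2) ≠ 0)
    (S0 : Finset ℕ) (hpS0 : p ∈ S0) (hMS0 : ∀ r : ℕ, r.Prime → r ∣ M → r ∈ S0)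
    (hSgS0 : ∀ x ∈ insert q Sg, x ∈ S0)
    (hno : ∀ b : Nat.Primes, (b : ℕ) ∣ M → NonOccAt 𝒪 S0 b lam)
    (hYN : Y.rt.N = M * ∏ x ∈ Sg, x ^ 2) (hYS : Y.rt.S = (↑S0 : Set ℕ))
    (hYw : Y.w = omegaCard Y.rt.N 𝒪 (lamAt lam Sg))
    (hYχ : ∀ (ℓ : ℕ) (hℓ : ℓ.Prime) (hℓN : ¬ ℓ ∣ Y.rt.N) (hℓS : ℓ ∉ Y.rt.S),
      pointChar Y (heckeAlgebra.T hℓ hℓN hℓS) = lam ⟨ℓ, hℓ⟩)
    [NeZero (Y.rt.N * q * q)] :
    ∃ (T' : Type) (_ : CommRing T') (_ : IsLocalRing T') (_ : Algebra 𝒪 T')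
      (_ : Module.Finite 𝒪 T') (_ : Module.Free 𝒪 T')
      (π' : ↥(heckeAlgebra (Y.rt.N * q * q) 2 (↑S0 : Set ℕ)) →+* T')
      (πO' : T' →ₐ[𝒪] 𝒪) (f₀ : Matrix (Fin 2) (Fin 2) 𝒪),
      Algebra.adjoin 𝒪 (Set.range π') = ⊤ ∧
      (∀ (ℓ : ℕ) (hℓ : ℓ.Prime) (hℓN' : ¬ ℓ ∣ Y.rt.N * q * q) (hℓS' : ℓ ∉ (↑S0 : Set ℕ)),
        πO' (π' (heckeAlgebra.T hℓ hℓN' hℓS')) = lam ⟨ℓ, hℓ⟩) ∧
      (∀ Pq : ValuationSubring Qb, Pq.LiesOverPrime q →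
        ∀ φ : GQ, Pq.IsFrobeniusAt φ q → f₀.trace = Y.πO (Y.rt.ρT.trace φ)) ∧
      wilesFactor f₀ ((q : ℕ) : 𝒪) ≠ 0 ∧
      Y.w * Nat.card (𝒪 ⧸ Ideal.span {wilesFactor f₀ ((q : ℕ) : 𝒪)}) ^ d
        ≤ omegaCard (Y.rt.N * q * q) 𝒪 (lamAt lam (insert q Sg)) ∧
      omegaCard (Y.rt.N * q * q) 𝒪 (lamAt lam (insert q Sg)) ≤ etaCard πO' ^ d := by
  have hp : p.Prime := Fact.out
  have hd0 : d ≠ 0 := by omega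
  have hSg₂ : ∀ x ∈ Sg, x.Prime ∧ ¬ x ∣ M := fun x hx => ⟨(hSg x hx).1, (hSg x hx).2.1⟩
  have hSg' : ∀ x ∈ insert q Sg, x.Prime ∧ ¬ x ∣ M := by
    intro x hx
    rcases Finset.mem_insert.mp hx with rfl | h
    · exact ⟨hq, hqM⟩
    · exact hSg₂ x h
  have hSgp' : ∀ x ∈ insert q Sg, x ≠ p := by
    intro x hx
    rcases Finset.mem_insert.mp hx with rfl | h
    · exact hqp
    · exact (hSg x h).2.2
  have hN' : Y.rt.N * q * q = M * ∏ x ∈ insert q Sg, x ^ 2 := by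
    rw [hYN]
    exact (lev_insert' hqS).symm
  have hbad : ∀ b : Nat.Primes, (b : ℕ) ∈ S0 → (b : ℕ) ∉ insert q Sg →
      ¬ (b : ℕ) ∣ M ∨ ((b : ℕ) ∣ M ∧ ¬ (b : ℕ) ^ 2 ∣ M ∧ NonOccAt 𝒪 S0 b lam) := by
    intro b _ _
    by_cases hbM : (b : ℕ) ∣ M
    · refine Or.inr ⟨hbM, fun h => ?_, hno b hbM⟩
      have h2 : (b : ℕ) * (b : ℕ) ∣ M := by rwa [← sq]
      exact b.2.one_lt.ne' (Nat.isUnit_iff.mp (hsq _ h2))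
    · exact Or.inl hbM
  exact exists_supplyFL_core Y p hp2 hp𝒪 hϖ hpϖ lam hne hd hbase Sg hSg₂ hq hqS hqM hqp hcq S0 hpS0
    hMS0 hSgS0 hYN hYS hYw hYχ (frobAt Y p hp𝒪 q S0 hYS.subset)
    (fun hst' _ => hold_of_stage hp hp𝒪 lam hd0 hbase (insert q Sg) S0 hN' hSg' hSgp' hMS0 hSgS0
      hbad hst')

/-- **The carrier + numerics of ONE step, flat case, abstract stage** — binders left: `hne`,
`hbase`, `hno`. -/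
theorem exists_supplyFL (Y : RTNum ρbar 𝒟 d) (p : ℕ) [Fact p.Prime] (hp2 : p ≠ 2)
    (hp𝒪 : (p : 𝒪) ∈ maximalIdeal 𝒪)
    {ϖ : 𝒪} (hϖ : Irreducible ϖ) (hpϖ : ∃ c : 𝒪, (p : 𝒪) = ϖ * c)
    {M : ℕ} [NeZero M] (hsq : Squarefree M) (lam : Nat.Primes → 𝒪)
    (hne : ∀ (F : Finset ℕ) (q : ℕ), q.Prime → ∃ l : Nat.Primes, (l : ℕ) ∉ F ∧
      (((l : ℕ) : ZMod q) = 1) ∧ IsUnit (lam l - (((l : ℕ) : 𝒪) + 1)))
    (hd : 2 ≤ d) (hbase : EtaStage M 𝒪 lam d)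
    (Sg : Finset ℕ) (hSg : ∀ x ∈ Sg, x.Prime ∧ ¬ x ∣ M ∧ x ≠ p)
    {q : ℕ} (hq : q.Prime) (hqS : q ∉ Sg) (hqM : ¬ q ∣ M) (hqp : q ≠ p)
    (S0 : Finset ℕ) (hpS0 : p ∈ S0) (hMS0 : ∀ r : ℕ, r.Prime → r ∣ M → r ∈ S0)
    (hSgS0 : ∀ x ∈ insert q Sg, x ∈ S0)
    (hno : ∀ b : Nat.Primes, (b : ℕ) ∣ M → NonOccAt 𝒪 S0 b lam)
    (hYN : Y.rt.N = M * ∏ x ∈ Sg, x ^ 2) (hYS : Y.rt.S = (↑S0 : Set ℕ))
    (hYw : Y.w = omegaCard Y.rt.N 𝒪 (lamAt lam Sg))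
    (hYχ : ∀ (ℓ : ℕ) (hℓ : ℓ.Prime) (hℓN : ¬ ℓ ∣ Y.rt.N) (hℓS : ℓ ∉ Y.rt.S),
      pointChar Y (heckeAlgebra.T hℓ hℓN hℓS) = lam ⟨ℓ, hℓ⟩)
    [NeZero (Y.rt.N * q * q)] :
    ∃ (T' : Type) (_ : CommRing T') (_ : IsLocalRing T') (_ : Algebra 𝒪 T')
      (_ : Module.Finite 𝒪 T') (_ : Module.Free 𝒪 T')
      (π' : ↥(heckeAlgebra (Y.rt.N * q * q) 2 (↑S0 : Set ℕ)) →+* T')
      (πO' : T' →ₐ[𝒪] 𝒪) (f₀ : Matrix (Fin 2) (Fin 2) 𝒪),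
      Algebra.adjoin 𝒪 (Set.range π') = ⊤ ∧
      (∀ (ℓ : ℕ) (hℓ : ℓ.Prime) (hℓN' : ¬ ℓ ∣ Y.rt.N * q * q) (hℓS' : ℓ ∉ (↑S0 : Set ℕ)),
        πO' (π' (heckeAlgebra.T hℓ hℓN' hℓS')) = lam ⟨ℓ, hℓ⟩) ∧
      (∀ Pq : ValuationSubring Qb, Pq.LiesOverPrime q →
        ∀ φ : GQ, Pq.IsFrobeniusAt φ q → f₀.trace = Y.πO (Y.rt.ρT.trace φ)) ∧
      wilesFactor f₀ ((q : ℕ) : 𝒪) ≠ 0 ∧
      Y.w * Nat.card (𝒪 ⧸ Ideal.span {wilesFactor f₀ ((q : ℕ) : 𝒪)}) ^ d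
        ≤ omegaCard (Y.rt.N * q * q) 𝒪 (lamAt lam (insert q Sg)) ∧
      omegaCard (Y.rt.N * q * q) 𝒪 (lamAt lam (insert q Sg)) ≤ etaCard πO' ^ d := by
  have hd0 : d ≠ 0 := by omega
  refine exists_supplyFL_hcq Y p hp2 hp𝒪 hϖ hpϖ hsq lam hne hd hbase Sg hSg hq hqS hqM hqp ?_ S0
    hpS0 hMS0 hSgS0 hno hYN hYS hYw hYχ
  intro x hx hxS
  refine cq_ne_zero_of_etaStage lam hd0 hbase x hx ?_
  rcases Finset.mem_insert.mp hxS with rfl | h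
  · exact hqM
  · exact (hSg x h).2.1

end Fermat.Agent.GE9.Stage.SupplyFrob

end
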