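/-
GATE-E / GE9-STAGE-CARRIER (helper73), file 3: **the stage carrier with its FAITHFULNESS clause** —
what the strict-ordinary step (`GE9/Stage/RawSO`, binder `hann`) needs beyond `CarrierAbs` /
`CarrierLam`: the carrier `T'` is the IMAGE ring of `𝒪 ⊗ A` on the `𝔪`-local part, so an element of
`𝒪 ⊗ A` which kills the local part dies in `T'`.

* `liftO π' : 𝒪 ⊗[ℤ] A →ₐ[𝒪] T'` : the `𝒪`-linear extension of `π' : A →+* T'` — the SAME body as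
  `GB/B10/L/GalPkgSO.twO` (so `GalPkgSO.twO π' = liftO π'` by `rfl`; this file does not import the
  `GB/B10` closure); `liftO_tmul`, `liftO_chi : liftO (chi 𝒪 θ tw) = mkQ 𝒪 θ tw`;
* **`exists_carrier_faith`** : `CarrierAbs.exists_carrier` + the conjunct
  `∀ a : 𝒪 ⊗ A, (∀ x ∈ locPart 𝔪 M, iotaO ι a • x = 0) → liftO π' a = 0`;
* `actO N 𝒪 S : 𝒪 ⊗[ℤ] heckeAlgebra N 2 S →ₐ[𝒪] End_𝒪 (𝒪 ⊗ Lam N)` : the action of the anemic algebra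
  over `𝒪` on the lattice (`actO_tmul : actO (c ⊗ t) = c • (latAct N S t).baseChange 𝒪`; it is
  `(levelData p N hpS hNS).heckeTensor 𝒪` of `GB/B10/KumLevelHecke`);
* **`exists_carrier_lam_faith`** : `CarrierLam.exists_carrier_lam` + the conjunct
  `∀ t₀, (∀ x ∈ locPart (mLam N 𝒪 lam) (𝒪 ⊗ Lam N), actO N 𝒪 S t₀ x = 0) → liftO π' t₀ = 0`.
-/
import Mathlib
import Fermat.Agent.GE9.Stage.CarrierLam

set_option autoImplicit false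
set_option linter.unusedSectionVars false
set_option linter.style.haveILetI false

noncomputable section

namespace Fermat.Agent.GE9.Stage.CarrierFaith

open TensorProduct IsLocalRing Submodule CuspForm
open Fermat.Agent.GJ.J2.Lat Fermat.Agent.GJ.J2.LatAct Fermat.Agent.GB.B3.Loc
  Fermat.Agent.GB.B4.Datum.ImageRing Fermat.Agent.GB.B4.Datum.Carrier
  Fermat.Agent.GE9.Eta Fermat.Agent.GE9.Eta.Loc
  Fermat.Agent.GE9.Eta.Mod Fermat.Agent.GE9.Mult1 Fermat.Agent.GE9.NumCrit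
  Fermat.Agent.GE9.NumCrit.ModForm Fermat.Agent.GE9.Ind
  Fermat.Agent.GE9.Stage.CarrierAbs Fermat.Agent.GE9.Stage.CarrierLam

/-! ### the `𝒪`-linear extension of a ring hom -/

section LiftO

variable {𝒪 : Type} [CommRing 𝒪] {A : Type} [CommRing A] {T' : Type} [CommRing T'] [Algebra 𝒪 T']

/-- the `𝒪`-linear extension `𝒪 ⊗ A →ₐ[𝒪] T'` of a ring hom `A →+* T'` (the body of
`GB/B10/L/GalPkgSO.twO`). -/
def liftO (tw : A →+* T') : 𝒪 ⊗[ℤ] A →ₐ[𝒪] T' :=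
  Algebra.TensorProduct.lift (Algebra.ofId 𝒪 T') tw.toIntAlgHom (fun _ _ => Commute.all _ _)

theorem liftO_tmul (tw : A →+* T') (r : 𝒪) (t : A) :
    liftO (𝒪 := 𝒪) tw (r ⊗ₜ[ℤ] t) = algebraMap 𝒪 T' r * tw t := by
  rw [liftO, Algebra.TensorProduct.lift_tmul]
  rfl

end LiftO

section Chi

variable {𝒪 : Type} [CommRing 𝒪] [IsLocalRing 𝒪] {A : Type} [CommRing A]
  {M : Type} [AddCommGroup M] [Module 𝒪 M]

/-- for the image ring, the extension of `chi` is the quotient map -/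
theorem liftO_chi (θ : A →+* ResidueField 𝒪) (tw : A →+* Module.End 𝒪 M) :
    liftO (𝒪 := 𝒪) (chi 𝒪 θ tw) = mkQ 𝒪 θ tw := by
  apply Algebra.TensorProduct.ext'
  intro x t
  rw [liftO_tmul, mkQ_tmul, Algebra.smul_def]

end Chi

/-! ### the abstract carrier -/

section Carrier

variable {𝒪 : Type} [CommRing 𝒪] [IsDomain 𝒪] [IsDiscreteValuationRing 𝒪]
  [IsAdicComplete (maximalIdeal 𝒪) 𝒪] [Finite (ResidueField 𝒪)] [CharZero 𝒪]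
  {Af : Type} [CommRing Af] [Algebra 𝒪 Af] (𝔪 : Ideal Af) [𝔪.IsMaximal]
  {M : Type} [AddCommGroup M] [Module 𝒪 M] [Module Af M] [IsScalarTower 𝒪 Af M]
  [Module.Finite 𝒪 M] [Module.Free 𝒪 M]
  {A : Type} [CommRing A] [IsReduced A] [Module.Finite ℤ A] (ι : A →+* Af)

/-- **The stage carrier with its faithfulness clause**: `CarrierAbs.exists_carrier` (same proof)
and: an element of `𝒪 ⊗ A` killing the `𝔪`-local part dies in the carrier. -/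
theorem exists_carrier_faith (B : M →ₗ[𝒪] M →ₗ[𝒪] 𝒪) (hperf : Perfect B)
    (hsa : ∀ (a : Af) (x y : M), B (a • x) y = B x (a • y))
    {d : ℕ} (hd : d ≠ 0) (b : Fin d → M) (hli : LinearIndependent 𝒪 b)
    (χ : Af → 𝒪) (hb : ∀ (a : Af) (i : Fin d), a • b i = χ a • b i)
    (h𝔪 : ∀ a : Af, a ∉ 𝔪 → IsUnit (χ a))
    (hold : ∀ x ∈ locPart 𝔪 M, (∀ t : A, ι t • x = χ (ι t) • x) →
      x ∈ span 𝒪 (Set.range b)) :
    ∃ (T' : Type) (_ : CommRing T') (_ : IsLocalRing T') (_ : Algebra 𝒪 T')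
      (_ : Module.Finite 𝒪 T') (_ : Module.Free 𝒪 T') (π' : A →+* T') (πO' : T' →ₐ[𝒪] 𝒪),
      Algebra.adjoin 𝒪 (Set.range π') = ⊤ ∧ (∀ t : A, πO' (π' t) = χ (ι t)) ∧
      etaIdeal πO' ≠ ⊥ ∧
      Nat.card (CongMod B (span 𝒪 (Set.range b))) ≤ etaCard πO' ^ d ∧
      (∀ a : 𝒪 ⊗[ℤ] A, (∀ x ∈ locPart 𝔪 M, iotaO ι a • x = 0) → liftO (𝒪 := 𝒪) π' a = 0) := by
  classical
  set i0 : Fin d := ⟨0, Nat.pos_of_ne_zero hd⟩ with hi0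
  have hx0 : b i0 ≠ 0 := hli.ne_zero i0
  set χA : Af →ₐ[𝒪] 𝒪 := eigenChar χ hx0 (fun a => hb a i0) with hχA
  have hχAχ : ∀ a, χA a = χ a := fun _ => rfl
  have hbL : ∀ i, b i ∈ locPart 𝔪 M := fun i =>
    mem_locPart_of_eigen 𝔪 χ h𝔪 (fun a => hb a i)
  set bL : Fin d → locPart 𝔪 M := fun i => ⟨b i, hbL i⟩ with hbLdef
  haveI : Module.Finite 𝒪 (locPart 𝔪 M) := finite_locPart 𝒪 𝔪
  haveI : Module.Free 𝒪 (locPart 𝔪 M) := free_locPart 𝒪 𝔪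
  haveI : Nontrivial (locPart 𝔪 M) :=
    ⟨⟨bL i0, 0, fun h => hx0 (congrArg Subtype.val h)⟩⟩
  have hloc : LocHyp 𝒪 (thetaRes ι χA) (twLoc (𝒪 := 𝒪) (M := M) 𝔪 ι) := locHyp 𝔪 ι χA h𝔪
  haveI : Fact (LocHyp 𝒪 (thetaRes ι χA) (twLoc (𝒪 := 𝒪) (M := M) 𝔪 ι)) := ⟨hloc⟩
  -- the point
  set χO : 𝒪 ⊗[ℤ] A →ₐ[𝒪] 𝒪 := χA.comp (iotaO ι) with hχO
  have hker : ∀ a ∈ RingHom.ker (twO 𝒪 (twLoc (𝒪 := 𝒪) (M := M) 𝔪 ι)), χO a = 0 := by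
    intro a ha
    rw [RingHom.mem_ker, twO_twLoc] at ha
    have h1 : iotaO ι a • b i0 = 0 := by
      have h2 := congrArg (fun f : Module.End 𝒪 (locPart 𝔪 M) =>
        ((f (bL i0) : locPart 𝔪 M) : M)) ha
      simpa [actAf_apply] using h2
    rw [hb, smul_eq_zero] at h1
    exact h1.resolve_right hx0
  let πO' : TQ 𝒪 (thetaRes ι χA) (twLoc (𝒪 := 𝒪) (M := M) 𝔪 ι) →ₐ[𝒪] 𝒪 :=
    Ideal.Quotient.liftₐ (RingHom.ker (twO 𝒪 (twLoc (𝒪 := 𝒪) (M := M) 𝔪 ι))) χO hker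
  have hπO'mk : ∀ a, πO' (mkQ 𝒪 (thetaRes ι χA) (twLoc (𝒪 := 𝒪) (M := M) 𝔪 ι) a) = χO a :=
    fun _ => rfl
  have hpt : ∀ t : A, πO' (chi 𝒪 (thetaRes ι χA) (twLoc (𝒪 := 𝒪) (M := M) 𝔪 ι) t) = χ (ι t) := by
    intro t
    rw [chi_apply, hπO'mk, hχO, AlgHom.comp_apply, iotaO_tmul, one_smul, hχAχ]
  have hgen := adjoin_range_chi 𝒪 (thetaRes ι χA) (twLoc (𝒪 := 𝒪) (M := M) 𝔪 ι)
  -- reducedness and `η ≠ 0`
  haveI : IsReduced (TQ 𝒪 (thetaRes ι χA) (twLoc (𝒪 := 𝒪) (M := M) 𝔪 ι)) :=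
    Fermat.Agent.GS.Pet.DatumAlg.isReduced_of_adjoin_range (O := 𝒪) _ hgen
  have hη : etaIdeal πO' ≠ ⊥ := etaIdeal_ne_bot_of_finite πO'
  haveI : Finite (𝒪 ⧸ etaIdeal πO') := finite_quotient_of_ne_bot _ hη
  -- the module structure of the local part over the carrier
  letI modT : Module (TQ 𝒪 (thetaRes ι χA) (twLoc (𝒪 := 𝒪) (M := M) 𝔪 ι)) (locPart 𝔪 M) :=
    Module.compHom _ (act 𝒪 (thetaRes ι χA) (twLoc (𝒪 := 𝒪) (M := M) 𝔪 ι)).toRingHom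
  have hsmul : ∀ (a : 𝒪 ⊗[ℤ] A) (x : locPart 𝔪 M),
      (mkQ 𝒪 (thetaRes ι χA) (twLoc (𝒪 := 𝒪) (M := M) 𝔪 ι) a) • x = iotaO ι a • x := by
    intro a x
    show act 𝒪 (thetaRes ι χA) (twLoc (𝒪 := 𝒪) (M := M) 𝔪 ι) (mkQ 𝒪 _ _ a) x = _
    rw [act_mkQ, twO_twLoc]
    rfl
  haveI : IsScalarTower 𝒪 (TQ 𝒪 (thetaRes ι χA) (twLoc (𝒪 := 𝒪) (M := M) 𝔪 ι))
      (locPart 𝔪 M) := ⟨fun c t x => by
    show act 𝒪 (thetaRes ι χA) (twLoc (𝒪 := 𝒪) (M := M) 𝔪 ι) (c • t) x =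
      c • act 𝒪 (thetaRes ι χA) (twLoc (𝒪 := 𝒪) (M := M) 𝔪 ι) t x
    rw [map_smul]
    rfl⟩
  -- the binders of `stage_binders`
  have hperfL := perfect_BLoc 𝔪 B hsa hperf
  have hadj : ∀ (t : TQ 𝒪 (thetaRes ι χA) (twLoc (𝒪 := 𝒪) (M := M) 𝔪 ι))
      (x y : locPart 𝔪 M), BLoc 𝔪 B (t • x) y = BLoc 𝔪 B x (t • y) := by
    intro t x y
    obtain ⟨a, rfl⟩ := mkQ_surjective 𝒪 (thetaRes ι χA) (twLoc (𝒪 := 𝒪) (M := M) 𝔪 ι) t
    rw [hsmul, hsmul]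
    exact BLoc_selfAdjoint 𝔪 B hsa _ x y
  have hliL : LinearIndependent 𝒪 bL :=
    LinearIndependent.of_comp ((locPart 𝔪 M).subtype.restrictScalars 𝒪) hli
  have hspan : span 𝒪 (Set.range bL) = torPO πO' (locPart 𝔪 M) := by
    apply le_antisymm
    · rw [Submodule.span_le]
      rintro _ ⟨i, rfl⟩
      show bL i ∈ torP πO' (locPart 𝔪 M)
      intro t ht
      obtain ⟨a, rfl⟩ := mkQ_surjective 𝒪 (thetaRes ι χA) (twLoc (𝒪 := 𝒪) (M := M) 𝔪 ι) t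
      rw [hsmul]
      apply Subtype.ext
      show iotaO ι a • b i = 0
      rw [hb, ← hχAχ]
      rw [hπO'mk] at ht
      have : χA (iotaO ι a) = 0 := ht
      rw [this, zero_smul]
    · intro x hx
      have hx' : ∀ t : A, ι t • (x : M) = χ (ι t) • (x : M) := by
        intro t
        have h1 := smul_eq_of_mem_torP πO' (L := locPart 𝔪 M) hx
          (chi 𝒪 (thetaRes ι χA) (twLoc (𝒪 := 𝒪) (M := M) 𝔪 ι) t)
        rw [hpt, chi_apply, hsmul, iotaO_tmul, one_smul] at h1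
        exact congrArg Subtype.val h1
      have h2 := hold (x : M) x.2 hx'
      have h3 : span 𝒪 (Set.range b) =
          (span 𝒪 (Set.range bL)).map ((locPart 𝔪 M).subtype.restrictScalars 𝒪) := by
        rw [Submodule.map_span, ← Set.range_comp]
        rfl
      rw [h3] at h2
      obtain ⟨y, hy, hyx⟩ := h2
      have : y = x := Subtype.ext hyx
      rwa [← this]
  have hM1 := (stage_binders (π := πO') (BLoc 𝔪 B) hperfL hadj hη bL hliL hspan).1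
  rw [← Fermat.Agent.GE9.Eta.OmegaLoc.card_congMod_of_mem_locPart 𝔪 B hsa b hbL] at hM1
  refine ⟨TQ 𝒪 (thetaRes ι χA) (twLoc (𝒪 := 𝒪) (M := M) 𝔪 ι), inferInstance, inferInstance,
    inferInstance, inferInstance, inferInstance, chi 𝒪 _ _, πO', hgen, hpt, hη, hM1, ?_⟩
  intro a ha
  rw [liftO_chi, mkQ_eq_zero_iff, twO_twLoc]
  apply LinearMap.ext
  intro x
  apply Subtype.ext
  rw [actAf_apply, LinearMap.zero_apply]
  exact ha x x.2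

end Carrier

/-! ### the carrier at `𝒪 ⊗ Lam N` -/

section ActO

variable (N : ℕ) [NeZero N] (𝒪 : Type) [CommRing 𝒪] (S : Set ℕ)

/-- the action of the anemic Hecke algebra over `𝒪` on `𝒪 ⊗ Lam N` -/
def actO : 𝒪 ⊗[ℤ] ↥(heckeAlgebra N 2 S) →ₐ[𝒪] Module.End 𝒪 (𝒪 ⊗[ℤ] Lam N) :=
  (actFull N 𝒪).comp (iotaO (𝒪 := 𝒪) (iotaLam N 𝒪 S))

theorem actO_apply (a : 𝒪 ⊗[ℤ] ↥(heckeAlgebra N 2 S)) (x : 𝒪 ⊗[ℤ] Lam N) :
    actO N 𝒪 S a x = iotaO (𝒪 := 𝒪) (iotaLam N 𝒪 S) a • x := rfl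

theorem actO_tmul [IsLocalRing 𝒪] (c : 𝒪) (t : ↥(heckeAlgebra N 2 S)) (x : 𝒪 ⊗[ℤ] Lam N) :
    actO N 𝒪 S (c ⊗ₜ[ℤ] t) x = c • (latAct N S t).baseChange 𝒪 x := by
  rw [actO_apply, iotaO_tmul, smul_assoc, iotaLam_smul]

end ActO

section CarrierLam

variable {N : ℕ} [NeZero N] {𝒪 : Type} [CommRing 𝒪] [IsDomain 𝒪] [IsDiscreteValuationRing 𝒪]
  [IsAdicComplete (maximalIdeal 𝒪) 𝒪] [Finite (ResidueField 𝒪)] [CharZero 𝒪]

/-- **The stage carrier at `𝒪 ⊗ Lam N` with its faithfulness clause**: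
`CarrierLam.exists_carrier_lam` (same proof) and: an element of `𝒪 ⊗ heckeAlgebra N 2 S` killing the
`𝔪_full`-local part of `𝒪 ⊗ Lam N` dies in the carrier. -/
theorem exists_carrier_lam_faith (S : Set ℕ) (hNS : ∀ r : ℕ, r.Prime → r ∣ N → r ∈ S)
    (lam : Nat.Primes → 𝒪) {d : ℕ} (hd : d ≠ 0) (hst : EtaStage N 𝒪 lam d)
    [(mLam N 𝒪 lam).IsMaximal]
    (hold : ∀ x ∈ locPart (mLam N 𝒪 lam) (𝒪 ⊗[ℤ] Lam N),
      (∀ (ℓ : ℕ) (hℓ : ℓ.Prime), ¬ ℓ ∣ N → ℓ ∉ S →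
        (latT N (⟨ℓ, hℓ⟩ : Nat.Primes)).baseChange 𝒪 x = lam ⟨ℓ, hℓ⟩ • x) →
      x ∈ eigenTensorO N 𝒪 lam) :
    ∃ (T' : Type) (_ : CommRing T') (_ : IsLocalRing T') (_ : Algebra 𝒪 T')
      (_ : Module.Finite 𝒪 T') (_ : Module.Free 𝒪 T')
      (π' : ↥(heckeAlgebra N 2 S) →+* T') (πO' : T' →ₐ[𝒪] 𝒪),
      Algebra.adjoin 𝒪 (Set.range π') = ⊤ ∧
      (∀ (ℓ : ℕ) (hℓ : ℓ.Prime) (hℓN : ¬ ℓ ∣ N) (hℓS : ℓ ∉ S),
        πO' (π' (heckeAlgebra.T hℓ hℓN hℓS)) = lam ⟨ℓ, hℓ⟩) ∧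
      etaIdeal πO' ≠ ⊥ ∧ omegaCard N 𝒪 lam ≤ etaCard πO' ^ d ∧
      (∀ t₀ : 𝒪 ⊗[ℤ] ↥(heckeAlgebra N 2 S),
        (∀ x ∈ locPart (mLam N 𝒪 lam) (𝒪 ⊗[ℤ] Lam N), actO N 𝒪 S t₀ x = 0) →
          liftO (𝒪 := 𝒪) π' t₀ = 0) := by
  obtain ⟨b, hli, hspan, -, -, hcard⟩ := hst.binders
  have hfin := finite_tensor_lam (O := 𝒪) N
  have hfree := free_tensor_lam (O := 𝒪) N
  haveI : IsReduced ↥(heckeAlgebra N 2 S) :=
    Fermat.Agent.GS.Pet.isReduced_heckeAlgebra N 2 S hNS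
  set i0 : Fin d := ⟨0, Nat.pos_of_ne_zero hd⟩ with hi0
  have hx0 : b i0 ≠ 0 := hli.ne_zero i0
  have hbP : ∀ i, b i ∈ eigenTensorO N 𝒪 lam := fun i => by
    rw [← hspan]
    exact subset_span ⟨i, rfl⟩
  obtain ⟨T', i1, i2, i3, i4, i5, π', πO', hgen, hpt, hη, hM1, hfaith⟩ :=
    exists_carrier_faith (mLam N 𝒪 lam) (iotaLam N 𝒪 S) (BW N 𝒪) (perfect_BW N 𝒪) (BW_smul N 𝒪) hd b hli
      (chiLam N 𝒪 lam) (fun a i => chiLam_spec N 𝒪 lam a (hbP i))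
      (fun a ha => (notMem_mLam_iff (hbP i0) hx0 a).mp ha)
      (fun x hx hxe => by
        rw [hspan]
        refine hold x hx fun ℓ hℓ hℓN hℓS => ?_
        have h1 := hxe (heckeAlgebra.T hℓ hℓN hℓS)
        rw [iotaLam_T_smul] at h1
        rw [h1]
        congr 1
        refine chiLam_eq_of_smul (hbP i0) hx0 _ ?_
        rw [iotaLam_T_smul]
        exact mem_eigenTensorO.mp (hbP i0) _)
  refine ⟨T', i1, i2, i3, i4, i5, π', πO', hgen, fun ℓ hℓ hℓN hℓS => ?_, hη, ?_,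
    fun t₀ h => hfaith t₀ h⟩
  · rw [hpt]
    refine chiLam_eq_of_smul (hbP i0) hx0 _ ?_
    rw [iotaLam_T_smul]
    exact mem_eigenTensorO.mp (hbP i0) _
  · rw [← hcard]
    exact hM1

end CarrierLam

end Fermat.Agent.GE9.Stage.CarrierFaith

end
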