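/-
GATE-E / GE9-STAGE (helper73): **the carrier + numerics of ONE step of the induction over `Σ`,
STRICT-ORDINARY case, branch (a) (`p ∥ M`, très ramifiée), for an ABSTRACT stage** — the `Pkg`-free
body of helper33's `GE/Engine/StepSO.StepSupplySO`, SO twin of `Supply` / `SupplyHold` / `SupplyFrob`.

The carrier is the SAME as in the flat case (the image ring of the anemic algebra on the
`𝔪_full`-local part of the FULL lattice `𝒪 ⊗ Lam N'`; `GE9/Eta/Chain` has no hypothesis `p ∤ M`), at a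
level literal `N'` with `N' = M ∏_{x ∈ insert q Sg} x²` (`N' := N₀ * p` for `RawSO`).  New w.r.t. the
flat case: the `p`-NEW clause `hann` — a Hecke operator killing the `p`-new lattice dies in the
carrier — from `CarrierFaith.exists_carrier_lam_faith` and the binder

  `hnew` : the `𝔪_full`-local part of `𝒪 ⊗ Lam (N₀ * p)` is killed by `(cores, cores_δ) ⊗ 𝒪`
           (`ρ̄` does not occur at the level `N₀`),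

by flat base change of the kernel (helper50's `UqSqOmega.exists_of_baseChange_eq_zero`).

* `exists_supply_gen` : `Supply.exists_supplyFL_core` at ANY level literal `N'`, with the
  faithfulness clause of the carrier;
* `actO_eq_zero_of_ker` : an operator killing `𝒪 ⊗ ker f` kills `ker (f ⊗ 𝒪)`;
* **`exists_supplySO_core`** : the supply at the level `N₀ * p`, `hann` in the `betaP`-kernel form
  (`LamNew hpN₀ = ker (betaP ℤ hpN₀)`, `levelData.heckeTensor = actO`: the VERBATIM form of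
  `StepSupplySO` is a thin plug over `GB/B10`, file `SupplySOPlug`), binders `hcq hfrob hold hnew`;
* **`exists_supplySO`** : `hold` from `SupplyHold.hold_of_stage` (helper63), binders
  `hne hbase hcq hno hfrob hnew`; `hno` now includes `b = p` (`NonOccAt 𝒪 S0 ⟨p, _⟩ lam`: no anemic
  eigenform of a level prime to `p` has the system of `ρ̄` — très ramifiée).
-/
import Mathlib
import Fermat.Agent.GE9.Stage.SupplyHold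
import Fermat.Agent.GE9.Stage.CarrierFaith
import Fermat.Agent.GE9.PNew.UqSqOmega

set_option autoImplicit false
set_option linter.unusedSectionVars false
set_option linter.unusedVariables false
set_option linter.style.haveILetI false

noncomputable section

namespace Fermat.Agent.GE9.Stage.SupplySO

open TensorProduct IsLocalRing Submodule CuspForm
open Fermat.Agent.GJ.J2.Lat Fermat.Agent.GJ.J2.LatAct Fermat.Agent.GB.B3.Loc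
open Fermat.Agent.GE.Graph Fermat.Agent.GE9.Ind Fermat.Agent.GE9.Asm Fermat.Agent.GE9.NumCrit
  Fermat.Agent.GE9.TanGrow
open Fermat.Agent.GE9.Eta Fermat.Agent.GE9.Eta.Mod Fermat.Agent.GE9.Eta.Chain
  Fermat.Agent.GE9.Mult1 Fermat.Agent.GE.Engine.LevArith
open Fermat.Agent.GE9.Stage.CarrierLam Fermat.Agent.GE9.Stage.CarrierFaith
  Fermat.Agent.GE9.Stage.Supply Fermat.Agent.GE9.Stage.SupplyHold
  Fermat.Agent.GE9.OldQ.Consumer Fermat.Agent.GM.B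

local notation "GQ" => (AlgebraicClosure ℚ ≃ₐ[ℚ] AlgebraicClosure ℚ)
local notation "Qb" => AlgebraicClosure ℚ

section Gen

variable {𝒪 : Type} [CommRing 𝒪] [IsDomain 𝒪] [IsDiscreteValuationRing 𝒪]
  [IsAdicComplete (maximalIdeal 𝒪) 𝒪] [Finite (ResidueField 𝒪)] [CharZero 𝒪]
  {ρbar : ResidualGaloisRep (ResidueField 𝒪)} {𝒟 : DefCondE 𝒪} {d : ℕ}

/-- **`Supply.exists_supplyFL_core` at ANY level literal `N' = M ∏_{x ∈ insert q Sg} x²`, with the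
faithfulness clause of the carrier** (same proof). -/
theorem exists_supply_gen (Y : RTNum ρbar 𝒟 d) (p : ℕ) [Fact p.Prime] (hp2 : p ≠ 2)
    (hp𝒪 : (p : 𝒪) ∈ maximalIdeal 𝒪)
    {ϖ : 𝒪} (hϖ : Irreducible ϖ) (hpϖ : ∃ c : 𝒪, (p : 𝒪) = ϖ * c)
    {M : ℕ} [NeZero M] (lam : Nat.Primes → 𝒪)
    (hne : ∀ (F : Finset ℕ) (q : ℕ), q.Prime → ∃ l : Nat.Primes, (l : ℕ) ∉ F ∧
      (((l : ℕ) : ZMod q) = 1) ∧ IsUnit (lam l - (((l : ℕ) : 𝒪) + 1)))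
    (hd : 2 ≤ d) (hbase : EtaStage M 𝒪 lam d)
    (Sg : Finset ℕ) (hSg : ∀ x ∈ Sg, x.Prime ∧ ¬ x ∣ M)
    {q : ℕ} (hq : q.Prime) (hqS : q ∉ Sg) (hqM : ¬ q ∣ M) (hqp : q ≠ p)
    (hcq : ∀ (x : ℕ) (hx : x.Prime), x ∈ insert q Sg →
      (((x : ℕ) : 𝒪) - 1) * ((1 + ((x : ℕ) : 𝒪)) ^ 2 - lam (⟨x, hx⟩ : Nat.Primes) ^ 2) ≠ 0)
    (S0 : Finset ℕ) (hpS0 : p ∈ S0) (hMS0 : ∀ r : ℕ, r.Prime → r ∣ M → r ∈ S0)
    (hSgS0 : ∀ x ∈ insert q Sg, x ∈ S0)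
    (hYN : Y.rt.N = M * ∏ x ∈ Sg, x ^ 2) (hYS : Y.rt.S = (↑S0 : Set ℕ))
    (hYw : Y.w = omegaCard Y.rt.N 𝒪 (lamAt lam Sg))
    (hYχ : ∀ (ℓ : ℕ) (hℓ : ℓ.Prime) (hℓN : ¬ ℓ ∣ Y.rt.N) (hℓS : ℓ ∉ Y.rt.S),
      pointChar Y (heckeAlgebra.T hℓ hℓN hℓS) = lam ⟨ℓ, hℓ⟩)
    (N' : ℕ) [NeZero N'] (hN' : N' = M * ∏ x ∈ insert q Sg, x ^ 2) (hfrob : FrobAt Y p q)
    (hold : EtaStage N' 𝒪 (lamAt lam (insert q Sg)) d →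
      ∀ [(mLam N' 𝒪 (lamAt lam (insert q Sg))).IsMaximal],
      ∀ x ∈ locPart (mLam N' 𝒪 (lamAt lam (insert q Sg)))
          (𝒪 ⊗[ℤ] Lam N'),
        (∀ (ℓ : ℕ) (hℓ : ℓ.Prime), ¬ ℓ ∣ N' → ℓ ∉ (↑S0 : Set ℕ) →
          (latT N' (⟨ℓ, hℓ⟩ : Nat.Primes)).baseChange 𝒪 x
            = lamAt lam (insert q Sg) ⟨ℓ, hℓ⟩ • x) →
        x ∈ eigenTensorO N' 𝒪 (lamAt lam (insert q Sg))) :
    ∃ (T' : Type) (_ : CommRing T') (_ : IsLocalRing T') (_ : Algebra 𝒪 T')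
      (_ : Module.Finite 𝒪 T') (_ : Module.Free 𝒪 T')
      (π' : ↥(heckeAlgebra N' 2 (↑S0 : Set ℕ)) →+* T')
      (πO' : T' →ₐ[𝒪] 𝒪) (f₀ : Matrix (Fin 2) (Fin 2) 𝒪),
      Algebra.adjoin 𝒪 (Set.range π') = ⊤ ∧
      (∀ [(mLam N' 𝒪 (lamAt lam (insert q Sg))).IsMaximal]
        (t₀ : 𝒪 ⊗[ℤ] ↥(heckeAlgebra N' 2 (↑S0 : Set ℕ))),
        (∀ x ∈ locPart (mLam N' 𝒪 (lamAt lam (insert q Sg))) (𝒪 ⊗[ℤ] Lam N'),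
          actO N' 𝒪 (↑S0 : Set ℕ) t₀ x = 0) → liftO (𝒪 := 𝒪) π' t₀ = 0) ∧
      (∀ (ℓ : ℕ) (hℓ : ℓ.Prime) (hℓN' : ¬ ℓ ∣ N') (hℓS' : ℓ ∉ (↑S0 : Set ℕ)),
        πO' (π' (heckeAlgebra.T hℓ hℓN' hℓS')) = lam ⟨ℓ, hℓ⟩) ∧
      (∀ Pq : ValuationSubring Qb, Pq.LiesOverPrime q →
        ∀ φ : GQ, Pq.IsFrobeniusAt φ q → f₀.trace = Y.πO (Y.rt.ρT.trace φ)) ∧
      wilesFactor f₀ ((q : ℕ) : 𝒪) ≠ 0 ∧
      Y.w * Nat.card (𝒪 ⧸ Ideal.span {wilesFactor f₀ ((q : ℕ) : 𝒪)}) ^ d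
        ≤ omegaCard N' 𝒪 (lamAt lam (insert q Sg)) ∧
      omegaCard N' 𝒪 (lamAt lam (insert q Sg)) ≤ etaCard πO' ^ d := by
  have hp : p.Prime := Fact.out
  have hd0 : d ≠ 0 := by omega
  have hSgP : ∀ x ∈ Sg, x.Prime := fun x hx => (hSg x hx).1
  have hSg' : ∀ x ∈ insert q Sg, x.Prime ∧ ¬ x ∣ M := by
    intro x hx
    rcases Finset.mem_insert.mp hx with rfl | h
    · exact ⟨hq, hqM⟩
    · exact hSg x h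
  have hSgP' : ∀ x ∈ insert q Sg, x.Prime := fun x hx => (hSg' x hx).1
  have hqN : ¬ q ∣ Y.rt.N := by
    rw [hYN]
    exact not_dvd_lev hSgP hq hqM hqS
  -- (a) the module side at the two levels
  have hst : EtaStage Y.rt.N 𝒪 (lamAt lam Sg) d :=
    etaStage_lev hp hp2 hϖ hpϖ lam hne hd hbase Sg hSg
      (fun x hx hxS => hcq x hx (Finset.mem_insert_of_mem hxS)) Y.rt.N hYN
  have hst' : EtaStage N' 𝒪 (lamAt lam (insert q Sg)) d :=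
    etaStage_lev hp hp2 hϖ hpϖ lam hne hd hbase (insert q Sg) hSg' hcq N' hN'
  -- the matrix `f₀`
  let f₀ : Matrix (Fin 2) (Fin 2) 𝒪 := !![lam (⟨q, hq⟩ : Nat.Primes), 0; 0, 0]
  have hf₀ : f₀.trace = lam (⟨q, hq⟩ : Nat.Primes) := by
    simp [f₀, Matrix.trace_fin_two]
  have hcf : wilesFactor f₀ ((q : ℕ) : 𝒪) ≠ 0 := by
    rw [wilesFactor, hf₀]
    exact hcq q hq (Finset.mem_insert_self _ _)
  have hgrow := omegaCard_lev_insert hp hp2 hϖ hpϖ lam hne hd hbase Sg hSg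
    (fun x hx hxS => hcq x hx (Finset.mem_insert_of_mem hxS)) hq hqS hqM f₀ hf₀ hcf
    Y.rt.N N' hYN hN'
  -- (b) the carrier of the next stage
  haveI hmax : (mLam N' 𝒪 (lamAt lam (insert q Sg))).IsMaximal :=
    isMaximal_mLam_of_etaStage _ hd0 hst'
  have hNS : ∀ r : ℕ, r.Prime → r ∣ N' → r ∈ (↑S0 : Set ℕ) := by
    intro r hr hrN
    rw [hN'] at hrN
    exact Finset.mem_coe.mpr (mem_S0_of_dvd_lev hSgP' hMS0 hSgS0 r hr hrN)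
  obtain ⟨T', i1, i2, i3, i4, i5, π', πO', hgen, hpt, hη, hM1, hfaith⟩ :=
    exists_carrier_lam_faith (↑S0 : Set ℕ) hNS (lamAt lam (insert q Sg)) hd0 hst' (hold hst')
  -- (c) the full-at-`q` eigensystem at the level of `Y`
  have hqS1 : q ∉ (↑((Y.rt.N).primeFactors ∪ {p}) : Set ℕ) := by
    intro h
    rcases Finset.mem_union.mp (Finset.mem_coe.mp h) with h | h
    · exact hqN (Nat.mem_primeFactors.mp h).2.1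
    · exact hqp (Finset.mem_singleton.mp h)
  obtain ⟨χ₁, hχ₁⟩ := exists_fullSystem (lamAt lam Sg) hd0 hst
    (↑((Y.rt.N).primeFactors ∪ {p}) : Set ℕ)
  have hlamSg : ∀ (ℓ : ℕ) (hℓ : ℓ.Prime), ¬ ℓ ∣ Y.rt.N →
      lamAt lam Sg ⟨ℓ, hℓ⟩ = lam ⟨ℓ, hℓ⟩ := by
    intro ℓ hℓ hℓN
    refine lamAt_of_notMem lam fun h => hℓN ?_
    rw [hYN]
    exact dvd_lev_of_mem h
  have hfrob : ∀ Pq : ValuationSubring Qb, Pq.LiesOverPrime q →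
      ∀ φ : GQ, Pq.IsFrobeniusAt φ q → f₀.trace = Y.πO (Y.rt.ρT.trace φ) := by
    intro Pq hPq φ hφ
    rw [hf₀, hfrob χ₁ ?_ hq hqN hqS1 Pq hPq φ hφ, hχ₁, hlamSg q hq hqN]
    intro ℓ hℓ hℓN hℓS hℓS1
    rw [hχ₁, hlamSg ℓ hℓ hℓN, ← hYχ ℓ hℓ hℓN hℓS]
    rfl
  refine ⟨T', i1, i2, i3, i4, i5, π', πO', f₀, hgen, fun {_} t₀ h => hfaith t₀ h,
    fun ℓ hℓ hℓN' hℓS' => ?_, hfrob, hcf, ?_, hM1⟩
  · rw [hpt]
    refine lamAt_of_notMem lam fun h => hℓN' ?_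
    rw [hN']
    exact dvd_lev_of_mem h
  · rw [hgrow, hYw]

end Gen

/-! ### operators killing `𝒪 ⊗ ker f` -/

section Ker

variable {N : ℕ} [NeZero N] {𝒪 : Type} [CommRing 𝒪] [IsDomain 𝒪] [CharZero 𝒪] {S : Set ℕ}
  {X' : Type*} [AddCommGroup X']

/-- an element of `𝒪 ⊗ heckeAlgebra` killing `a ⊗ x` for every `x ∈ ker f` kills `ker (f ⊗ 𝒪)`
(`𝒪` is flat over `ℤ`). -/
theorem actO_eq_zero_of_ker (f : Lam N →+ X') (t₀ : 𝒪 ⊗[ℤ] ↥(heckeAlgebra N 2 S))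
    (ht₀ : ∀ (a : 𝒪) (x : Lam N), f x = 0 → actO N 𝒪 S t₀ (a ⊗ₜ[ℤ] x) = 0)
    (y : 𝒪 ⊗[ℤ] Lam N) (hy : f.toIntLinearMap.baseChange 𝒪 y = 0) :
    actO N 𝒪 S t₀ y = 0 := by
  obtain ⟨w, rfl⟩ :=
    Fermat.Agent.GE9.PNew.UqSqOmega.exists_of_baseChange_eq_zero 𝒪 f.toIntLinearMap y hy
  clear hy
  induction w using TensorProduct.induction_on with
  | zero => rw [map_zero, map_zero]
  | tmul a x =>
    rw [LinearMap.baseChange_tmul]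
    exact ht₀ a x.1 x.2
  | add u v hu hv => rw [map_add, map_add, hu, hv, add_zero]

end Ker

section SO

variable {𝒪 : Type} [CommRing 𝒪] [IsDomain 𝒪] [IsDiscreteValuationRing 𝒪]
  [IsAdicComplete (maximalIdeal 𝒪) 𝒪] [Finite (ResidueField 𝒪)] [CharZero 𝒪]
  {ρbar : ResidualGaloisRep (ResidueField 𝒪)} {𝒟 : DefCondE 𝒪} {d : ℕ}

/-- **The carrier + numerics of ONE step, strict-ordinary case (a), abstract stage** (`hcq`,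
`hfrob`, `hold`, `hnew` as binders); the level of the next stage is `N₀ * p`. -/
theorem exists_supplySO_core (Y : RTNum ρbar 𝒟 d) (p : ℕ) [Fact p.Prime] (hp2 : p ≠ 2)
    (hp𝒪 : (p : 𝒪) ∈ maximalIdeal 𝒪)
    {ϖ : 𝒪} (hϖ : Irreducible ϖ) (hpϖ : ∃ c : 𝒪, (p : 𝒪) = ϖ * c)
    {M : ℕ} [NeZero M] (lam : Nat.Primes → 𝒪)
    (hne : ∀ (F : Finset ℕ) (q : ℕ), q.Prime → ∃ l : Nat.Primes, (l : ℕ) ∉ F ∧
      (((l : ℕ) : ZMod q) = 1) ∧ IsUnit (lam l - (((l : ℕ) : 𝒪) + 1)))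
    (hd : 2 ≤ d) (hbase : EtaStage M 𝒪 lam d)
    (Sg : Finset ℕ) (hSg : ∀ x ∈ Sg, x.Prime ∧ ¬ x ∣ M)
    {q : ℕ} (hq : q.Prime) (hqS : q ∉ Sg) (hqM : ¬ q ∣ M) (hqp : q ≠ p)
    (hcq : ∀ (x : ℕ) (hx : x.Prime), x ∈ insert q Sg →
      (((x : ℕ) : 𝒪) - 1) * ((1 + ((x : ℕ) : 𝒪)) ^ 2 - lam (⟨x, hx⟩ : Nat.Primes) ^ 2) ≠ 0)
    (S0 : Finset ℕ) (hpS0 : p ∈ S0) (hMS0 : ∀ r : ℕ, r.Prime → r ∣ M → r ∈ S0)
    (hSgS0 : ∀ x ∈ insert q Sg, x ∈ S0)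
    (hYN : Y.rt.N = M * ∏ x ∈ Sg, x ^ 2) (hYS : Y.rt.S = (↑S0 : Set ℕ))
    (hYw : Y.w = omegaCard Y.rt.N 𝒪 (lamAt lam Sg))
    (hYχ : ∀ (ℓ : ℕ) (hℓ : ℓ.Prime) (hℓN : ¬ ℓ ∣ Y.rt.N) (hℓS : ℓ ∉ Y.rt.S),
      pointChar Y (heckeAlgebra.T hℓ hℓN hℓS) = lam ⟨ℓ, hℓ⟩)
    {N₀ : ℕ} [NeZero N₀] (hpN₀ : ¬ p ∣ N₀)
    (hN' : N₀ * p = M * ∏ x ∈ insert q Sg, x ^ 2) (hfrob : FrobAt Y p q)
    (hold : EtaStage (N₀ * p) 𝒪 (lamAt lam (insert q Sg)) d →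
      ∀ [(mLam (N₀ * p) 𝒪 (lamAt lam (insert q Sg))).IsMaximal],
      ∀ x ∈ locPart (mLam (N₀ * p) 𝒪 (lamAt lam (insert q Sg))) (𝒪 ⊗[ℤ] Lam (N₀ * p)),
        (∀ (ℓ : ℕ) (hℓ : ℓ.Prime), ¬ ℓ ∣ N₀ * p → ℓ ∉ (↑S0 : Set ℕ) →
          (latT (N₀ * p) (⟨ℓ, hℓ⟩ : Nat.Primes)).baseChange 𝒪 x
            = lamAt lam (insert q Sg) ⟨ℓ, hℓ⟩ • x) →
        x ∈ eigenTensorO (N₀ * p) 𝒪 (lamAt lam (insert q Sg)))
    (hnew : EtaStage (N₀ * p) 𝒪 (lamAt lam (insert q Sg)) d →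
      ∀ [(mLam (N₀ * p) 𝒪 (lamAt lam (insert q Sg))).IsMaximal],
      ∀ x ∈ locPart (mLam (N₀ * p) 𝒪 (lamAt lam (insert q Sg))) (𝒪 ⊗[ℤ] Lam (N₀ * p)),
        (betaP ℤ hpN₀).toIntLinearMap.baseChange 𝒪 x = 0) :
    ∃ (T' : Type) (_ : CommRing T') (_ : IsLocalRing T') (_ : Algebra 𝒪 T')
      (_ : Module.Finite 𝒪 T') (_ : Module.Free 𝒪 T')
      (π' : ↥(heckeAlgebra (N₀ * p) 2 (↑S0 : Set ℕ)) →+* T')
      (πO' : T' →ₐ[𝒪] 𝒪) (f₀ : Matrix (Fin 2) (Fin 2) 𝒪),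
      Algebra.adjoin 𝒪 (Set.range π') = ⊤ ∧
      (∀ t₀ : 𝒪 ⊗[ℤ] ↥(heckeAlgebra (N₀ * p) 2 (↑S0 : Set ℕ)),
        (∀ (a : 𝒪) (x : Lam (N₀ * p)), betaP ℤ hpN₀ x = 0 →
          actO (N₀ * p) 𝒪 (↑S0 : Set ℕ) t₀ (a ⊗ₜ[ℤ] x) = 0) → liftO (𝒪 := 𝒪) π' t₀ = 0) ∧
      (∀ (ℓ : ℕ) (hℓ : ℓ.Prime) (hℓN' : ¬ ℓ ∣ N₀ * p) (hℓS' : ℓ ∉ (↑S0 : Set ℕ)),
        πO' (π' (heckeAlgebra.T hℓ hℓN' hℓS')) = lam ⟨ℓ, hℓ⟩) ∧
      (∀ Pq : ValuationSubring Qb, Pq.LiesOverPrime q →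
        ∀ φ : GQ, Pq.IsFrobeniusAt φ q → f₀.trace = Y.πO (Y.rt.ρT.trace φ)) ∧
      wilesFactor f₀ ((q : ℕ) : 𝒪) ≠ 0 ∧
      Y.w * Nat.card (𝒪 ⧸ Ideal.span {wilesFactor f₀ ((q : ℕ) : 𝒪)}) ^ d
        ≤ omegaCard (N₀ * p) 𝒪 (lamAt lam (insert q Sg)) ∧
      omegaCard (N₀ * p) 𝒪 (lamAt lam (insert q Sg)) ≤ etaCard πO' ^ d := by
  have hp : p.Prime := Fact.out
  have hd0 : d ≠ 0 := by omega
  have hSg' : ∀ x ∈ insert q Sg, x.Prime ∧ ¬ x ∣ M := by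
    intro x hx
    rcases Finset.mem_insert.mp hx with rfl | h
    · exact ⟨hq, hqM⟩
    · exact hSg x h
  have hst' : EtaStage (N₀ * p) 𝒪 (lamAt lam (insert q Sg)) d :=
    etaStage_lev hp hp2 hϖ hpϖ lam hne hd hbase (insert q Sg) hSg' hcq (N₀ * p) hN'
  haveI hmax : (mLam (N₀ * p) 𝒪 (lamAt lam (insert q Sg))).IsMaximal :=
    isMaximal_mLam_of_etaStage _ hd0 hst'
  obtain ⟨T', i1, i2, i3, i4, i5, π', πO', f₀, hgen, hfaith, heig, hfr, hc, heta, hM1⟩ :=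
    exists_supply_gen Y p hp2 hp𝒪 hϖ hpϖ lam hne hd hbase Sg hSg hq hqS hqM hqp hcq S0 hpS0 hMS0
      hSgS0 hYN hYS hYw hYχ (N₀ * p) hN' hfrob hold
  refine ⟨T', i1, i2, i3, i4, i5, π', πO', f₀, hgen, fun t₀ ht₀ => ?_, heig, hfr, hc, heta, hM1⟩
  refine hfaith t₀ fun x hx => ?_
  exact actO_eq_zero_of_ker (betaP ℤ hpN₀) t₀ ht₀ x (hnew hst' x hx)

/-- **The carrier + numerics of ONE step, strict-ordinary case (a), abstract stage**, `hold` from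
helper63's `hold_stage`; binders left `hne hbase hcq hno hfrob hnew`. -/
theorem exists_supplySO (Y : RTNum ρbar 𝒟 d) (p : ℕ) [Fact p.Prime] (hp2 : p ≠ 2)
    (hp𝒪 : (p : 𝒪) ∈ maximalIdeal 𝒪)
    {ϖ : 𝒪} (hϖ : Irreducible ϖ) (hpϖ : ∃ c : 𝒪, (p : 𝒪) = ϖ * c)
    {M : ℕ} [NeZero M] (hsq : Squarefree M) (lam : Nat.Primes → 𝒪)
    (hne : ∀ (F : Finset ℕ) (q : ℕ), q.Prime → ∃ l : Nat.Primes, (l : ℕ) ∉ F ∧
      (((l : ℕ) : ZMod q) = 1) ∧ IsUnit (lam l - (((l : ℕ) : 𝒪) + 1)))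
    (hd : 2 ≤ d) (hbase : EtaStage M 𝒪 lam d)
    (Sg : Finset ℕ) (hSg : ∀ x ∈ Sg, x.Prime ∧ ¬ x ∣ M ∧ x ≠ p)
    {q : ℕ} (hq : q.Prime) (hqS : q ∉ Sg) (hqM : ¬ q ∣ M) (hqp : q ≠ p)
    (hcq : ∀ (x : ℕ) (hx : x.Prime), x ∈ insert q Sg →
      (((x : ℕ) : 𝒪) - 1) * ((1 + ((x : ℕ) : 𝒪)) ^ 2 - lam (⟨x, hx⟩ : Nat.Primes) ^ 2) ≠ 0)
    (S0 : Finset ℕ) (hpS0 : p ∈ S0) (hMS0 : ∀ r : ℕ, r.Prime → r ∣ M → r ∈ S0)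
    (hSgS0 : ∀ x ∈ insert q Sg, x ∈ S0)
    (hno : ∀ b : Nat.Primes, (b : ℕ) ∣ M → NonOccAt 𝒪 S0 b lam)
    (hYN : Y.rt.N = M * ∏ x ∈ Sg, x ^ 2) (hYS : Y.rt.S = (↑S0 : Set ℕ))
    (hYw : Y.w = omegaCard Y.rt.N 𝒪 (lamAt lam Sg))
    (hYχ : ∀ (ℓ : ℕ) (hℓ : ℓ.Prime) (hℓN : ¬ ℓ ∣ Y.rt.N) (hℓS : ℓ ∉ Y.rt.S),
      pointChar Y (heckeAlgebra.T hℓ hℓN hℓS) = lam ⟨ℓ, hℓ⟩)
    {N₀ : ℕ} [NeZero N₀] (hpN₀ : ¬ p ∣ N₀)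
    (hN' : N₀ * p = M * ∏ x ∈ insert q Sg, x ^ 2) (hfrob : FrobAt Y p q)
    (hnew : EtaStage (N₀ * p) 𝒪 (lamAt lam (insert q Sg)) d →
      ∀ [(mLam (N₀ * p) 𝒪 (lamAt lam (insert q Sg))).IsMaximal],
      ∀ x ∈ locPart (mLam (N₀ * p) 𝒪 (lamAt lam (insert q Sg))) (𝒪 ⊗[ℤ] Lam (N₀ * p)),
        (betaP ℤ hpN₀).toIntLinearMap.baseChange 𝒪 x = 0) :
    ∃ (T' : Type) (_ : CommRing T') (_ : IsLocalRing T') (_ : Algebra 𝒪 T')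
      (_ : Module.Finite 𝒪 T') (_ : Module.Free 𝒪 T')
      (π' : ↥(heckeAlgebra (N₀ * p) 2 (↑S0 : Set ℕ)) →+* T')
      (πO' : T' →ₐ[𝒪] 𝒪) (f₀ : Matrix (Fin 2) (Fin 2) 𝒪),
      Algebra.adjoin 𝒪 (Set.range π') = ⊤ ∧
      (∀ t₀ : 𝒪 ⊗[ℤ] ↥(heckeAlgebra (N₀ * p) 2 (↑S0 : Set ℕ)),
        (∀ (a : 𝒪) (x : Lam (N₀ * p)), betaP ℤ hpN₀ x = 0 →
          actO (N₀ * p) 𝒪 (↑S0 : Set ℕ) t₀ (a ⊗ₜ[ℤ] x) = 0) → liftO (𝒪 := 𝒪) π' t₀ = 0) ∧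
      (∀ (ℓ : ℕ) (hℓ : ℓ.Prime) (hℓN' : ¬ ℓ ∣ N₀ * p) (hℓS' : ℓ ∉ (↑S0 : Set ℕ)),
        πO' (π' (heckeAlgebra.T hℓ hℓN' hℓS')) = lam ⟨ℓ, hℓ⟩) ∧
      (∀ Pq : ValuationSubring Qb, Pq.LiesOverPrime q →
        ∀ φ : GQ, Pq.IsFrobeniusAt φ q → f₀.trace = Y.πO (Y.rt.ρT.trace φ)) ∧
      wilesFactor f₀ ((q : ℕ) : 𝒪) ≠ 0 ∧
      Y.w * Nat.card (𝒪 ⧸ Ideal.span {wilesFactor f₀ ((q : ℕ) : 𝒪)}) ^ d
        ≤ omegaCard (N₀ * p) 𝒪 (lamAt lam (insert q Sg)) ∧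
      omegaCard (N₀ * p) 𝒪 (lamAt lam (insert q Sg)) ≤ etaCard πO' ^ d := by
  have hp : p.Prime := Fact.out
  have hd0 : d ≠ 0 := by omega
  have hSg₂ : ∀ x ∈ Sg, x.Prime ∧ ¬ x ∣ M := fun x hx => ⟨(hSg x hx).1, (hSg x hx).2.1⟩
  have hSg' : ∀ x ∈ insert q Sg, x.Prime ∧ ¬ x ∣ M := by
    intro x hx
    rcases Finset.mem_insert.mp hx with rfl | h
    · exact ⟨hq, hqM⟩
    · exact hSg₂ x h
  have hSgp' : ∀ x ∈ insert q Sg, x ≠ p := by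
    intro x hx
    rcases Finset.mem_insert.mp hx with rfl | h
    · exact hqp
    · exact (hSg x h).2.2
  have hbad : ∀ b : Nat.Primes, (b : ℕ) ∈ S0 → (b : ℕ) ∉ insert q Sg →
      ¬ (b : ℕ) ∣ M ∨ ((b : ℕ) ∣ M ∧ ¬ (b : ℕ) ^ 2 ∣ M ∧ NonOccAt 𝒪 S0 b lam) := by
    intro b _ _
    by_cases hbM : (b : ℕ) ∣ M
    · refine Or.inr ⟨hbM, fun h => ?_, hno b hbM⟩
      have h2 : (b : ℕ) * (b : ℕ) ∣ M := by rwa [← sq]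
      exact b.2.one_lt.ne' (Nat.isUnit_iff.mp (hsq _ h2))
    · exact Or.inl hbM
  exact exists_supplySO_core Y p hp2 hp𝒪 hϖ hpϖ lam hne hd hbase Sg hSg₂ hq hqS hqM hqp hcq S0
    hpS0 hMS0 hSgS0 hYN hYS hYw hYχ hpN₀ hN' hfrob
    (fun hst' _ => hold_of_stage hp hp𝒪 lam hd0 hbase (insert q Sg) S0 hN' hSg' hSgp' hMS0 hSgS0
      hbad hst') hnew

end SO

end Fermat.Agent.GE9.Stage.SupplySO

end
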