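/-
GATE-E / GE9-STAGE (helper73): **the supply of ONE step of the induction over `Σ`, STRICT-ORDINARY
case, branch (a), with `hfrob`, `hold` and `hcq` discharged** — SO twin of `SupplyFrob.exists_supplyFL`.

* **`exists_supplySO_frob`** : `SupplySO.exists_supplySO` with `hfrob := SupplyFrob.frobAt …`
  (helper11's `FrobQ`) and `hcq := SupplyFrob.cq_ne_zero_of_etaStage …` (helper63's `CqNeO`).

Binders left: `hne` (non-Eisenstein), `hbase` (ETA at `Σ = ∅`, minimal level `M ∋ p`), `hno`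
(`NonOccAt 𝒪 S0 b lam` at ALL primes `b ∣ M`, including `b = p`: helper63
`GE9/OldQ/NonOccNew.nonOccAt_of_sq_eq_one`) and `hnew` (the `𝔪`-local part at the level `N₀ * p` is
`p`-new: helper10 `GE8/Top/NotResModStage` + the lattice half).
-/
import Mathlib
import Fermat.Agent.GE9.Stage.SupplySO
import Fermat.Agent.GE9.Stage.SupplyFrob

set_option autoImplicit false
set_option linter.unusedSectionVars false
set_option linter.unusedVariables false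
set_option linter.style.haveILetI false

noncomputable section

namespace Fermat.Agent.GE9.Stage.SupplySOFrob

open TensorProduct IsLocalRing Submodule CuspForm
open Fermat.Agent.GJ.J2.Lat Fermat.Agent.GJ.J2.LatAct Fermat.Agent.GB.B3.Loc
open Fermat.Agent.GE.Graph Fermat.Agent.GE9.Ind Fermat.Agent.GE9.Asm Fermat.Agent.GE9.NumCrit
  Fermat.Agent.GE9.TanGrow
open Fermat.Agent.GE9.Eta Fermat.Agent.GE9.Eta.Mod Fermat.Agent.GE9.Eta.Chain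
  Fermat.Agent.GE9.Mult1 Fermat.Agent.GE.Engine.LevArith
open Fermat.Agent.GE9.Stage.CarrierLam Fermat.Agent.GE9.Stage.CarrierFaith
  Fermat.Agent.GE9.Stage.Supply Fermat.Agent.GE9.Stage.SupplyHold
  Fermat.Agent.GE9.Stage.SupplySO Fermat.Agent.GE9.Stage.SupplyFrob
  Fermat.Agent.GE9.OldQ.Consumer Fermat.Agent.GM.B

local notation "GQ" => (AlgebraicClosure ℚ ≃ₐ[ℚ] AlgebraicClosure ℚ)
local notation "Qb" => AlgebraicClosure ℚ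

variable {𝒪 : Type} [CommRing 𝒪] [IsDomain 𝒪] [IsDiscreteValuationRing 𝒪]
  [IsAdicComplete (maximalIdeal 𝒪) 𝒪] [Finite (ResidueField 𝒪)] [CharZero 𝒪]
  {ρbar : ResidualGaloisRep (ResidueField 𝒪)} {𝒟 : DefCondE 𝒪} {d : ℕ}

/-- **The carrier + numerics of ONE step, strict-ordinary case (a), abstract stage** — binders
left: `hne`, `hbase`, `hno`, `hnew`. -/
theorem exists_supplySO_frob (Y : RTNum ρbar 𝒟 d) (p : ℕ) [Fact p.Prime] (hp2 : p ≠ 2)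
    (hp𝒪 : (p : 𝒪) ∈ maximalIdeal 𝒪)
    {ϖ : 𝒪} (hϖ : Irreducible ϖ) (hpϖ : ∃ c : 𝒪, (p : 𝒪) = ϖ * c)
    {M : ℕ} [NeZero M] (hsq : Squarefree M) (lam : Nat.Primes → 𝒪)
    (hne : ∀ (F : Finset ℕ) (q : ℕ), q.Prime → ∃ l : Nat.Primes, (l : ℕ) ∉ F ∧
      (((l : ℕ) : ZMod q) = 1) ∧ IsUnit (lam l - (((l : ℕ) : 𝒪) + 1)))
    (hd : 2 ≤ d) (hbase : EtaStage M 𝒪 lam d)
    (Sg : Finset ℕ) (hSg : ∀ x ∈ Sg, x.Prime ∧ ¬ x ∣ M ∧ x ≠ p)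
    {q : ℕ} (hq : q.Prime) (hqS : q ∉ Sg) (hqM : ¬ q ∣ M) (hqp : q ≠ p)
    (S0 : Finset ℕ) (hpS0 : p ∈ S0) (hMS0 : ∀ r : ℕ, r.Prime → r ∣ M → r ∈ S0)
    (hSgS0 : ∀ x ∈ insert q Sg, x ∈ S0)
    (hno : ∀ b : Nat.Primes, (b : ℕ) ∣ M → NonOccAt 𝒪 S0 b lam)
    (hYN : Y.rt.N = M * ∏ x ∈ Sg, x ^ 2) (hYS : Y.rt.S = (↑S0 : Set ℕ))
    (hYw : Y.w = omegaCard Y.rt.N 𝒪 (lamAt lam Sg))
    (hYχ : ∀ (ℓ : ℕ) (hℓ : ℓ.Prime) (hℓN : ¬ ℓ ∣ Y.rt.N) (hℓS : ℓ ∉ Y.rt.S),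
      pointChar Y (heckeAlgebra.T hℓ hℓN hℓS) = lam ⟨ℓ, hℓ⟩)
    {N₀ : ℕ} [NeZero N₀] (hpN₀ : ¬ p ∣ N₀)
    (hN' : N₀ * p = M * ∏ x ∈ insert q Sg, x ^ 2)
    (hnew : EtaStage (N₀ * p) 𝒪 (lamAt lam (insert q Sg)) d →
      ∀ [(mLam (N₀ * p) 𝒪 (lamAt lam (insert q Sg))).IsMaximal],
      ∀ x ∈ locPart (mLam (N₀ * p) 𝒪 (lamAt lam (insert q Sg))) (𝒪 ⊗[ℤ] Lam (N₀ * p)),
        (betaP ℤ hpN₀).toIntLinearMap.baseChange 𝒪 x = 0) :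
    ∃ (T' : Type) (_ : CommRing T') (_ : IsLocalRing T') (_ : Algebra 𝒪 T')
      (_ : Module.Finite 𝒪 T') (_ : Module.Free 𝒪 T')
      (π' : ↥(heckeAlgebra (N₀ * p) 2 (↑S0 : Set ℕ)) →+* T')
      (πO' : T' →ₐ[𝒪] 𝒪) (f₀ : Matrix (Fin 2) (Fin 2) 𝒪),
      Algebra.adjoin 𝒪 (Set.range π') = ⊤ ∧
      (∀ t₀ : 𝒪 ⊗[ℤ] ↥(heckeAlgebra (N₀ * p) 2 (↑S0 : Set ℕ)),
        (∀ (a : 𝒪) (x : Lam (N₀ * p)), betaP ℤ hpN₀ x = 0 →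
          actO (N₀ * p) 𝒪 (↑S0 : Set ℕ) t₀ (a ⊗ₜ[ℤ] x) = 0) → liftO (𝒪 := 𝒪) π' t₀ = 0) ∧
      (∀ (ℓ : ℕ) (hℓ : ℓ.Prime) (hℓN' : ¬ ℓ ∣ N₀ * p) (hℓS' : ℓ ∉ (↑S0 : Set ℕ)),
        πO' (π' (heckeAlgebra.T hℓ hℓN' hℓS')) = lam ⟨ℓ, hℓ⟩) ∧
      (∀ Pq : ValuationSubring Qb, Pq.LiesOverPrime q →
        ∀ φ : GQ, Pq.IsFrobeniusAt φ q → f₀.trace = Y.πO (Y.rt.ρT.trace φ)) ∧
      wilesFactor f₀ ((q : ℕ) : 𝒪) ≠ 0 ∧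
      Y.w * Nat.card (𝒪 ⧸ Ideal.span {wilesFactor f₀ ((q : ℕ) : 𝒪)}) ^ d
        ≤ omegaCard (N₀ * p) 𝒪 (lamAt lam (insert q Sg)) ∧
      omegaCard (N₀ * p) 𝒪 (lamAt lam (insert q Sg)) ≤ etaCard πO' ^ d := by
  have hd0 : d ≠ 0 := by omega
  refine exists_supplySO Y p hp2 hp𝒪 hϖ hpϖ hsq lam hne hd hbase Sg hSg hq hqS hqM hqp ?_ S0
    hpS0 hMS0 hSgS0 hno hYN hYS hYw hYχ hpN₀ hN' (frobAt Y p hp𝒪 q S0 hYS.subset) hnew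
  intro x hx hxS
  refine cq_ne_zero_of_etaStage lam hd0 hbase x hx ?_
  rcases Finset.mem_insert.mp hxS with rfl | h
  · exact hqM
  · exact (hSg x h).2.1

end Fermat.Agent.GE9.Stage.SupplySOFrob

end
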