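/-
GATE-E / GE9-STAGE (helper73): **the supply of ONE step, STRICT-ORDINARY case, branch (a), with the
non-occurrence at `b = p` DISCHARGED from `p`-newness** (helper63's
`GE9/OldQ/NonOccNew.nonOccAt_of_sq_eq_one`).

In the branch SO(a) (`p ∥ M`, `ρ̄` does not occur at the level `M / p`) the `𝔪`-local part of every
stage lattice `𝒪 ⊗ Lam (N₀ p)`, `N₀ p = M ∏_{x ∈ Sg} x²`, is `p`-new — the residual binder `hnew`,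
now stated for ALL stages `Sg` at once (including `Sg = ∅`):

  `NewLoc p lam Sg` : `∀ N₀, N₀ p = M ∏_{x ∈ Sg} x² → 𝔪`-local part of `𝒪 ⊗ Lam (N₀ p)` is killed
                      by `(cores_p, cores_{p,δ}) ⊗ 𝒪`.

At `Sg = ∅` it makes the reference eigenvector `y₁` (`hbase`) `p`-new, so `lam p ^ 2 = 1`
(helper50's `UqSqOmega.latT_baseChange_sq_of_betaP`), and the system of a `p`-new eigenvector does
not occur at ANY level prime to `p` (helper63): the case `b = p` of `hno`.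

* `lam_sq_eq_one_of_new`  : `y ≠ 0` a full eigenvector at the level `N₀ p`, `(β_p ⊗ 𝒪) y = 0`
  ⟹ `lam p ^ 2 = 1`;
* `NewLoc`                : the residual `Prop`;
* `lam_sq_eq_one_of_base` : `lam p ^ 2 = 1` from `hbase` and `NewLoc` at `∅`;
* `hno_of_new`            : `hno` at ALL `b ∣ M` from `hno` at `b ≠ p` and `NewLoc` at `∅`;
* **`exists_supplySO_new`** : `SupplySOFrob.exists_supplySO_frob` with binders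
  `hne hbase hnoR (b ≠ p) hnew (NewLoc at ∅ and at insert q Sg)` only.
-/
import Mathlib
import Fermat.Agent.GE9.Stage.SupplySOFrob
import Fermat.Agent.GE9.OldQ.NonOccNew

set_option autoImplicit false
set_option linter.unusedSectionVars false
set_option linter.unusedVariables false
set_option linter.style.haveILetI false

noncomputable section

namespace Fermat.Agent.GE9.Stage.SupplySONew

open TensorProduct IsLocalRing Submodule CuspForm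
open Fermat.Agent.GJ.J2.Lat Fermat.Agent.GJ.J2.LatAct Fermat.Agent.GB.B3.Loc
open Fermat.Agent.GE.Graph Fermat.Agent.GE9.Ind Fermat.Agent.GE9.Asm Fermat.Agent.GE9.NumCrit
  Fermat.Agent.GE9.TanGrow
open Fermat.Agent.GE9.Eta Fermat.Agent.GE9.Eta.Mod Fermat.Agent.GE9.Eta.Chain
  Fermat.Agent.GE9.Mult1 Fermat.Agent.GE.Engine.LevArith
open Fermat.Agent.GE9.Stage.CarrierLam Fermat.Agent.GE9.Stage.CarrierFaith
  Fermat.Agent.GE9.Stage.Supply Fermat.Agent.GE9.Stage.SupplyHold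
  Fermat.Agent.GE9.Stage.SupplySO Fermat.Agent.GE9.Stage.SupplyFrob
  Fermat.Agent.GE9.Stage.SupplySOFrob
  Fermat.Agent.GE9.OldQ.Consumer Fermat.Agent.GM.B

local notation "GQ" => (AlgebraicClosure ℚ ≃ₐ[ℚ] AlgebraicClosure ℚ)
local notation "Qb" => AlgebraicClosure ℚ

section Sq

variable {𝒪 : Type} [CommRing 𝒪] [IsDomain 𝒪] [CharZero 𝒪]

/-- **`U_p² = 1` on the `p`-new part, eigenvalue form over a domain**: a nonzero full eigenvector of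
`𝒪 ⊗ Lam (N₀ p)` killed by `(cores_p, cores_{p,δ}) ⊗ 𝒪` has `lam p ^ 2 = 1`. -/
theorem lam_sq_eq_one_of_new {N₀ p : ℕ} [Fact p.Prime] [NeZero (N₀ * p)] (hp : p.Prime)
    (hpN₀ : ¬ p ∣ N₀) (lam : Nat.Primes → 𝒪) (y : 𝒪 ⊗[ℤ] Lam (N₀ * p)) (hy0 : y ≠ 0)
    (hye : y ∈ eigenTensorO (N₀ * p) 𝒪 lam)
    (hnew : (betaP ℤ hpN₀).toIntLinearMap.baseChange 𝒪 y = 0) :
    lam (⟨p, hp⟩ : Nat.Primes) ^ 2 = 1 := by
  have htf := torsionFree_tensor_lam (O := 𝒪) (N₀ * p)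
  have h := Fermat.Agent.GE9.PNew.UqSqOmega.latT_baseChange_sq_of_betaP hpN₀ hp 𝒪 y hnew
  have he := mem_eigenTensorO.mp hye (⟨p, hp⟩ : Nat.Primes)
  rw [he, map_smul, he, smul_smul] at h
  by_contra hne
  have hc : lam (⟨p, hp⟩ : Nat.Primes) * lam (⟨p, hp⟩ : Nat.Primes) - 1 ≠ 0 := by
    intro h0
    apply hne
    rw [sq]
    exact sub_eq_zero.mp h0
  have h' : (lam (⟨p, hp⟩ : Nat.Primes) * lam (⟨p, hp⟩ : Nat.Primes) - 1) • y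
      = (lam (⟨p, hp⟩ : Nat.Primes) * lam (⟨p, hp⟩ : Nat.Primes) - 1) • (0 : 𝒪 ⊗[ℤ] Lam (N₀ * p)) := by
    rw [sub_smul, one_smul, h, sub_self, smul_zero]
  exact hy0 (smul_right_injective _ hc h')

end Sq

section New

variable {𝒪 : Type} [CommRing 𝒪] [IsDomain 𝒪] [IsDiscreteValuationRing 𝒪]
  [IsAdicComplete (maximalIdeal 𝒪) 𝒪] [Finite (ResidueField 𝒪)] [CharZero 𝒪]
  {ρbar : ResidualGaloisRep (ResidueField 𝒪)} {𝒟 : DefCondE 𝒪} {d : ℕ}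

/-- **the `𝔪`-local part of the stage lattice is `p`-new** (stage `Sg`, minimal level `M ∋ p`): for
every way of writing the level `M ∏_{x ∈ Sg} x²` as `N₀ p` with `p ∤ N₀`, the `𝔪_full`-local part of
`𝒪 ⊗ Lam (N₀ p)` is killed by `(cores_p, cores_{p,δ}) ⊗ 𝒪`.  [`ρ̄` does not occur at the level
`N₀ = (M / p) ∏_{x ∈ Sg} x²`.] -/
def NewLoc (p : ℕ) [Fact p.Prime] (M : ℕ) (lam : Nat.Primes → 𝒪) (Sg : Finset ℕ) : Prop :=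
  ∀ (N₀ : ℕ) [NeZero N₀] (hpN₀ : ¬ p ∣ N₀), N₀ * p = M * ∏ x ∈ Sg, x ^ 2 →
    ∀ [(mLam (N₀ * p) 𝒪 (lamAt lam Sg)).IsMaximal],
    ∀ x ∈ locPart (mLam (N₀ * p) 𝒪 (lamAt lam Sg)) (𝒪 ⊗[ℤ] Lam (N₀ * p)),
      (betaP ℤ hpN₀).toIntLinearMap.baseChange 𝒪 x = 0

/-- **`lam p ^ 2 = 1`** from the base of the module side and `p`-newness at `Σ = ∅`. -/
theorem lam_sq_eq_one_of_base {p : ℕ} [Fact p.Prime] (hp : p.Prime) {M : ℕ} [NeZero M]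
    (hpM : p ∣ M) (hsq : Squarefree M) (lam : Nat.Primes → 𝒪) (hd : d ≠ 0)
    (hbase : EtaStage M 𝒪 lam d) (hnew₀ : NewLoc p M lam ∅) :
    lam (⟨p, hp⟩ : Nat.Primes) ^ 2 = 1 := by
  obtain ⟨M₀, rfl⟩ : ∃ M₀, M = M₀ * p := ⟨M / p, (Nat.div_mul_cancel hpM).symm⟩
  have hM₀0 : M₀ ≠ 0 := fun h => NeZero.ne (M₀ * p) (by rw [h, zero_mul])
  haveI : NeZero M₀ := ⟨hM₀0⟩
  have hpM₀ : ¬ p ∣ M₀ := by
    intro h
    obtain ⟨c, rfl⟩ := h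
    have h2 : p * p ∣ p * c * p := ⟨c, by ring⟩
    exact hp.one_lt.ne' (Nat.isUnit_iff.mp (hsq _ h2))
  obtain ⟨b₁, hli₁, hspan₁, -⟩ := hbase
  have hy₁m : b₁ ⟨0, Nat.pos_of_ne_zero hd⟩ ∈ eigenTensorO (M₀ * p) 𝒪 lam := by
    rw [← hspan₁]
    exact subset_span ⟨_, rfl⟩
  have hy₁0 : b₁ ⟨0, Nat.pos_of_ne_zero hd⟩ ≠ 0 := hli₁.ne_zero _
  have hy₁m' : b₁ ⟨0, Nat.pos_of_ne_zero hd⟩ ∈ eigenTensorO (M₀ * p) 𝒪 (lamAt lam ∅) := by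
    rw [lamAt_empty]
    exact hy₁m
  haveI hmax : (mLam (M₀ * p) 𝒪 (lamAt lam ∅)).IsMaximal := isMaximal_mLam hy₁m' hy₁0
  have hloc : b₁ ⟨0, Nat.pos_of_ne_zero hd⟩ ∈ locPart (mLam (M₀ * p) 𝒪 (lamAt lam ∅))
      (𝒪 ⊗[ℤ] Lam (M₀ * p)) := eigenTensorO_le_locPart hy₁m' hy₁0 hy₁m'
  have hkill : (betaP ℤ hpM₀).toIntLinearMap.baseChange 𝒪 (b₁ ⟨0, Nat.pos_of_ne_zero hd⟩) = 0 :=
    hnew₀ M₀ hpM₀ (by rw [Finset.prod_empty, mul_one]) _ hloc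
  exact lam_sq_eq_one_of_new hp hpM₀ lam _ hy₁0 hy₁m hkill

/-- **`hno` at ALL primes `b ∣ M`** from `hno` at the primes `b ≠ p` (where `ρ̄` is ramified) and
`p`-newness at `Σ = ∅` (helper63's `nonOccAt_of_sq_eq_one` at `b = p`). -/
theorem hno_of_new {p : ℕ} [Fact p.Prime] {M : ℕ} [NeZero M]
    (hpM : p ∣ M) (hsq : Squarefree M) (lam : Nat.Primes → 𝒪) (hd : d ≠ 0)
    (hbase : EtaStage M 𝒪 lam d) (S0 : Finset ℕ)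
    (hnoR : ∀ b : Nat.Primes, (b : ℕ) ∣ M → (b : ℕ) ≠ p → NonOccAt 𝒪 S0 b lam)
    (hnew₀ : NewLoc p M lam ∅) :
    ∀ b : Nat.Primes, (b : ℕ) ∣ M → NonOccAt 𝒪 S0 b lam := by
  have hp : p.Prime := Fact.out
  intro b hbM
  by_cases hbp : (b : ℕ) = p
  · have hu := lam_sq_eq_one_of_base hp hpM hsq lam hd hbase hnew₀
    have hpM₀ : ¬ p ∣ M / p := by
      intro h
      obtain ⟨c, hc⟩ := h
      have h2 : p * p ∣ M := ⟨c, by rw [← Nat.div_mul_cancel hpM, hc]; ring⟩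
      exact hp.one_lt.ne' (Nat.isUnit_iff.mp (hsq _ h2))
    obtain ⟨b₁, hli₁, hspan₁, -⟩ := hbase
    have hy₁m : b₁ ⟨0, Nat.pos_of_ne_zero hd⟩ ∈ eigenTensorO M 𝒪 lam := by
      rw [← hspan₁]
      exact subset_span ⟨_, rfl⟩
    have hb : b = (⟨p, hp⟩ : Nat.Primes) := Subtype.ext hbp
    rw [hb]
    exact nonOccAt_of_sq_eq_one hp (Nat.div_mul_cancel hpM).symm hpM₀ S0 lam
      (b₁ ⟨0, Nat.pos_of_ne_zero hd⟩) (hli₁.ne_zero _) (mem_eigenTensorO.mp hy₁m) hu lam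
      (fun _ _ => rfl)
  · exact hnoR b hbM hbp

/-- **The carrier + numerics of ONE step, strict-ordinary case (a), abstract stage** — binders
left: `hne`, `hbase`, `hnoR` (non-occurrence at the primes `b ≠ p` of `M`) and `p`-newness of the
local parts (`NewLoc` at `∅` and at `insert q Sg`). -/
theorem exists_supplySO_new (Y : RTNum ρbar 𝒟 d) (p : ℕ) [Fact p.Prime] (hp2 : p ≠ 2)
    (hp𝒪 : (p : 𝒪) ∈ maximalIdeal 𝒪)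
    {ϖ : 𝒪} (hϖ : Irreducible ϖ) (hpϖ : ∃ c : 𝒪, (p : 𝒪) = ϖ * c)
    {M : ℕ} [NeZero M] (hsq : Squarefree M) (hpM : p ∣ M) (lam : Nat.Primes → 𝒪)
    (hne : ∀ (F : Finset ℕ) (q : ℕ), q.Prime → ∃ l : Nat.Primes, (l : ℕ) ∉ F ∧
      (((l : ℕ) : ZMod q) = 1) ∧ IsUnit (lam l - (((l : ℕ) : 𝒪) + 1)))
    (hd : 2 ≤ d) (hbase : EtaStage M 𝒪 lam d)
    (Sg : Finset ℕ) (hSg : ∀ x ∈ Sg, x.Prime ∧ ¬ x ∣ M ∧ x ≠ p)
    {q : ℕ} (hq : q.Prime) (hqS : q ∉ Sg) (hqM : ¬ q ∣ M) (hqp : q ≠ p)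
    (S0 : Finset ℕ) (hpS0 : p ∈ S0) (hMS0 : ∀ r : ℕ, r.Prime → r ∣ M → r ∈ S0)
    (hSgS0 : ∀ x ∈ insert q Sg, x ∈ S0)
    (hnoR : ∀ b : Nat.Primes, (b : ℕ) ∣ M → (b : ℕ) ≠ p → NonOccAt 𝒪 S0 b lam)
    (hYN : Y.rt.N = M * ∏ x ∈ Sg, x ^ 2) (hYS : Y.rt.S = (↑S0 : Set ℕ))
    (hYw : Y.w = omegaCard Y.rt.N 𝒪 (lamAt lam Sg))
    (hYχ : ∀ (ℓ : ℕ) (hℓ : ℓ.Prime) (hℓN : ¬ ℓ ∣ Y.rt.N) (hℓS : ℓ ∉ Y.rt.S),
      pointChar Y (heckeAlgebra.T hℓ hℓN hℓS) = lam ⟨ℓ, hℓ⟩)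
    {N₀ : ℕ} [NeZero N₀] (hpN₀ : ¬ p ∣ N₀)
    (hN' : N₀ * p = M * ∏ x ∈ insert q Sg, x ^ 2)
    (hnew₀ : NewLoc p M lam ∅) (hnew : NewLoc p M lam (insert q Sg)) :
    ∃ (T' : Type) (_ : CommRing T') (_ : IsLocalRing T') (_ : Algebra 𝒪 T')
      (_ : Module.Finite 𝒪 T') (_ : Module.Free 𝒪 T')
      (π' : ↥(heckeAlgebra (N₀ * p) 2 (↑S0 : Set ℕ)) →+* T')
      (πO' : T' →ₐ[𝒪] 𝒪) (f₀ : Matrix (Fin 2) (Fin 2) 𝒪),
      Algebra.adjoin 𝒪 (Set.range π') = ⊤ ∧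
      (∀ t₀ : 𝒪 ⊗[ℤ] ↥(heckeAlgebra (N₀ * p) 2 (↑S0 : Set ℕ)),
        (∀ (a : 𝒪) (x : Lam (N₀ * p)), betaP ℤ hpN₀ x = 0 →
          actO (N₀ * p) 𝒪 (↑S0 : Set ℕ) t₀ (a ⊗ₜ[ℤ] x) = 0) → liftO (𝒪 := 𝒪) π' t₀ = 0) ∧
      (∀ (ℓ : ℕ) (hℓ : ℓ.Prime) (hℓN' : ¬ ℓ ∣ N₀ * p) (hℓS' : ℓ ∉ (↑S0 : Set ℕ)),
        πO' (π' (heckeAlgebra.T hℓ hℓN' hℓS')) = lam ⟨ℓ, hℓ⟩) ∧
      (∀ Pq : ValuationSubring Qb, Pq.LiesOverPrime q →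
        ∀ φ : GQ, Pq.IsFrobeniusAt φ q → f₀.trace = Y.πO (Y.rt.ρT.trace φ)) ∧
      wilesFactor f₀ ((q : ℕ) : 𝒪) ≠ 0 ∧
      Y.w * Nat.card (𝒪 ⧸ Ideal.span {wilesFactor f₀ ((q : ℕ) : 𝒪)}) ^ d
        ≤ omegaCard (N₀ * p) 𝒪 (lamAt lam (insert q Sg)) ∧
      omegaCard (N₀ * p) 𝒪 (lamAt lam (insert q Sg)) ≤ etaCard πO' ^ d := by
  have hd0 : d ≠ 0 := by omega
  exact exists_supplySO_frob Y p hp2 hp𝒪 hϖ hpϖ hsq lam hne hd hbase Sg hSg hq hqS hqM hqp S0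
    hpS0 hMS0 hSgS0 (hno_of_new hpM hsq lam hd0 hbase S0 hnoR hnew₀) hYN hYS hYw hYχ hpN₀ hN'
    (fun _ _ => hnew N₀ hpN₀ hN')

end New

end Fermat.Agent.GE9.Stage.SupplySONew

end
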