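/-
GATE-E (S59) / SO(a) step supply, LATTICE half of the binder `hnew` of helper73's
`GE9/Stage/SupplySO.exists_supplySO` (helper10): **if `ρ̄_{W,p}` is NOT residually modular of the
level `N₀` (prime to `p`), the `𝔪_full`-local part of `𝒪 ⊗ Lam (N₀ * p)` is killed by
`β_p ⊗ 𝒪 = (cores_p, cores_{p,δ}) ⊗ 𝒪`** — the local part is `p`-new.

Proof: the old-killer `P` of `GB/B10/KillerPlug.exists_killer_of_not_resMod` (`P (T^{N₀}) = 0`,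
`θ (P (T^{N₀ p})) = 1` for every mod-`p` eigencharacter with the eigenvalues `a_ℓ(W)`).  The element
`a := iotaLam (P (T^{N₀ p}))` of the full algebra acts on the joint eigen-sublattice by a scalar
`≡ 1` mod `𝔪_𝒪` (the eigenvalues `lam' ℓ` lift `a_ℓ(W)`), so `a ∉ mLam`, every `x` of the local part
is `a • y`, and `(β_p ⊗ 𝒪) (a • y) = P (T^{N₀}) ((β_p ⊗ 𝒪) y) = 0` by the Hecke-equivariance of
`β_p` (helper5's `BetaPOnto.betaP_latT_ne`).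

* `betaP_latAct_aeval` : `β_p ∘ P (T^{N₀ p}) = (P (T^{N₀}) × P (T^{N₀})) ∘ β_p` on the lattices;
* `betaP_comp_eq_zero` : `β_p ∘ P (T^{N₀ p}) = 0` when `P (T^{N₀}) = 0`;
* `isUnit_chiLam_of_killer` : the scalar of `a` is a unit;
* **`hnew_of_killer`**, **`hnew_of_not_resMod`** : the binder `hnew`, VERBATIM.
-/
import Mathlib
import Fermat.Agent.GE9.Stage.CarrierLam
import Fermat.Agent.GE9.PNew.Inst.BetaPOnto
import Fermat.Agent.GB.B10.KillerPlug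

set_option autoImplicit false
set_option linter.unusedSectionVars false
set_option linter.unusedVariables false

open scoped TensorProduct
open IsLocalRing CuspForm

namespace Fermat.Agent.GE9.Stage.HnewKiller

open Fermat.Agent.GJ.J2.Lat Fermat.Agent.GJ.J2.LatAct Fermat.Agent.GB.B3.Loc
  Fermat.Agent.GE9.Eta.Mod Fermat.Agent.GE9.Mult1 Fermat.Agent.GE9.Stage.CarrierLam
  Fermat.Agent.GK.New Fermat.Agent.GM.B Fermat.Agent.GE9.PNew.Inst.BetaPOnto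

/-! ### `β_p` and the Hecke polynomials away from `S` -/

section Equiv

variable {N p : ℕ} [hpF : Fact p.Prime] [NeZero N] [NeZero (N * p)] {S : Finset ℕ}

/-- **`β_p ∘ P (T^{N p}) = (P (T^N) × P (T^N)) ∘ β_p`** for every Hecke polynomial `P` away from
`S ∋ p`. -/
theorem betaP_latAct_aeval (hpN : ¬ p ∣ N) (hpS : p ∈ S)
    (hNS : ∀ r : ℕ, r.Prime → r ∣ N → r ∈ S) (hNpS : ∀ r : ℕ, r.Prime → r ∣ N * p → r ∈ S)
    (P : MvPolynomial (PrimeIdx S) ℤ) (z : Lam (N * p)) :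
    betaP ℤ hpN (latAct (N * p) (↑S : Set ℕ) (MvPolynomial.aeval (TfamH hNpS) P) z)
      = (latAct N (↑S : Set ℕ) (MvPolynomial.aeval (TfamH hNS) P) (betaP ℤ hpN z).1,
         latAct N (↑S : Set ℕ) (MvPolynomial.aeval (TfamH hNS) P) (betaP ℤ hpN z).2) := by
  induction P using MvPolynomial.induction_on generalizing z with
  | C n =>
    rw [MvPolynomial.aeval_C, MvPolynomial.aeval_C, eq_intCast, eq_intCast, map_intCast,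
      map_intCast]
    have h1 : ∀ (X : Type) [AddCommGroup X] (w : X), ((n : Module.End ℤ X)) w = n • w := by
      intro X _ w
      rw [← zsmul_one, LinearMap.smul_apply, Module.End.one_apply]
    rw [h1, h1, h1, map_zsmul]
    rfl
  | add P Q hP hQ =>
    rw [map_add, map_add, map_add, map_add, LinearMap.add_apply, LinearMap.add_apply,
      LinearMap.add_apply, map_add, hP z, hQ z]
    rfl
  | mul_X P i hP =>
    have hip : (i.1 : ℕ) ≠ p := fun h => i.2.2 (h ▸ hpS)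
    rw [map_mul, map_mul, map_mul, map_mul, MvPolynomial.aeval_X, MvPolynomial.aeval_X,
      Module.End.mul_apply, Module.End.mul_apply, Module.End.mul_apply]
    have hT1 : latAct (N * p) (↑S : Set ℕ) (TfamH hNpS i) = latT (N * p) (⟨i.1, i.2.1⟩ : Nat.Primes) :=
      latAct_T (N * p) (↑S : Set ℕ) i.2.1 (PrimeIdx.not_dvd hNpS i) (by exact_mod_cast i.2.2)
    have hT2 : latAct N (↑S : Set ℕ) (TfamH hNS i) = latT N (⟨i.1, i.2.1⟩ : Nat.Primes) :=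
      latAct_T N (↑S : Set ℕ) i.2.1 (PrimeIdx.not_dvd hNS i) (by exact_mod_cast i.2.2)
    rw [hT1, hT2, hP (latT (N * p) (⟨i.1, i.2.1⟩ : Nat.Primes) z),
      betaP_latT_ne hpN (⟨i.1, i.2.1⟩ : Nat.Primes) hip z]

/-- **`β_p ∘ P (T^{N p}) = 0`** when `P (T^N) = 0`. -/
theorem betaP_comp_eq_zero (hpN : ¬ p ∣ N) (hpS : p ∈ S)
    (hNS : ∀ r : ℕ, r.Prime → r ∣ N → r ∈ S) (hNpS : ∀ r : ℕ, r.Prime → r ∣ N * p → r ∈ S)
    (P : MvPolynomial (PrimeIdx S) ℤ) (hP : MvPolynomial.aeval (TfamH hNS) P = 0) :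
    (betaP ℤ hpN).toIntLinearMap ∘ₗ
      latAct (N * p) (↑S : Set ℕ) (MvPolynomial.aeval (TfamH hNpS) P) = 0 := by
  refine LinearMap.ext fun z => ?_
  rw [LinearMap.comp_apply, AddMonoidHom.coe_toIntLinearMap,
    betaP_latAct_aeval hpN hpS hNS hNpS P z, hP, map_zero, LinearMap.zero_apply,
    LinearMap.zero_apply]
  rfl

/-- the base change to `𝒪`. -/
theorem betaPO_smul_eq_zero (𝒪 : Type) [CommRing 𝒪] (hpN : ¬ p ∣ N) (hpS : p ∈ S)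
    (hNS : ∀ r : ℕ, r.Prime → r ∣ N → r ∈ S) (hNpS : ∀ r : ℕ, r.Prime → r ∣ N * p → r ∈ S)
    (P : MvPolynomial (PrimeIdx S) ℤ) (hP : MvPolynomial.aeval (TfamH hNS) P = 0)
    (y : 𝒪 ⊗[ℤ] Lam (N * p)) :
    (betaP ℤ hpN).toIntLinearMap.baseChange 𝒪
      (iotaLam (N * p) 𝒪 (↑S : Set ℕ) (MvPolynomial.aeval (TfamH hNpS) P) • y) = 0 := by
  rw [iotaLam_smul, ← LinearMap.comp_apply, ← LinearMap.baseChange_comp,
    betaP_comp_eq_zero hpN hpS hNS hNpS P hP, LinearMap.baseChange_zero, LinearMap.zero_apply]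

end Equiv

/-! ### the scalar of the killer is a unit -/

section Unit

variable {N : ℕ} [NeZero N] {𝒪 : Type} [CommRing 𝒪] [IsDomain 𝒪] [CharZero 𝒪] [IsLocalRing 𝒪]
  {lam : Nat.Primes → 𝒪} {S : Finset ℕ}

/-- the residual eigencharacter of the anemic algebra attached to a nonzero vector of the joint
eigen-sublattice. -/
noncomputable def thetaLam {x : 𝒪 ⊗[ℤ] Lam N} (hx : x ∈ eigenTensorO N 𝒪 lam) (hx0 : x ≠ 0) :
    ↥(heckeAlgebra N 2 (↑S : Set ℕ)) →+* ResidueField 𝒪 :=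
  (residue 𝒪).comp (((chiHom hx hx0 : AfLam N 𝒪 →ₐ[𝒪] 𝒪) : AfLam N 𝒪 →+* 𝒪).comp
    (iotaLam N 𝒪 (↑S : Set ℕ)))

theorem thetaLam_apply {x : 𝒪 ⊗[ℤ] Lam N} (hx : x ∈ eigenTensorO N 𝒪 lam) (hx0 : x ≠ 0)
    (t : ↥(heckeAlgebra N 2 (↑S : Set ℕ))) :
    thetaLam (S := S) hx hx0 t = residue 𝒪 (chiLam N 𝒪 lam (iotaLam N 𝒪 (↑S : Set ℕ) t)) := rfl

theorem thetaLam_T {x : 𝒪 ⊗[ℤ] Lam N} (hx : x ∈ eigenTensorO N 𝒪 lam) (hx0 : x ≠ 0)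
    {ℓ : ℕ} (hℓ : ℓ.Prime) (hℓN : ¬ ℓ ∣ N) (hℓS : ℓ ∉ (↑S : Set ℕ)) :
    thetaLam (S := S) hx hx0 (heckeAlgebra.T hℓ hℓN hℓS)
      = residue 𝒪 (lam (⟨ℓ, hℓ⟩ : Nat.Primes)) := by
  rw [thetaLam_apply]
  congr 1
  refine chiLam_eq_of_smul hx hx0 _ ?_
  rw [iotaLam_T_smul N 𝒪 (↑S : Set ℕ) hℓ hℓN hℓS x]
  exact mem_eigenTensorO.mp hx (⟨ℓ, hℓ⟩ : Nat.Primes)

/-- **the scalar of the killer is a unit.** -/
theorem isUnit_chiLam_of_killer {p : ℕ} (hp𝒪 : (p : 𝒪) ∈ maximalIdeal 𝒪)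
    (hNS : ∀ r : ℕ, r.Prime → r ∣ N → r ∈ S) (aW : ℕ → ℤ)
    (hcong : ∀ (ℓ : ℕ) (hℓ : ℓ.Prime), ℓ ∉ S →
      residue 𝒪 (lam (⟨ℓ, hℓ⟩ : Nat.Primes)) = ((aW ℓ : ℤ) : ResidueField 𝒪))
    (P : MvPolynomial (PrimeIdx S) ℤ)
    (hP1 : ∀ (θ : ↥(heckeAlgebra N 2 (↑S : Set ℕ)) →+* ResidueField 𝒪),
      (p : ResidueField 𝒪) = 0 →
      (∀ (ℓ : ℕ) (hℓ : ℓ.Prime) (hℓN : ¬ ℓ ∣ N) (hℓS : ℓ ∉ (↑S : Set ℕ)),
        θ (heckeAlgebra.T hℓ hℓN hℓS) = ((aW ℓ : ℤ) : ResidueField 𝒪)) →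
      θ (MvPolynomial.aeval (TfamH hNS) P) = 1)
    {x : 𝒪 ⊗[ℤ] Lam N} (hx : x ∈ eigenTensorO N 𝒪 lam) (hx0 : x ≠ 0) :
    IsUnit (chiLam N 𝒪 lam (iotaLam N 𝒪 (↑S : Set ℕ) (MvPolynomial.aeval (TfamH hNS) P))) := by
  have hpk : (p : ResidueField 𝒪) = 0 := by
    rw [← map_natCast (residue 𝒪), residue_eq_zero_iff]
    exact hp𝒪
  have h1 := hP1 (thetaLam (S := S) hx hx0) hpk (fun ℓ hℓ hℓN hℓS => by
    rw [thetaLam_T hx hx0 hℓ hℓN hℓS]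
    exact hcong ℓ hℓ (by exact_mod_cast hℓS))
  rw [thetaLam_apply] at h1
  by_contra hnu
  have h0 : residue 𝒪 (chiLam N 𝒪 lam
      (iotaLam N 𝒪 (↑S : Set ℕ) (MvPolynomial.aeval (TfamH hNS) P))) = 0 := by
    rw [residue_eq_zero_iff, mem_maximalIdeal, mem_nonunits_iff]
    exact hnu
  rw [h0] at h1
  exact zero_ne_one h1

end Unit

/-! ### the binder `hnew` -/

section Hnew

variable {N₀ p : ℕ} [hpF : Fact p.Prime] [NeZero N₀] [NeZero (N₀ * p)]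
  {𝒪 : Type} [CommRing 𝒪] [IsDomain 𝒪] [CharZero 𝒪] [IsLocalRing 𝒪]
  {lam' : Nat.Primes → 𝒪} {S : Finset ℕ}

/-- **`hnew` from a killer**: `P (T^{N₀}) = 0` and the scalar of `P (T^{N₀ p})` is a unit. -/
theorem hnew_of_killer (hpN₀ : ¬ p ∣ N₀) (hpS : p ∈ S)
    (hNS : ∀ r : ℕ, r.Prime → r ∣ N₀ → r ∈ S) (hNpS : ∀ r : ℕ, r.Prime → r ∣ N₀ * p → r ∈ S)
    (P : MvPolynomial (PrimeIdx S) ℤ) (hP0 : MvPolynomial.aeval (TfamH hNS) P = 0)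
    {x₀ : 𝒪 ⊗[ℤ] Lam (N₀ * p)} (hx : x₀ ∈ eigenTensorO (N₀ * p) 𝒪 lam') (hx0 : x₀ ≠ 0)
    (hu : IsUnit (chiLam (N₀ * p) 𝒪 lam'
      (iotaLam (N₀ * p) 𝒪 (↑S : Set ℕ) (MvPolynomial.aeval (TfamH hNpS) P))))
    [(mLam (N₀ * p) 𝒪 lam').IsMaximal]
    (x : 𝒪 ⊗[ℤ] Lam (N₀ * p)) (hxloc : x ∈ locPart (mLam (N₀ * p) 𝒪 lam') (𝒪 ⊗[ℤ] Lam (N₀ * p))) :
    (betaP ℤ hpN₀).toIntLinearMap.baseChange 𝒪 x = 0 := by
  set a := iotaLam (N₀ * p) 𝒪 (↑S : Set ℕ) (MvPolynomial.aeval (TfamH hNpS) P) with ha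
  have hnot : a ∉ mLam (N₀ * p) 𝒪 lam' := (notMem_mLam_iff hx hx0 a).mpr hu
  have hmem := (Submodule.mem_iInf _).mp hxloc ⟨a, hnot⟩
  obtain ⟨y, rfl⟩ := hmem
  exact betaPO_smul_eq_zero 𝒪 hpN₀ hpS hNS hNpS P hP0 y

end Hnew

/-! ### `hnew` from `¬ IsResiduallyModularOfLevel` -/

section NotResMod

variable {N₀ p : ℕ} [hpF : Fact p.Prime] [NeZero N₀] [NeZero (N₀ * p)]
  {𝒪 : Type} [CommRing 𝒪] [IsDomain 𝒪] [CharZero 𝒪] [IsLocalRing 𝒪]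

/-- **the binder `hnew` of `SupplySO.exists_supplySO`**: if `W` is not residually modular of the
level `N₀` and the system `lam'` lifts `a_ℓ(W)` away from `S`, the local part of `𝒪 ⊗ Lam (N₀ * p)`
is killed by `β_p ⊗ 𝒪`. -/
theorem hnew_of_not_resMod (W : WeierstrassCurve ℤ) (hΔ : W.Δ ≠ 0)
    (hp𝒪 : (p : 𝒪) ∈ maximalIdeal 𝒪) (hpN₀ : ¬ p ∣ N₀) (S : Finset ℕ) (hpS : p ∈ S)
    (hNpS : ∀ r : ℕ, r.Prime → r ∣ N₀ * p → r ∈ S)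
    (hno : ¬ W.IsResiduallyModularOfLevel p N₀)
    (lam' : Nat.Primes → 𝒪)
    (hcong : ∀ (ℓ : ℕ) (hℓ : ℓ.Prime), ℓ ∉ S →
      residue 𝒪 (lam' (⟨ℓ, hℓ⟩ : Nat.Primes)) = ((W.apOfModel ℓ : ℤ) : ResidueField 𝒪))
    {d : ℕ} (hd : 1 ≤ d) (hst : EtaStage (N₀ * p) 𝒪 lam' d)
    [(mLam (N₀ * p) 𝒪 lam').IsMaximal]
    (x : 𝒪 ⊗[ℤ] Lam (N₀ * p)) (hxloc : x ∈ locPart (mLam (N₀ * p) 𝒪 lam') (𝒪 ⊗[ℤ] Lam (N₀ * p))) :
    (betaP ℤ hpN₀).toIntLinearMap.baseChange 𝒪 x = 0 := by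
  have hNS : ∀ r : ℕ, r.Prime → r ∣ N₀ → r ∈ S :=
    fun r hr hrN => hNpS r hr (Dvd.dvd.mul_right hrN p)
  obtain ⟨P, hP0, hP1⟩ :=
    Fermat.Agent.GB.B10.KillerPlug.exists_killer_of_not_resMod (S := S) W hΔ hpF.out hNS hno
  obtain ⟨b, hli, hspan, -⟩ := hst
  have hx : b ⟨0, hd⟩ ∈ eigenTensorO (N₀ * p) 𝒪 lam' := by
    rw [← hspan]
    exact Submodule.subset_span ⟨_, rfl⟩
  have hx0 : b ⟨0, hd⟩ ≠ 0 := hli.ne_zero _
  have hu := isUnit_chiLam_of_killer (S := S) hp𝒪 hNpS (fun ℓ => W.apOfModel ℓ) hcong P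
    (fun θ hpk hθ => hP1 (N₀ * p) hNpS (ResidueField 𝒪) θ hpk hθ) hx hx0
  exact hnew_of_killer hpN₀ hpS hNS hNpS P hP0 hx hx0 hu x hxloc

end NotResMod

end Fermat.Agent.GE9.Stage.HnewKiller
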