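/-
GATE-E (S59) / SO(a) step supply (helper10): **helper73's residual `Prop`
`SupplySONew.NewLoc p M lam Sg` ("the `𝔪`-local part of the stage lattice is `p`-new") from
`¬ IsResiduallyModularOfLevel p (M / p * ∏ x ∈ Sg, x ^ 2)`** — `HnewKiller.hnew_of_not_resMod` at
the stage level, the reference eigenvector of the stage coming from `Eta/Chain.etaStage_lev`.

* `n0_eq` : `N₀ * p = M * ∏ x ∈ Sg, x ^ 2 → N₀ = M / p * ∏ x ∈ Sg, x ^ 2` (`p ∣ M`);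
* **`newLoc_of_not_resMod`** : `NewLoc p M lam Sg`.
-/
import Mathlib
import Fermat.Agent.GE9.Stage.HnewKiller
import Fermat.Agent.GE9.Stage.SupplySONew

set_option autoImplicit false
set_option linter.unusedSectionVars false
set_option linter.unusedVariables false

open scoped TensorProduct
open IsLocalRing CuspForm

namespace Fermat.Agent.GE9.Stage.NewLocKiller

open Fermat.Agent.GJ.J2.Lat Fermat.Agent.GB.B3.Loc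
  Fermat.Agent.GE9.Eta.Mod Fermat.Agent.GE9.Eta.Chain Fermat.Agent.GE9.Mult1
  Fermat.Agent.GE9.Stage.CarrierLam Fermat.Agent.GE9.Stage.SupplyFrob
  Fermat.Agent.GE9.Stage.SupplySONew Fermat.Agent.GE9.Stage.HnewKiller
  Fermat.Agent.GE.Engine.LevArith Fermat.Agent.GM.B

/-- the level prime to `p` of the stage. -/
theorem n0_eq {M p N₀ : ℕ} (hp : p.Prime) (hpM : p ∣ M) (Sg : Finset ℕ)
    (h : N₀ * p = M * ∏ x ∈ Sg, x ^ 2) : N₀ = M / p * ∏ x ∈ Sg, x ^ 2 := by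
  have h1 : (M / p * ∏ x ∈ Sg, x ^ 2) * p = M * ∏ x ∈ Sg, x ^ 2 := by
    rw [mul_right_comm, Nat.div_mul_cancel hpM]
  exact Nat.eq_of_mul_eq_mul_right hp.pos (h.trans h1.symm)

variable {𝒪 : Type} [CommRing 𝒪] [IsDomain 𝒪] [IsDiscreteValuationRing 𝒪]
  [IsAdicComplete (maximalIdeal 𝒪) 𝒪] [Finite (ResidueField 𝒪)] [CharZero 𝒪]

/-- **`NewLoc` from `¬ IsResiduallyModularOfLevel`** at the level `M / p * ∏ x ∈ Sg, x ^ 2`. -/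
theorem newLoc_of_not_resMod (W : WeierstrassCurve ℤ) (hΔ : W.Δ ≠ 0)
    {p : ℕ} [Fact p.Prime] (hp2 : p ≠ 2) (hp𝒪 : (p : 𝒪) ∈ maximalIdeal 𝒪)
    {ϖ : 𝒪} (hϖ : Irreducible ϖ) (hpϖ : ∃ c : 𝒪, (p : 𝒪) = ϖ * c)
    {M : ℕ} [NeZero M] (hpM : p ∣ M) (lam : Nat.Primes → 𝒪)
    (hne : ∀ (F : Finset ℕ) (q : ℕ), q.Prime → ∃ l : Nat.Primes, (l : ℕ) ∉ F ∧
      (((l : ℕ) : ZMod q) = 1) ∧ IsUnit (lam l - (((l : ℕ) : 𝒪) + 1)))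
    {d : ℕ} (hd : 2 ≤ d) (hbase : EtaStage M 𝒪 lam d)
    (Sg : Finset ℕ) (hSg : ∀ x ∈ Sg, x.Prime ∧ ¬ x ∣ M)
    (S0 : Finset ℕ) (hpS0 : p ∈ S0) (hMS0 : ∀ r : ℕ, r.Prime → r ∣ M → r ∈ S0)
    (hSgS0 : ∀ x ∈ Sg, x ∈ S0)
    (hcong : ∀ (ℓ : ℕ) (hℓ : ℓ.Prime), ℓ ∉ S0 →
      residue 𝒪 (lam (⟨ℓ, hℓ⟩ : Nat.Primes)) = ((W.apOfModel ℓ : ℤ) : ResidueField 𝒪))
    (hno : ¬ W.IsResiduallyModularOfLevel p (M / p * ∏ x ∈ Sg, x ^ 2)) :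
    NewLoc p M lam Sg := by
  have hp : p.Prime := Fact.out
  intro N₀ _ hpN₀ hN' _ x hx
  have hSgp : ∀ x ∈ Sg, x.Prime := fun x hx => (hSg x hx).1
  have hN₀ : N₀ = M / p * ∏ x ∈ Sg, x ^ 2 := n0_eq hp hpM Sg hN'
  have hno' : ¬ W.IsResiduallyModularOfLevel p N₀ := by
    rw [hN₀]
    exact hno
  have hd0 : d ≠ 0 := by omega
  have hst : EtaStage (N₀ * p) 𝒪 (lamAt lam Sg) d :=
    etaStage_lev hp hp2 hϖ hpϖ lam hne hd hbase Sg hSg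
      (fun q hq hqS => cq_ne_zero_of_etaStage lam hd0 hbase q hq (hSg q hqS).2) (N₀ * p) hN'
  have hNpS : ∀ r : ℕ, r.Prime → r ∣ N₀ * p → r ∈ S0 := by
    rw [hN']
    exact mem_S0_of_dvd_lev hSgp hMS0 hSgS0
  have hcong' : ∀ (ℓ : ℕ) (hℓ : ℓ.Prime), ℓ ∉ S0 →
      residue 𝒪 (lamAt lam Sg (⟨ℓ, hℓ⟩ : Nat.Primes))
        = ((W.apOfModel ℓ : ℤ) : ResidueField 𝒪) := by
    intro ℓ hℓ hℓS
    rw [lamAt_of_notMem lam (show ((⟨ℓ, hℓ⟩ : Nat.Primes) : ℕ) ∉ Sg from fun h => hℓS (hSgS0 ℓ h))]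
    exact hcong ℓ hℓ hℓS
  exact hnew_of_not_resMod W hΔ hp𝒪 hpN₀ S0 hpS0 hNpS hno' (lamAt lam Sg) hcong'
    (by omega : 1 ≤ d) hst x hx

end Fermat.Agent.GE9.Stage.NewLocKiller
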