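/-
GATE-E (S59) / RISK-4 (e9) (helper31): **STAGE-RAW, flat case, at a GENERAL set `Sig'`** — helper11's
`RawFL.exists_raw_of_defRing` with `insert q Sig` replaced by an arbitrary `Sig'` (the proof never
uses `q`), and with the stage `Y` of ANY type (it only supplies the Hecke polynomials of `ρbar`).

WHY (board 7819): R4-D (`PNew/StageFreeRT.stage_free_of_rtNum`) and helper16's `StepNewCore` run at
the CONCRETE carrier of a stage `Y` with `D' := Y.rt.D`; the landed lemma types `D'` at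
`insert q Sig`, so `D' := Y.rt.D` does not typecheck.  Here it does:

* `exists_raw_of_defRing_gen` : any `Sig'`, any
  `D' : DeformationRingData 𝒪 ρbar (condFL 𝒪 p Smin Sig')`;
* **`exists_raw_same`** : `Sig' := Sig`, `D' := Y.rt.D` — `ρT'`, `φ' : Y.rt.D.R ↠ T'`,
  Eichler–Shimura, `η ≠ 0` = the raw binders of `stage_free_of_rtNum`;
* `exists_rawFL_same` : the same with a presentation `γ : 𝒪⟦X⟧ ↠ Y.rt.D.R`
  (`GE6.DefRing.exists_surjective_FL`) and the set `B := badSet S0 N'` with `hB`, `heig` in the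
  shape of `stage_free_of_rtNum`.
-/
import Fermat.Agent.GE9.Stage.RawFL

set_option autoImplicit false
set_option linter.unusedSectionVars false
set_option linter.unusedVariables false
set_option linter.style.haveILetI false

noncomputable section

namespace Fermat.Agent.GE9.Stage.RawFLGen

open CuspForm IsLocalRing Polynomial GaloisRep
open Fermat.Agent.GE.Graph Fermat.Agent.GE9.Ind Fermat.Agent.GE9.NumCrit
  Fermat.Agent.GE9.CotGrowth Fermat.Agent.GE9.Stage.RawFL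
open Fermat.Agent.GB.B4.Datum.Carrier Fermat.Agent.GB.B4.Datum.Push

local notation "GQ" => (AlgebraicClosure ℚ ≃ₐ[ℚ] AlgebraicClosure ℚ)
local notation "Qb" => AlgebraicClosure ℚ

variable {𝒪 : Type} [CommRing 𝒪] [IsDomain 𝒪] [IsDiscreteValuationRing 𝒪]
  [IsAdicComplete (maximalIdeal 𝒪) 𝒪] [Finite (ResidueField 𝒪)] [CharZero 𝒪]
  {ρbar : ResidualGaloisRep (ResidueField 𝒪)} {p : ℕ} [Fact p.Prime]
  {Smin Sig : Finset ℕ} {d : ℕ}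

/-- **STAGE-RAW, flat case, general `Sig'`**: for a given deformation datum `D'` of the problem
`condFL 𝒪 p Smin Sig'` and ANY finite free local carrier `T'` generated by `π'` with an augmentation
`πO'` having the eigenvalues of the modular point of a stage `Y` (of any type). -/
theorem exists_raw_of_defRing_gen {𝒟₀ : DefCondE 𝒪} (Y : RTNum ρbar 𝒟₀ d) (Sig' : Finset ℕ)
    (hp2 : p ≠ 2) (hp𝒪 : (p : 𝒪) ∈ maximalIdeal 𝒪) (hpSmin : p ∈ Smin)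
    (S0 : Finset ℕ) (hYS : Y.rt.S ⊆ (↑S0 : Set ℕ))
    {N' : ℕ} [NeZero N'] (hNN' : Y.rt.N ∣ N') (hpN' : ¬ p ∣ N') (hpS : p ∈ S0)
    (hNS : ∀ r : ℕ, r.Prime → r ∣ N' → r ∈ S0)
    (hNT : ∀ r : ℕ, r.Prime → r ∣ N' → r ∈ Smin ∪ Sig')
    (hSminN' : ∀ r ∈ Smin, r.Prime → r ≠ p → r ∣ N' ∧ ¬ r ^ 2 ∣ N')
    {T' : Type} [CommRing T'] [IsLocalRing T'] [Algebra 𝒪 T'] [Module.Finite 𝒪 T']
    [Module.Free 𝒪 T']
    (π' : heckeAlgebra N' 2 (↑S0 : Set ℕ) →+* T')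
    (hgen : Algebra.adjoin 𝒪 (Set.range π') = ⊤)
    (πO' : T' →ₐ[𝒪] 𝒪)
    (heig : ∀ (ℓ : ℕ) (hℓ : ℓ.Prime) (hℓN : ¬ ℓ ∣ Y.rt.N) (hℓS : ℓ ∉ Y.rt.S) (hℓN' : ¬ ℓ ∣ N')
      (hℓS' : ℓ ∉ (↑S0 : Set ℕ)),
        πO' (π' (heckeAlgebra.T hℓ hℓN' hℓS')) = Y.πO (Y.rt.π (heckeAlgebra.T hℓ hℓN hℓS)))
    (D' : DeformationRingData 𝒪 ρbar (condFL 𝒪 p Smin (Sig'))) :
    ∃ (ρT' : GaloisRepAdic T') (φ' : D'.R →ₐ[𝒪] T')
      (φ'_local : IsLocalHom (φ' : D'.R →+* T')),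
      (∀ (r : ℕ) (hr : r.Prime) (hrN : ¬ r ∣ N') (hrS : r ∉ (↑S0 : Set ℕ)),
        ∀ A : ValuationSubring Qb, A.LiesOverPrime r → ∀ σ : GQ, A.IsFrobeniusAt σ r →
          LinearMap.charpoly (ρT'.ρ σ) =
            X ^ 2 - C (π' (heckeAlgebra.T hr hrN hrS)) * X + C ((r : T'))) ∧
      Function.Surjective φ' ∧
      (D'.ρ.baseChangeAlong (φ' : D'.R →+* T') φ'_local).IsEquiv ρT' ∧
      etaIdeal πO' ≠ ⊥ := by
  have hp : p.Prime := Fact.out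
  -- the carrier
  haveI hlocA : IsLocalHom (algebraMap 𝒪 T') := isLocalHom_algebraMap_of_aug πO'
  haveI : IsNoetherianRing T' := IsNoetherianRing.of_finite 𝒪 T'
  haveI : IsAdicComplete (maximalIdeal T') T' :=
    IsLocalRing.isAdicComplete_of_module_finite (𝒪 := 𝒪)
  have hressurj : Function.Surjective (residue T' ∘ algebraMap 𝒪 T') :=
    residue_comp_algebraMap_surjective_of_aug πO'
  -- the residual eigensystem at level `N'`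
  let θ' : heckeAlgebra N' 2 (↑S0 : Set ℕ) →+* ResidueField 𝒪 :=
    (residue 𝒪).comp ((πO' : T' →+* 𝒪).comp π')
  have hres : ∀ t, residue T' (π' t) = ResidueField.map (algebraMap 𝒪 T') (θ' t) :=
    fun t => residue_eq_map_of_aug πO' π' t
  have hfrob : ∀ (ℓ : ℕ) (hℓ : ℓ.Prime) (hℓN : ¬ ℓ ∣ N') (hℓS : ℓ ∉ (↑S0 : Set ℕ)),
      ∀ P : ValuationSubring Qb, P.LiesOverPrime ℓ → ∀ σ : GQ, P.IsFrobeniusAt σ ℓ →
        ∃ d₀ : ResidueField 𝒪, LinearMap.charpoly (ρbar.ρ σ) =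
          X ^ 2 - C (θ' (heckeAlgebra.T hℓ hℓN hℓS)) * X + C d₀ := by
    intro ℓ hℓ hℓN' hℓS' P hP σ hσ
    have hℓN : ¬ ℓ ∣ Y.rt.N := fun h => hℓN' (h.trans hNN')
    have hℓS : ℓ ∉ Y.rt.S := fun h => hℓS' (hYS h)
    refine ⟨residue 𝒪 ((ℓ : ℕ) : 𝒪), ?_⟩
    rw [charpoly_rhobar_of_rtNum Y ℓ hℓ hℓN hℓS P hP σ hσ, ← heig ℓ hℓ hℓN hℓS hℓN' hℓS']
    rfl
  -- the datum on `Tloc 𝒪 θ'`, pushed to `T'`
  obtain ⟨H, hπ, -, hunrH, hresH⟩ :=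
    Fermat.Agent.GB.Glue.DatumOfRhobar.exists_datum p N' S0 𝒪 θ' hp2 hpS hNS hp𝒪 ρbar D'.absIrr
      hfrob
  obtain ⟨φ, hφ, hφs, hφt, hchar, hflat, hunip⟩ :=
    Fermat.Agent.GB.B4.Datum.PushTloc.exists_galRep_flat (TQ := T') hp hp2 hp𝒪 hpN' hpS hNS
      H hπ π' hres hgen S0 Smin (Finset.Subset.refl S0) hSminN'
  -- the type of the pushed representation
  have h𝒟 : condFL 𝒪 p Smin (Sig') (pushRep H φ.toRingHom hφ) := by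
    refine ⟨⟨hflat.1, hflat.2.1, fun r hr hrT => ?_⟩, hunip⟩
    exact Fermat.Agent.GP.Tan.isUnramifiedAt_baseChangeAlong φ.toRingHom hφ
      (hunrH r hr (fun hrN => hrT (hNT r hr hrN))
        (fun hrp => hrT (by rw [hrp]; exact Finset.mem_union_left _ hpSmin)))
  -- its residual representation
  have hresQ : (pushRep H φ.toRingHom hφ).residual.IsEquiv
      (ρbar.baseChangeAlong (ResidueField.map (algebraMap 𝒪 T'))) := by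
    have h := Fermat.Agent.GB.B4.Datum.PushTloc.residual_push H.ρ φ.toRingHom hφ ρbar
      (ResidueField.map (algebraMap 𝒪 (Tloc 𝒪 θ'))) hresH
    haveI := hφ
    have e : (ResidueField.map φ.toRingHom).comp (ResidueField.map (algebraMap 𝒪 (Tloc 𝒪 θ'))) =
        ResidueField.map (algebraMap 𝒪 T') := by
      ext x
      obtain ⟨a, rfl⟩ := residue_surjective x
      rw [RingHom.comp_apply, ResidueField.map_residue, ResidueField.map_residue,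
        ResidueField.map_residue]
      congr 1
      exact φ.commutes a
    rw [e] at h
    exact h
  obtain ⟨ψ, hψ, hsurj, he⟩ := Fermat.Agent.GB.B4.Datum.PsiTQPush.exists_psi_of_type D' hNS
    hressurj (pushRep H φ.toRingHom hφ) h𝒟 hresQ π' hgen hchar
  -- `η ≠ 0`
  haveI : IsReduced (heckeAlgebra N' 2 (↑S0 : Set ℕ)) :=
    Fermat.Agent.GS.Pet.isReduced_heckeAlgebra N' 2 (↑S0 : Set ℕ)
      (fun r hr hrN => Finset.mem_coe.mpr (hNS r hr hrN))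
  haveI : IsReduced T' :=
    Fermat.Agent.GS.Pet.DatumAlg.isReduced_of_adjoin_range (O := 𝒪) π' hgen
  exact ⟨pushRep H φ.toRingHom hφ, ψ, hψ, hchar, hsurj, he, etaIdeal_ne_bot_of_finite πO'⟩

/-- **STAGE-RAW at the SAME stage**: `D' := Y.rt.D` — the raw binders of
`PNew/StageFreeRT.stage_free_of_rtNum` at a concrete carrier of the stage `Y` itself. -/
theorem exists_raw_same (Y : RTNum ρbar (condFL 𝒪 p Smin Sig) d)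
    (hp2 : p ≠ 2) (hp𝒪 : (p : 𝒪) ∈ maximalIdeal 𝒪) (hpSmin : p ∈ Smin)
    (S0 : Finset ℕ) (hYS : Y.rt.S ⊆ (↑S0 : Set ℕ))
    {N' : ℕ} [NeZero N'] (hNN' : Y.rt.N ∣ N') (hpN' : ¬ p ∣ N') (hpS : p ∈ S0)
    (hNS : ∀ r : ℕ, r.Prime → r ∣ N' → r ∈ S0)
    (hNT : ∀ r : ℕ, r.Prime → r ∣ N' → r ∈ Smin ∪ Sig)
    (hSminN' : ∀ r ∈ Smin, r.Prime → r ≠ p → r ∣ N' ∧ ¬ r ^ 2 ∣ N')
    {T' : Type} [CommRing T'] [IsLocalRing T'] [Algebra 𝒪 T'] [Module.Finite 𝒪 T']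
    [Module.Free 𝒪 T']
    (π' : heckeAlgebra N' 2 (↑S0 : Set ℕ) →+* T')
    (hgen : Algebra.adjoin 𝒪 (Set.range π') = ⊤)
    (πO' : T' →ₐ[𝒪] 𝒪)
    (heig : ∀ (ℓ : ℕ) (hℓ : ℓ.Prime) (hℓN : ¬ ℓ ∣ Y.rt.N) (hℓS : ℓ ∉ Y.rt.S) (hℓN' : ¬ ℓ ∣ N')
      (hℓS' : ℓ ∉ (↑S0 : Set ℕ)),
        πO' (π' (heckeAlgebra.T hℓ hℓN' hℓS')) = Y.πO (Y.rt.π (heckeAlgebra.T hℓ hℓN hℓS))) :
    ∃ (ρT' : GaloisRepAdic T') (φ' : Y.rt.D.R →ₐ[𝒪] T')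
      (φ'_local : IsLocalHom (φ' : Y.rt.D.R →+* T')),
      (∀ (r : ℕ) (hr : r.Prime) (hrN : ¬ r ∣ N') (hrS : r ∉ (↑S0 : Set ℕ)),
        ∀ A : ValuationSubring Qb, A.LiesOverPrime r → ∀ σ : GQ, A.IsFrobeniusAt σ r →
          LinearMap.charpoly (ρT'.ρ σ) =
            X ^ 2 - C (π' (heckeAlgebra.T hr hrN hrS)) * X + C ((r : T'))) ∧
      Function.Surjective φ' ∧
      (Y.rt.D.ρ.baseChangeAlong (φ' : Y.rt.D.R →+* T') φ'_local).IsEquiv ρT' ∧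
      etaIdeal πO' ≠ ⊥ :=
  exists_raw_of_defRing_gen Y Sig hp2 hp𝒪 hpSmin S0 hYS hNN' hpN' hpS hNS hNT hSminN' π' hgen πO'
    heig Y.rt.D

variable [Algebra (ZMod p) (ResidueField 𝒪)]

/-- **STAGE-RAW at the same stage, with the presentation and the bad set**: every non-numerical
binder of `PNew/StageFreeRT.stage_free_of_rtNum` (`B := badSet S0 N'`). -/
theorem exists_rawFL_same (Y : RTNum ρbar (condFL 𝒪 p Smin Sig) d)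
    (hp2 : p ≠ 2) (hp𝒪 : (p : 𝒪) ∈ maximalIdeal 𝒪) (hpSmin : p ∈ Smin)
    (hmin : ∀ r : ℕ, r.Prime → r ≠ p → (r ∈ Smin ↔ ¬ ρbar.IsUnramifiedAt r))
    (S0 : Finset ℕ) (hYS : Y.rt.S ⊆ (↑S0 : Set ℕ))
    {N' : ℕ} [NeZero N'] (hNN' : Y.rt.N ∣ N') (hpN' : ¬ p ∣ N') (hpS : p ∈ S0)
    (hNS : ∀ r : ℕ, r.Prime → r ∣ N' → r ∈ S0)
    (hNT : ∀ r : ℕ, r.Prime → r ∣ N' → r ∈ Smin ∪ Sig)
    (hSminN' : ∀ r ∈ Smin, r.Prime → r ≠ p → r ∣ N' ∧ ¬ r ^ 2 ∣ N')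
    {T' : Type} [CommRing T'] [IsLocalRing T'] [Algebra 𝒪 T'] [Module.Finite 𝒪 T']
    [Module.Free 𝒪 T']
    (π' : heckeAlgebra N' 2 (↑S0 : Set ℕ) →+* T')
    (hgen : Algebra.adjoin 𝒪 (Set.range π') = ⊤)
    (πO' : T' →ₐ[𝒪] 𝒪)
    (heig : ∀ (ℓ : ℕ) (hℓ : ℓ.Prime) (hℓN : ¬ ℓ ∣ Y.rt.N) (hℓS : ℓ ∉ Y.rt.S) (hℓN' : ¬ ℓ ∣ N')
      (hℓS' : ℓ ∉ (↑S0 : Set ℕ)),
        πO' (π' (heckeAlgebra.T hℓ hℓN' hℓS')) = Y.πO (Y.rt.π (heckeAlgebra.T hℓ hℓN hℓS))) :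
    ∃ (ρT' : GaloisRepAdic T') (φ' : Y.rt.D.R →ₐ[𝒪] T')
      (φ'_local : IsLocalHom (φ' : Y.rt.D.R →+* T')) (m : ℕ)
      (γ : MvPowerSeries (Fin m) 𝒪 →ₐ[𝒪] Y.rt.D.R),
      (∀ (r : ℕ) (hr : r.Prime) (hrN : ¬ r ∣ N') (hrS : r ∉ (↑S0 : Set ℕ)),
        ∀ A : ValuationSubring Qb, A.LiesOverPrime r → ∀ σ : GQ, A.IsFrobeniusAt σ r →
          LinearMap.charpoly (ρT'.ρ σ) =
            X ^ 2 - C (π' (heckeAlgebra.T hr hrN hrS)) * X + C ((r : T'))) ∧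
      Function.Surjective φ' ∧
      (Y.rt.D.ρ.baseChangeAlong (φ' : Y.rt.D.R →+* T') φ'_local).IsEquiv ρT' ∧
      etaIdeal πO' ≠ ⊥ ∧ Function.Surjective γ ∧
      (∀ ℓ : ℕ, ℓ.Prime → ℓ ∉ badSet S0 N' →
        ¬ ℓ ∣ Y.rt.N ∧ ℓ ∉ Y.rt.S ∧ ¬ ℓ ∣ N' ∧ ℓ ∉ (↑S0 : Set ℕ)) ∧
      (∀ (ℓ : ℕ) (hℓ : ℓ.Prime) (hℓN : ¬ ℓ ∣ Y.rt.N) (hℓS : ℓ ∉ Y.rt.S) (hℓN' : ¬ ℓ ∣ N')
        (hℓS' : ℓ ∉ (↑S0 : Set ℕ)), ℓ ∉ badSet S0 N' →
          πO' (π' (heckeAlgebra.T hℓ hℓN' hℓS')) =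
            Y.πO (Y.rt.π (heckeAlgebra.T hℓ hℓN hℓS))) := by
  obtain ⟨m, hm⟩ := Fermat.Agent.GE6.DefRing.exists_surjective_FL (𝒪 := 𝒪) p ρbar hp2 Smin
    Sig hpSmin hmin
  obtain ⟨γ, hγ⟩ := hm Y.rt.D
  obtain ⟨ρT', φ', φ'_local, hcp', hφ', φ'_ρ, hη'⟩ := exists_raw_same Y hp2 hp𝒪 hpSmin S0
    hYS hNN' hpN' hpS hNS hNT hSminN' π' hgen πO' heig
  exact ⟨ρT', φ', φ'_local, m, γ, hcp', hφ', φ'_ρ, hη', hγ, hB_badSet Y S0 hYS hNN',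
    fun ℓ hℓ hℓN hℓS hℓN' hℓS' _ => heig ℓ hℓ hℓN hℓS hℓN' hℓS'⟩

end Fermat.Agent.GE9.Stage.RawFLGen

end
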