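/-
GATE-E / RISK-4 + SO(a) STEP, the `hann` SPELLING PLUG (helper39): **from the faithfulness clause of
helper73's `GE9/Stage/SupplySO.exists_supplySO` (kernel of `betaP`, `CarrierFaith.actO`,
`CarrierFaith.liftO`) to the clause `hann` of `GE/Engine/StepSO.StepSupplySO` / `GE9/Stage/RawSO`
VERBATIM (`LamNew`, `(levelData …).heckeTensor`, `GalPkgSO.twO`).**

* `mem_lamNew_of_betaP`   : `betaP ℤ hpN₀ x = 0 → x ∈ LamNew hpN₀`;
* `actO_eq_hTens`         : `CarrierFaith.actO N 𝒪 S t₀ = HannImg.hTens N S 𝒪 t₀`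
                            (`= (levelData …).heckeTensor 𝒪 t₀` by `rfl`);
* **`hann_of_betaP_clause`** : the conversion; also `hann_of_locPart_clause` : from the raw
  faithfulness clause of `CarrierFaith.exists_carrier_lam_faith` / `CarrierNd.exists_carrier_nd`
  (`t₀` kills `locPart 𝔪 (𝒪 ⊗ Lam (N₀ p))` ⟹ `liftO π' t₀ = 0`) + `hnew` (`locPart ⊆ ker (β_p ⊗ 𝒪)`),
  through the flatness lemma `HannImg.mem_newSpan_of_betaP`.
-/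
import Mathlib
import Fermat.Agent.GE9.Stage.CarrierFaith
import Fermat.Agent.GE9.PNew.Inst.HannImg

set_option autoImplicit false
set_option linter.unusedSectionVars false
set_option linter.unusedVariables false

noncomputable section

namespace Fermat.Agent.GE9.Stage.HannPlug

open TensorProduct CuspForm IsLocalRing
open Fermat.Agent.GJ.J2.Lat Fermat.Agent.GJ.J2.LatAct Fermat.Agent.GM.B
open Fermat.Agent.GB.B3.Loc
open Fermat.Agent.GB.B10.KumLevelHecke Fermat.Agent.GB.B10.L.ThetaNew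
open Fermat.Agent.GE9.Stage.CarrierAbs Fermat.Agent.GE9.Stage.CarrierLam
  Fermat.Agent.GE9.Stage.CarrierFaith
open Fermat.Agent.GE9.PNew.Inst.HannImg

variable {N₀ p : ℕ} [NeZero N₀] [Fact p.Prime]

/-- the kernel of `β_p = (cores_p, cores_{p,δ})` is the `p`-new lattice. -/
theorem mem_lamNew_of_betaP (hpN₀ : ¬ p ∣ N₀) {x : Lam (N₀ * p)} (hx : betaP ℤ hpN₀ x = 0) :
    x ∈ LamNew hpN₀ := by
  rw [betaP_apply] at hx
  exact mem_lamNew_of_coresP hpN₀ x (congrArg Prod.fst hx) (congrArg Prod.snd hx)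

section Act

variable {N : ℕ} [NeZero N] {S : Set ℕ} {𝒪 : Type} [CommRing 𝒪] [IsLocalRing 𝒪]

/-- helper73's `actO` is `hTens` (hence `(levelData …).heckeTensor 𝒪`). -/
theorem actO_eq_hTens (t₀ : 𝒪 ⊗[ℤ] heckeAlgebra N 2 S) (x : 𝒪 ⊗[ℤ] Lam N) :
    actO N 𝒪 S t₀ x = hTens N S 𝒪 t₀ x := by
  induction t₀ using TensorProduct.induction_on with
  | zero => rw [map_zero, map_zero]
  | add a b ha hb => rw [map_add, map_add, LinearMap.add_apply, LinearMap.add_apply, ha, hb]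
  | tmul c t => rw [actO_tmul, hTens_tmul, LinearMap.smul_apply]

end Act

variable {S0 : Finset ℕ} (hpS : p ∈ S0) (hNS : ∀ r : ℕ, r.Prime → r ∣ N₀ * p → r ∈ S0)
  (hpN₀ : ¬ p ∣ N₀) {𝒪 : Type} [CommRing 𝒪] [IsLocalRing 𝒪]
  {T' : Type} [CommRing T'] [Algebra 𝒪 T']

/-- **the clause `hann` of `StepSupplySO` / `RawSO` VERBATIM from the `betaP`-kernel clause of
`SupplySO.exists_supplySO`.** -/
theorem hann_of_betaP_clause (π' : heckeAlgebra (N₀ * p) 2 (↑S0 : Set ℕ) →+* T')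
    (hfaith : ∀ t₀ : 𝒪 ⊗[ℤ] heckeAlgebra (N₀ * p) 2 (↑S0 : Set ℕ),
      (∀ (a : 𝒪) (x : Lam (N₀ * p)), betaP ℤ hpN₀ x = 0 →
        actO (N₀ * p) 𝒪 (↑S0 : Set ℕ) t₀ (a ⊗ₜ[ℤ] x) = 0) → liftO (𝒪 := 𝒪) π' t₀ = 0) :
    ∀ t₀ : 𝒪 ⊗[ℤ] heckeAlgebra (N₀ * p) 2 (↑S0 : Set ℕ),
      (∀ (a : 𝒪), ∀ x ∈ (LamNew hpN₀ : AddSubgroup (levelData p (N₀ * p) hpS hNS).Λ),
        (levelData p (N₀ * p) hpS hNS).heckeTensor 𝒪 t₀ (a ⊗ₜ[ℤ] x) = 0) →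
      Fermat.Agent.GB.B10.L.GalPkgSO.twO (𝒪 := 𝒪) π' t₀ = 0 := by
  intro t₀ ht₀
  refine hfaith t₀ fun a x hx => ?_
  rw [actO_eq_hTens]
  exact ht₀ a x (mem_lamNew_of_betaP hpN₀ hx)

/-- **the same from the RAW faithfulness clause** (`t₀` kills a submodule `L` ⟹ `liftO π' t₀ = 0`,
as in `CarrierFaith.exists_carrier_lam_faith`, `CarrierNd.exists_carrier_nd`) **and `hnew`**
(`L ⊆ ker (β_p ⊗ 𝒪)`), through flatness. -/
theorem hann_of_sub_clause [Module.Flat ℤ 𝒪] (π' : heckeAlgebra (N₀ * p) 2 (↑S0 : Set ℕ) →+* T')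
    (L : Set (𝒪 ⊗[ℤ] Lam (N₀ * p)))
    (hnew : ∀ x ∈ L, (betaP ℤ hpN₀).toIntLinearMap.baseChange 𝒪 x = 0)
    (hfaith : ∀ t₀ : 𝒪 ⊗[ℤ] heckeAlgebra (N₀ * p) 2 (↑S0 : Set ℕ),
      (∀ x ∈ L, actO (N₀ * p) 𝒪 (↑S0 : Set ℕ) t₀ x = 0) → liftO (𝒪 := 𝒪) π' t₀ = 0) :
    ∀ t₀ : 𝒪 ⊗[ℤ] heckeAlgebra (N₀ * p) 2 (↑S0 : Set ℕ),
      (∀ (a : 𝒪), ∀ x ∈ (LamNew hpN₀ : AddSubgroup (levelData p (N₀ * p) hpS hNS).Λ),
        (levelData p (N₀ * p) hpS hNS).heckeTensor 𝒪 t₀ (a ⊗ₜ[ℤ] x) = 0) →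
      Fermat.Agent.GB.B10.L.GalPkgSO.twO (𝒪 := 𝒪) π' t₀ = 0 := by
  intro t₀ ht₀
  refine hfaith t₀ fun x hx => ?_
  rw [actO_eq_hTens]
  exact hTens_eq_zero_of_mem_newSpan hpN₀ t₀
    (hTens_kills_of_heckeTensor hpS hNS hpN₀ t₀ ht₀) (mem_newSpan_of_betaP hpN₀ x (hnew x hx))

end Fermat.Agent.GE9.Stage.HannPlug
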