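/-
GATE-E / GE9-STAGE, SO(a) STEP, the VERBATIM PLUG (helper39; hand-over from helper73 7882):
**`SupplySOFrob.exists_supplySO_frob` with the `p`-new clause in the spelling of
`GE/Engine/StepSO.StepSupplySO` / `GE9/Stage/RawSO` VERBATIM** — `LamNew (not_dvd_of_exactDvd h)`,
`(levelData p (N₀ * p) hpS hNS).heckeTensor 𝒪`, `GB/B10/L/GalPkgSO.twO` — for ANY `N₀` with
`hN' : N₀ * p = M * ∏_{x ∈ insert q Sg} x²` (the engine's literal is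
`N₀ := M / p * ∏_{x ∈ insert q Sg} x²`, `hN' := StepSO.n0_mul_p hpM _`).

Conversion = `HannPlug.hann_of_betaP_clause` (`ker betaP = LamNew`, `actO = heckeTensor`,
`liftO = twO` by `rfl`).  Binders left: `hne`, `hbase`, `hno`, `hnew` (as in `exists_supplySO_frob`).
-/
import Mathlib
import Fermat.Agent.GE9.Stage.SupplySOFrob
import Fermat.Agent.GE9.Stage.HannPlug
import Fermat.Agent.GB.B10.L.StrictQNew

set_option autoImplicit false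
set_option linter.unusedSectionVars false
set_option linter.unusedVariables false
set_option linter.style.haveILetI false

noncomputable section

namespace Fermat.Agent.GE9.Stage.SupplySOPlug

open TensorProduct IsLocalRing Submodule CuspForm
open Fermat.Agent.GJ.J2.Lat Fermat.Agent.GJ.J2.LatAct Fermat.Agent.GB.B3.Loc
open Fermat.Agent.GE.Graph Fermat.Agent.GE9.Ind Fermat.Agent.GE9.Asm Fermat.Agent.GE9.NumCrit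
  Fermat.Agent.GE9.TanGrow
open Fermat.Agent.GE9.Eta Fermat.Agent.GE9.Eta.Mod Fermat.Agent.GE9.Eta.Chain
  Fermat.Agent.GE9.Mult1
open Fermat.Agent.GE9.Stage.CarrierLam Fermat.Agent.GE9.Stage.CarrierFaith
  Fermat.Agent.GE9.OldQ.Consumer Fermat.Agent.GM.B
open Fermat.Agent.GK.AL
open Fermat.Agent.GB.B10.KumLevelHecke Fermat.Agent.GB.B10.L.ThetaNew
  Fermat.Agent.GB.B10.L.StrictQNew

local notation "GQ" => (AlgebraicClosure ℚ ≃ₐ[ℚ] AlgebraicClosure ℚ)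
local notation "Qb" => AlgebraicClosure ℚ

variable {𝒪 : Type} [CommRing 𝒪] [IsDomain 𝒪] [IsDiscreteValuationRing 𝒪]
  [IsAdicComplete (maximalIdeal 𝒪) 𝒪] [Finite (ResidueField 𝒪)] [CharZero 𝒪]
  {ρbar : ResidualGaloisRep (ResidueField 𝒪)} {𝒟 : DefCondE 𝒪} {d : ℕ}

/-- **The carrier + numerics of ONE step, strict-ordinary case (a), abstract stage, with the `p`-new
clause `hann` VERBATIM as in `StepSO.StepSupplySO`.** -/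
theorem exists_supplySO_verbatim (Y : RTNum ρbar 𝒟 d) (p : ℕ) [Fact p.Prime] (hp2 : p ≠ 2)
    (hp𝒪 : (p : 𝒪) ∈ maximalIdeal 𝒪)
    {ϖ : 𝒪} (hϖ : Irreducible ϖ) (hpϖ : ∃ c : 𝒪, (p : 𝒪) = ϖ * c)
    {M : ℕ} [NeZero M] (hsq : Squarefree M) (lam : Nat.Primes → 𝒪)
    (hne : ∀ (F : Finset ℕ) (q : ℕ), q.Prime → ∃ l : Nat.Primes, (l : ℕ) ∉ F ∧
      (((l : ℕ) : ZMod q) = 1) ∧ IsUnit (lam l - (((l : ℕ) : 𝒪) + 1)))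
    (hd : 2 ≤ d) (hbase : EtaStage M 𝒪 lam d)
    (Sg : Finset ℕ) (hSg : ∀ x ∈ Sg, x.Prime ∧ ¬ x ∣ M ∧ x ≠ p)
    {q : ℕ} (hq : q.Prime) (hqS : q ∉ Sg) (hqM : ¬ q ∣ M) (hqp : q ≠ p)
    (S0 : Finset ℕ) (hMS0 : ∀ r : ℕ, r.Prime → r ∣ M → r ∈ S0)
    (hSgS0 : ∀ x ∈ insert q Sg, x ∈ S0)
    (hno : ∀ b : Nat.Primes, (b : ℕ) ∣ M → NonOccAt 𝒪 S0 b lam)
    (hYN : Y.rt.N = M * ∏ x ∈ Sg, x ^ 2) (hYS : Y.rt.S = (↑S0 : Set ℕ))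
    (hYw : Y.w = omegaCard Y.rt.N 𝒪 (lamAt lam Sg))
    (hYχ : ∀ (ℓ : ℕ) (hℓ : ℓ.Prime) (hℓN : ¬ ℓ ∣ Y.rt.N) (hℓS : ℓ ∉ Y.rt.S),
      pointChar Y (heckeAlgebra.T hℓ hℓN hℓS) = lam ⟨ℓ, hℓ⟩)
    {N₀ : ℕ} [NeZero N₀] (h : ExactDvd p (N₀ * p)) (hpS : p ∈ S0)
    (hNS : ∀ r : ℕ, r.Prime → r ∣ N₀ * p → r ∈ S0)
    (hN' : N₀ * p = M * ∏ x ∈ insert q Sg, x ^ 2)
    (hnew : EtaStage (N₀ * p) 𝒪 (lamAt lam (insert q Sg)) d →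
      ∀ [(mLam (N₀ * p) 𝒪 (lamAt lam (insert q Sg))).IsMaximal],
      ∀ x ∈ locPart (mLam (N₀ * p) 𝒪 (lamAt lam (insert q Sg))) (𝒪 ⊗[ℤ] Lam (N₀ * p)),
        (betaP ℤ (not_dvd_of_exactDvd h)).toIntLinearMap.baseChange 𝒪 x = 0) :
    ∃ (T' : Type) (_ : CommRing T') (_ : IsLocalRing T') (_ : Algebra 𝒪 T')
      (_ : Module.Finite 𝒪 T') (_ : Module.Free 𝒪 T')
      (π' : heckeAlgebra (N₀ * p) 2 (↑S0 : Set ℕ) →+* T')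
      (πO' : T' →ₐ[𝒪] 𝒪) (f₀ : Matrix (Fin 2) (Fin 2) 𝒪),
      Algebra.adjoin 𝒪 (Set.range π') = ⊤ ∧
      (∀ t₀ : 𝒪 ⊗[ℤ] heckeAlgebra (N₀ * p) 2 (↑S0 : Set ℕ),
        (∀ (a : 𝒪), ∀ x ∈ (LamNew (not_dvd_of_exactDvd h) :
            AddSubgroup (levelData p (N₀ * p) hpS hNS).Λ),
          (levelData p (N₀ * p) hpS hNS).heckeTensor 𝒪 t₀ (a ⊗ₜ[ℤ] x) = 0) →
          Fermat.Agent.GB.B10.L.GalPkgSO.twO (𝒪 := 𝒪) π' t₀ = 0) ∧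
      (∀ (ℓ : ℕ) (hℓ : ℓ.Prime) (hℓN' : ¬ ℓ ∣ N₀ * p) (hℓS' : ℓ ∉ (↑S0 : Set ℕ)),
        πO' (π' (heckeAlgebra.T hℓ hℓN' hℓS')) = lam ⟨ℓ, hℓ⟩) ∧
      (∀ Pq : ValuationSubring Qb, Pq.LiesOverPrime q →
        ∀ φ : GQ, Pq.IsFrobeniusAt φ q → f₀.trace = Y.πO (Y.rt.ρT.trace φ)) ∧
      wilesFactor f₀ ((q : ℕ) : 𝒪) ≠ 0 ∧
      Y.w * Nat.card (𝒪 ⧸ Ideal.span {wilesFactor f₀ ((q : ℕ) : 𝒪)}) ^ d
        ≤ omegaCard (N₀ * p) 𝒪 (lamAt lam (insert q Sg)) ∧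
      omegaCard (N₀ * p) 𝒪 (lamAt lam (insert q Sg)) ≤ etaCard πO' ^ d := by
  obtain ⟨T', i1, i2, i3, i4, i5, π', πO', f₀, hgen, hfaith, heig, hfr, hc, heta, hM1⟩ :=
    Fermat.Agent.GE9.Stage.SupplySOFrob.exists_supplySO_frob Y p hp2 hp𝒪 hϖ hpϖ hsq lam hne hd
      hbase Sg hSg hq hqS hqM hqp S0 hpS hMS0 hSgS0 hno hYN hYS hYw hYχ
      (not_dvd_of_exactDvd h) hN' hnew
  exact ⟨T', i1, i2, i3, i4, i5, π', πO', f₀, hgen,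
    Fermat.Agent.GE9.Stage.HannPlug.hann_of_betaP_clause hpS hNS (not_dvd_of_exactDvd h) π' hfaith,
    heig, hfr, hc, heta, hM1⟩

end Fermat.Agent.GE9.Stage.SupplySOPlug
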